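/-
Project DS (S48), cell DS-G (final group-theoretic assembly): the three seams CONSUMED by `dsg_main`
(ruling of the DS chief architect, master plan v2), in the vocabulary of `DS/Seams.lean` v2: all
algebraic numbers live in `ℂ`, "reduction modulo a place above `ℓ`" is a ring homomorphism
`φ : ds_Zb →+* k` (`ds_Zb = integralClosure ℤ ℂ`), `k` an algebraically closed field of
characteristic `ℓ`.

* `dsg_Chebotarev`  (C) the Chebotarev density theorem over `ℚ`, Dirichlet-density form, for a finite
                    quotient `φ : Γℚ ↠ G'` of finite level and a conjugation-stable subset `C ⊆ G'`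
                    (this is the former `ds_SeamC` VERBATIM; producer: cell DS-C, `dcc_export`);
* `dsg_FewTraces`   (A) for every `η > 0` there is a finite set `T` of algebraic integers such that
                    the set of primes `p ∤ N` with `a p ∉ T` has upper Dirichlet density `≤ η`
                    (producer: adapter from `ds_SeamB`);
* `dsg_ModL`        (T) for every large prime `ℓ` and every place `φ` above `ℓ` a semisimple
                    representation `Γℚ → GL₂(k)` of finite level, unramified outside `N ℓ`, with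
                    `tr Frob_p = φ(a p)`, `det Frob_p = φ(e p)`
                    (producer: adapter `ds_SeamB → ds_SeamW → ds_SeamT → dsg_ModL`).
-/
import Mathlib
import Fermat.Agent.DS.Seams

set_option autoImplicit false

noncomputable section

open scoped MatrixGroups

namespace Fermat.Agent.DS

/-- **(C)** the Chebotarev density theorem over `ℚ`, Dirichlet-density form, for a finite
quotient `φ : Γℚ ↠ G'` and a conjugation-stable subset `C ⊆ G'`; `S` = the ramified primes. -/
def dsg_Chebotarev : Prop :=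
  ∀ (G' : Type) [Group G'] [Finite G'] (φ : ds_G →* G'), GaloisFactorsThroughFiniteLevel φ →
    Function.Surjective φ → ∀ C : Set G', (∀ g h : G', g ∈ C → h * g * h⁻¹ ∈ C) →
      ∃ S : Finset ℕ, ∀ δ : ℝ, 0 < δ → ∃ s₀ : ℝ, 1 < s₀ ∧ ∀ s : ℝ, 1 < s → s < s₀ →
        |ds_primeSum {p | p ∉ S ∧ ∀ σ : ds_G, ds_FrobAt σ p → φ σ ∈ C} (fun _ => 1) s -
            (Nat.card C : ℝ) / (Nat.card G' : ℝ) * Real.log (1 / (s - 1))| ≤
          δ * Real.log (1 / (s - 1))

/-- **(A)** few traces: for every `η > 0` there is a finite set `T` of algebraic integers such that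
the set of primes `p ∤ N` with `a p ∉ T` has upper Dirichlet density at most `η`. -/
def dsg_FewTraces (N : ℕ) (a : ℕ → ℂ) : Prop :=
  ∀ η : ℝ, 0 < η → ∃ T : Finset ds_Zb,
    ds_UpperDensityLE {p | p.Prime ∧ ¬ p ∣ N ∧ ∀ x ∈ T, (x : ℂ) ≠ a p} η

/-- **(T)** the mod-`ℓ` representations: for every large prime `ℓ`, every algebraically closed
field `k` of characteristic `ℓ` and every `φ : ℤ̄ → k` a semisimple representation `Γℚ → GL₂(k)` of
finite level, unramified outside `N ℓ`, with `tr Frob_p = φ(a p)` and `det Frob_p = φ(e p)`. -/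
def dsg_ModL (N : ℕ) (a e : ℕ → ℂ) : Prop :=
  ∃ ℓ₀ : ℕ, ∀ (ℓ : ℕ) [Fact ℓ.Prime], ℓ₀ ≤ ℓ →
    ∀ (k : Type) [Field k] [IsAlgClosed k] [CharP k ℓ] (φ : ds_Zb →+* k),
      ∃ ρ : ds_G →* GL (Fin 2) k, GaloisFactorsThroughFiniteLevel ρ ∧ ds_Semisimple ρ ∧
        ∀ p : ℕ, p.Prime → ¬ p ∣ N * ℓ → ∀ x y : ds_Zb, (x : ℂ) = a p → (y : ℂ) = e p →
          ds_UnramFrob ρ p (φ x) (φ y)

end Fermat.Agent.DS
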