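/-
DS-G [G-LIFT], part 1 (helper6's DS-G architecture v1, #1578): the abstract lifting theorem.

`R` a commutative ring, `I` an ideal with `IsAdicComplete I R`, `Γ` a finite group whose order is
invertible in `R`.  Every homomorphism `ρbar : Γ →* GL (Fin n) (R ⧸ I)` (more generally into
`GL (Fin n) k` along a surjection `π : R →+* k` with kernel `I`) lifts to `ρ : Γ →* GL (Fin n) R`.

Proof (no cohomology, no Schur–Zassenhaus, no finiteness of the residue ring): quadratic averaging
iteration.  If `s : Γ → GL_n(R)` is multiplicative modulo `I ^ m`, put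
`s' g := |Γ|⁻¹ ∑ h, s (g h) (s h)⁻¹`.  Then `s' ≡ s` modulo `I ^ m`, `s' 1 = 1`, and `s'` is
multiplicative modulo `I ^ (2 m)`: with `X g h := s (g h) (s h)⁻¹` one has the exact identity
`X g (k h) * X k h = X (g k) h`, and the deviations `X g (k h) - s' g`, `X k h - s' k` of the factors
from their means sum to zero, so `s' (g k) - s' g * s' k` is the mean of products of two deviations.
The limit exists by adic completeness.

Owner: helper28.  Prefix `dsg_lift_`.
-/
import Mathlib

set_option autoImplicit false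

namespace Fermat.Agent.DS

open Matrix

section small

variable {R : Type*} [CommRing R] (I : Ideal R) {n : ℕ}

/-- all entries of the matrix lie in `I ^ m`. -/
def dsg_lift_Small (m : ℕ) (X : Matrix (Fin n) (Fin n) R) : Prop := ∀ i j, X i j ∈ I ^ m

variable {I}

theorem dsg_lift_small_zero (m : ℕ) : dsg_lift_Small I m (0 : Matrix (Fin n) (Fin n) R) :=
  fun _ _ => (I ^ m).zero_mem

theorem dsg_lift_small_add {m : ℕ} {X Y : Matrix (Fin n) (Fin n) R} (hX : dsg_lift_Small I m X)
    (hY : dsg_lift_Small I m Y) : dsg_lift_Small I m (X + Y) :=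
  fun i j => (I ^ m).add_mem (hX i j) (hY i j)

theorem dsg_lift_small_sub {m : ℕ} {X Y : Matrix (Fin n) (Fin n) R} (hX : dsg_lift_Small I m X)
    (hY : dsg_lift_Small I m Y) : dsg_lift_Small I m (X - Y) :=
  fun i j => (I ^ m).sub_mem (hX i j) (hY i j)

theorem dsg_lift_small_neg {m : ℕ} {X : Matrix (Fin n) (Fin n) R} (hX : dsg_lift_Small I m X) :
    dsg_lift_Small I m (-X) :=
  fun i j => (I ^ m).neg_mem (hX i j)

theorem dsg_lift_small_smul {m : ℕ} (c : R) {X : Matrix (Fin n) (Fin n) R}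
    (hX : dsg_lift_Small I m X) : dsg_lift_Small I m (c • X) :=
  fun i j => (I ^ m).mul_mem_left c (hX i j)

theorem dsg_lift_small_sum {m : ℕ} {ι : Type*} (s : Finset ι) (X : ι → Matrix (Fin n) (Fin n) R)
    (hX : ∀ a ∈ s, dsg_lift_Small I m (X a)) : dsg_lift_Small I m (∑ a ∈ s, X a) := by
  intro i j
  rw [Matrix.sum_apply]
  exact (I ^ m).sum_mem fun a ha => hX a ha i j

theorem dsg_lift_small_mul_left {m : ℕ} (A : Matrix (Fin n) (Fin n) R)
    {X : Matrix (Fin n) (Fin n) R} (hX : dsg_lift_Small I m X) : dsg_lift_Small I m (A * X) := by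
  intro i j
  rw [Matrix.mul_apply]
  exact (I ^ m).sum_mem fun a _ => (I ^ m).mul_mem_left _ (hX a j)

theorem dsg_lift_small_mul_right {m : ℕ} (A : Matrix (Fin n) (Fin n) R)
    {X : Matrix (Fin n) (Fin n) R} (hX : dsg_lift_Small I m X) : dsg_lift_Small I m (X * A) := by
  intro i j
  rw [Matrix.mul_apply]
  exact (I ^ m).sum_mem fun a _ => (I ^ m).mul_mem_right _ (hX i a)

theorem dsg_lift_small_mul {a b : ℕ} {X Y : Matrix (Fin n) (Fin n) R}
    (hX : dsg_lift_Small I a X) (hY : dsg_lift_Small I b Y) : dsg_lift_Small I (a + b) (X * Y) := by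
  intro i j
  rw [Matrix.mul_apply, pow_add]
  exact (I ^ a * I ^ b).sum_mem fun c _ => Ideal.mul_mem_mul (hX i c) (hY c j)

theorem dsg_lift_small_mono {a b : ℕ} (hab : a ≤ b) {X : Matrix (Fin n) (Fin n) R}
    (hX : dsg_lift_Small I b X) : dsg_lift_Small I a X :=
  fun i j => Ideal.pow_le_pow_right hab (hX i j)

end small

section step

variable {R : Type*} [CommRing R] {I : Ideal R} {n : ℕ} {Γ : Type*} [Group Γ] [Fintype Γ]

/-- one averaging step. -/
def dsg_lift_avg (c : R) (s t : Γ → Matrix (Fin n) (Fin n) R) (g : Γ) :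
    Matrix (Fin n) (Fin n) R :=
  c • ∑ h, s (g * h) * t h

theorem dsg_lift_avg_one (c : R) (hc : c * (Fintype.card Γ : R) = 1)
    (s t : Γ → Matrix (Fin n) (Fin n) R) (hst : ∀ g, s g * t g = 1) :
    dsg_lift_avg c s t 1 = 1 := by
  unfold dsg_lift_avg
  simp only [one_mul, hst, Finset.sum_const, Finset.card_univ]
  rw [← Nat.cast_smul_eq_nsmul R, smul_smul, hc, one_smul]

end step

section step

variable {R : Type*} [CommRing R] {I : Ideal R} {n : ℕ} {Γ : Type*} [Group Γ] [Fintype Γ]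

theorem dsg_lift_avg_sub (c : R) (hc : c * (Fintype.card Γ : R) = 1)
    (s t : Γ → Matrix (Fin n) (Fin n) R) (hst : ∀ g, s g * t g = 1) (g : Γ) :
    dsg_lift_avg c s t g - s g = c • ∑ h, (s (g * h) - s g * s h) * t h := by
  have key : s g = c • ∑ h : Γ, (s g * s h) * t h := by
    simp only [mul_assoc, hst, mul_one, Finset.sum_const, Finset.card_univ]
    rw [← Nat.cast_smul_eq_nsmul R, smul_smul, hc, one_smul]
  conv_lhs => rw [key]
  unfold dsg_lift_avg
  rw [← smul_sub, ← Finset.sum_sub_distrib]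
  congr 1
  refine Finset.sum_congr rfl fun h _ => ?_
  rw [sub_mul]

theorem dsg_lift_avg_close (c : R) (hc : c * (Fintype.card Γ : R) = 1)
    (s t : Γ → Matrix (Fin n) (Fin n) R) (hst : ∀ g, s g * t g = 1) {m : ℕ}
    (hmul : ∀ g h, dsg_lift_Small I m (s (g * h) - s g * s h)) (g : Γ) :
    dsg_lift_Small I m (dsg_lift_avg c s t g - s g) := by
  rw [dsg_lift_avg_sub c hc s t hst]
  exact dsg_lift_small_smul c (dsg_lift_small_sum _ _ fun h _ =>
    dsg_lift_small_mul_right _ (hmul g h))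

theorem dsg_lift_avg_mul (c : R) (hc : c * (Fintype.card Γ : R) = 1)
    (s t : Γ → Matrix (Fin n) (Fin n) R) (hst : ∀ g, s g * t g = 1) (hts : ∀ g, t g * s g = 1)
    {m : ℕ} (hmul : ∀ g h, dsg_lift_Small I m (s (g * h) - s g * s h)) (g k : Γ) :
    dsg_lift_Small I (m + m)
      (dsg_lift_avg c s t (g * k) - dsg_lift_avg c s t g * dsg_lift_avg c s t k) := by
  set a : Γ → Matrix (Fin n) (Fin n) R := dsg_lift_avg c s t with ha
  -- the deviations
  set x : Γ → Matrix (Fin n) (Fin n) R := fun h => s (g * (k * h)) * t (k * h) - a g with hx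
  set y : Γ → Matrix (Fin n) (Fin n) R := fun h => s (k * h) * t h - a k with hy
  have hcard : ∀ M : Matrix (Fin n) (Fin n) R, c • ∑ _h : Γ, M = M := by
    intro M
    rw [Finset.sum_const, Finset.card_univ, ← Nat.cast_smul_eq_nsmul R, smul_smul, hc, one_smul]
  have hag : a g = c • ∑ h : Γ, s (g * (k * h)) * t (k * h) := by
    rw [ha]
    unfold dsg_lift_avg
    congr 1
    exact (Equiv.sum_comp (Equiv.mulLeft k) (fun h => s (g * h) * t h)).symm
  have hsx : c • ∑ h : Γ, x h = 0 := by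
    rw [hx]
    simp only
    rw [Finset.sum_sub_distrib, smul_sub, ← hag, hcard, sub_self]
  have hsy : c • ∑ h : Γ, y h = 0 := by
    rw [hy]
    simp only
    rw [Finset.sum_sub_distrib, smul_sub, hcard]
    have : a k = c • ∑ h : Γ, s (k * h) * t h := rfl
    rw [← this, sub_self]
  have hprod : ∀ h : Γ, s (g * k * h) * t h = (a g + x h) * (a k + y h) := by
    intro h
    rw [hx, hy]
    simp only [add_sub_cancel]
    rw [mul_assoc (s (g * (k * h))), ← mul_assoc (t (k * h)), hts, one_mul, mul_assoc g k h]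
  have hmain : a (g * k) - a g * a k = c • ∑ h : Γ, x h * y h := by
    have h1 : a (g * k) = c • ∑ h : Γ, (a g + x h) * (a k + y h) := by
      rw [ha]
      unfold dsg_lift_avg
      congr 1
      exact Finset.sum_congr rfl fun h _ => hprod h
    rw [h1]
    have h2 : ∀ h : Γ, (a g + x h) * (a k + y h) =
        a g * a k + x h * a k + a g * y h + x h * y h := by
      intro h
      noncomm_ring
    simp only [h2, Finset.sum_add_distrib, smul_add]
    rw [hcard, ← Finset.sum_mul, ← Finset.mul_sum, ← smul_mul_assoc, ← mul_smul_comm, hsx, hsy,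
      zero_mul, mul_zero, add_zero, add_zero, add_sub_cancel_left]
  rw [hmain]
  refine dsg_lift_small_smul c (dsg_lift_small_sum _ _ fun h _ => dsg_lift_small_mul ?_ ?_)
  · -- x h small
    have e : x h = (s (g * (k * h)) - s g * s (k * h)) * t (k * h) - (a g - s g) := by
      rw [hx]
      simp only
      rw [sub_mul, mul_assoc, hst, mul_one]
      abel
    rw [e]
    exact dsg_lift_small_sub (dsg_lift_small_mul_right _ (hmul g (k * h)))
      (dsg_lift_avg_close c hc s t hst hmul g)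
  · have e : y h = (s (k * h) - s k * s h) * t h - (a k - s k) := by
      rw [hy]
      simp only
      rw [sub_mul, mul_assoc, hst, mul_one]
      abel
    rw [e]
    exact dsg_lift_small_sub (dsg_lift_small_mul_right _ (hmul k h))
      (dsg_lift_avg_close c hc s t hst hmul k)

end step

section units

variable {R : Type*} [CommRing R] {I : Ideal R} {n : ℕ}

theorem dsg_lift_isUnit_add (hI : I ≤ Ideal.jacobson ⊥) {u i : R} (hu : IsUnit u) (hi : i ∈ I) :
    IsUnit (u + i) := by
  obtain ⟨v, rfl⟩ := hu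
  have h := (Ideal.mem_jacobson_bot.1 (hI hi)) (↑v⁻¹ : R)
  have e : (v : R) + i = (i * (↑v⁻¹ : R) + 1) * v := by
    rw [add_mul, mul_assoc, Units.inv_mul, mul_one, one_mul, add_comm]
  rw [e]
  exact h.mul v.isUnit

theorem dsg_lift_det_sub_mem {A B : Matrix (Fin n) (Fin n) R}
    (hAB : dsg_lift_Small I 1 (B - A)) : B.det - A.det ∈ I := by
  rw [← Ideal.Quotient.eq]
  have hmap : B.map (Ideal.Quotient.mk I) = A.map (Ideal.Quotient.mk I) := by
    ext i j
    rw [Matrix.map_apply, Matrix.map_apply, Ideal.Quotient.eq]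
    have := hAB i j
    rwa [pow_one, Matrix.sub_apply] at this
  rw [RingHom.map_det, RingHom.map_det]
  exact congrArg Matrix.det hmap

theorem dsg_lift_isUnit_of_close (hI : I ≤ Ideal.jacobson ⊥) {A B : Matrix (Fin n) (Fin n) R}
    (hA : IsUnit A) (hAB : dsg_lift_Small I 1 (B - A)) : IsUnit B := by
  rw [Matrix.isUnit_iff_isUnit_det] at hA ⊢
  have h := dsg_lift_isUnit_add hI hA (dsg_lift_det_sub_mem hAB)
  rwa [add_sub_cancel] at h

end units

section limit

variable {R : Type*} [CommRing R] (I : Ideal R)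

theorem dsg_lift_adic_limit [IsAdicComplete I R] (f : ℕ → R) (hf : ∀ j, f (j + 1) - f j ∈ I ^ j) :
    ∃ L : R, ∀ j, f j - L ∈ I ^ j := by
  have hcauchy : ∀ {m k : ℕ}, m ≤ k → f m ≡ f k [SMOD (I ^ m • ⊤ : Submodule R R)] := by
    intro m k hmk
    induction k, hmk using Nat.le_induction with
    | base => exact SModEq.refl _
    | succ k hmk ih =>
      refine ih.trans ?_
      rw [SModEq.sub_mem, smul_eq_mul, Ideal.mul_top]
      have := Ideal.pow_le_pow_right hmk (hf k)
      rw [← neg_sub]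
      exact (I ^ m).neg_mem this
  obtain ⟨L, hL⟩ := IsPrecomplete.prec' (I := I) f hcauchy
  refine ⟨L, fun j => ?_⟩
  have := hL j
  rwa [SModEq.sub_mem, smul_eq_mul, Ideal.mul_top] at this

theorem dsg_lift_eq_zero_of_mem_pow [IsAdicComplete I R] {x : R} (hx : ∀ j, x ∈ I ^ j) : x = 0 := by
  apply IsHausdorff.haus' (I := I) x
  intro j
  rw [SModEq.sub_mem, smul_eq_mul, Ideal.mul_top, sub_zero]
  exact hx j

end limit

section iterate

variable {R : Type*} [CommRing R] (I : Ideal R) {n : ℕ} {Γ : Type*} [Group Γ] [Fintype Γ]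

/-- the averaged matrix attached to a unit-valued map. -/
def dsg_lift_avgU (c : R) (s : Γ → (Matrix (Fin n) (Fin n) R)ˣ) (g : Γ) :
    Matrix (Fin n) (Fin n) R :=
  dsg_lift_avg c (fun g => (s g : Matrix (Fin n) (Fin n) R))
    (fun g => ((s g)⁻¹ : (Matrix (Fin n) (Fin n) R)ˣ)) g

open Classical in
/-- one improvement step on unit-valued maps. -/
noncomputable def dsg_lift_next (c : R) (s : Γ → (Matrix (Fin n) (Fin n) R)ˣ) (g : Γ) :
    (Matrix (Fin n) (Fin n) R)ˣ :=
  if h : IsUnit (dsg_lift_avgU c s g) then h.unit else 1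

/-- the sequence of improved maps. -/
noncomputable def dsg_lift_seq (c : R) (s₀ : Γ → (Matrix (Fin n) (Fin n) R)ˣ) :
    ℕ → Γ → (Matrix (Fin n) (Fin n) R)ˣ
  | 0 => s₀
  | j + 1 => dsg_lift_next c (dsg_lift_seq c s₀ j)

variable {I}

theorem dsg_lift_next_coe (hI : I ≤ Ideal.jacobson ⊥) (c : R)
    (hc : c * (Fintype.card Γ : R) = 1) (s : Γ → (Matrix (Fin n) (Fin n) R)ˣ) {m : ℕ}
    (hm : 1 ≤ m)
    (hmul : ∀ g h, dsg_lift_Small I m
      ((s (g * h) : Matrix (Fin n) (Fin n) R) - (s g : Matrix (Fin n) (Fin n) R) * (s h : Matrix (Fin n) (Fin n) R))) (g : Γ) :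
    (dsg_lift_next c s g : Matrix (Fin n) (Fin n) R) = dsg_lift_avgU c s g := by
  have hclose := dsg_lift_avg_close c hc (fun g => (s g : Matrix (Fin n) (Fin n) R))
    (fun g => ((s g)⁻¹ : (Matrix (Fin n) (Fin n) R)ˣ)) (fun g => Units.mul_inv _) hmul g
  have hu : IsUnit (dsg_lift_avgU c s g) :=
    dsg_lift_isUnit_of_close hI (s g).isUnit (dsg_lift_small_mono hm hclose)
  unfold dsg_lift_next
  rw [dif_pos hu]
  rfl

theorem dsg_lift_seq_spec (hI : I ≤ Ideal.jacobson ⊥) (c : R)
    (hc : c * (Fintype.card Γ : R) = 1) (s₀ : Γ → (Matrix (Fin n) (Fin n) R)ˣ)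
    (h₀ : ∀ g h, dsg_lift_Small I 1
      ((s₀ (g * h) : Matrix (Fin n) (Fin n) R) - (s₀ g : Matrix (Fin n) (Fin n) R) * (s₀ h : Matrix (Fin n) (Fin n) R)))
    (j : ℕ) :
    ∀ g h, dsg_lift_Small I (j + 1)
      ((dsg_lift_seq c s₀ j (g * h) : Matrix (Fin n) (Fin n) R) -
        (dsg_lift_seq c s₀ j g : Matrix (Fin n) (Fin n) R) *
          (dsg_lift_seq c s₀ j h : Matrix (Fin n) (Fin n) R)) := by
  induction j with
  | zero => exact h₀
  | succ j ih =>
    intro g h
    have hcoe := dsg_lift_next_coe hI c hc (dsg_lift_seq c s₀ j) (Nat.succ_le_succ (Nat.zero_le j)) ih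
    show dsg_lift_Small I (j + 1 + 1)
      ((dsg_lift_next c (dsg_lift_seq c s₀ j) (g * h) : Matrix (Fin n) (Fin n) R) -
        (dsg_lift_next c (dsg_lift_seq c s₀ j) g : Matrix (Fin n) (Fin n) R) *
          (dsg_lift_next c (dsg_lift_seq c s₀ j) h : Matrix (Fin n) (Fin n) R))
    rw [hcoe, hcoe, hcoe]
    have := dsg_lift_avg_mul c hc (fun g => (dsg_lift_seq c s₀ j g : Matrix (Fin n) (Fin n) R))
      (fun g => ((dsg_lift_seq c s₀ j g)⁻¹ : (Matrix (Fin n) (Fin n) R)ˣ))
      (fun g => Units.mul_inv _) (fun g => Units.inv_mul _) ih g h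
    exact dsg_lift_small_mono (by omega) this

theorem dsg_lift_seq_close (hI : I ≤ Ideal.jacobson ⊥) (c : R)
    (hc : c * (Fintype.card Γ : R) = 1) (s₀ : Γ → (Matrix (Fin n) (Fin n) R)ˣ)
    (h₀ : ∀ g h, dsg_lift_Small I 1
      ((s₀ (g * h) : Matrix (Fin n) (Fin n) R) - (s₀ g : Matrix (Fin n) (Fin n) R) * (s₀ h : Matrix (Fin n) (Fin n) R)))
    (j : ℕ) (g : Γ) :
    dsg_lift_Small I (j + 1)
      ((dsg_lift_seq c s₀ (j + 1) g : Matrix (Fin n) (Fin n) R) -
        (dsg_lift_seq c s₀ j g : Matrix (Fin n) (Fin n) R)) := by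
  have ih := dsg_lift_seq_spec hI c hc s₀ h₀ j
  have hcoe := dsg_lift_next_coe hI c hc (dsg_lift_seq c s₀ j) (Nat.succ_le_succ (Nat.zero_le j)) ih
  show dsg_lift_Small I (j + 1)
    ((dsg_lift_next c (dsg_lift_seq c s₀ j) g : Matrix (Fin n) (Fin n) R) - _)
  rw [hcoe]
  exact dsg_lift_avg_close c hc (fun g => (dsg_lift_seq c s₀ j g : Matrix (Fin n) (Fin n) R))
    (fun g => ((dsg_lift_seq c s₀ j g)⁻¹ : (Matrix (Fin n) (Fin n) R)ˣ))
    (fun g => Units.mul_inv _) ih g

theorem dsg_lift_seq_one (hI : I ≤ Ideal.jacobson ⊥) (c : R)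
    (hc : c * (Fintype.card Γ : R) = 1) (s₀ : Γ → (Matrix (Fin n) (Fin n) R)ˣ)
    (h₀ : ∀ g h, dsg_lift_Small I 1
      ((s₀ (g * h) : Matrix (Fin n) (Fin n) R) - (s₀ g : Matrix (Fin n) (Fin n) R) * (s₀ h : Matrix (Fin n) (Fin n) R)))
    (j : ℕ) : (dsg_lift_seq c s₀ (j + 1) 1 : Matrix (Fin n) (Fin n) R) = 1 := by
  have ih := dsg_lift_seq_spec hI c hc s₀ h₀ j
  have hcoe := dsg_lift_next_coe hI c hc (dsg_lift_seq c s₀ j) (Nat.succ_le_succ (Nat.zero_le j)) ih
  show (dsg_lift_next c (dsg_lift_seq c s₀ j) 1 : Matrix (Fin n) (Fin n) R) = 1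
  rw [hcoe]
  exact dsg_lift_avg_one c hc _ _ (fun g => Units.mul_inv _)

end iterate

section main

variable {R : Type*} [CommRing R] (I : Ideal R) [IsAdicComplete I R] {n : ℕ} {Γ : Type*} [Group Γ]

theorem dsg_lift_exists_aux [Fintype Γ] (c : R) (hc : c * (Fintype.card Γ : R) = 1)
    (s₀ : Γ → (Matrix (Fin n) (Fin n) R)ˣ)
    (h₀ : ∀ g h, dsg_lift_Small I 1
      ((s₀ (g * h) : Matrix (Fin n) (Fin n) R) -
        (s₀ g : Matrix (Fin n) (Fin n) R) * (s₀ h : Matrix (Fin n) (Fin n) R))) :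
    ∃ ρ : Γ →* Matrix (Fin n) (Fin n) R,
      ∀ g, dsg_lift_Small I 1 (ρ g - (s₀ g : Matrix (Fin n) (Fin n) R)) := by
  have hI : I ≤ Ideal.jacobson ⊥ := IsAdicComplete.le_jacobson_bot I
  set S := dsg_lift_seq c s₀ with hS
  have hstep : ∀ g a b j, (S (j + 1) g : Matrix (Fin n) (Fin n) R) a b -
      (S j g : Matrix (Fin n) (Fin n) R) a b ∈ I ^ j := by
    intro g a b j
    have := dsg_lift_seq_close hI c hc s₀ h₀ j g a b
    rw [Matrix.sub_apply] at this
    exact Ideal.pow_le_pow_right (Nat.le_succ j) this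
  choose L hL using fun g a b => dsg_lift_adic_limit I
    (fun j => (S j g : Matrix (Fin n) (Fin n) R) a b) (hstep g a b)
  set ρm : Γ → Matrix (Fin n) (Fin n) R := fun g => Matrix.of fun a b => L g a b with hρm
  have hclose : ∀ j g, dsg_lift_Small I j ((S j g : Matrix (Fin n) (Fin n) R) - ρm g) := by
    intro j g a b
    rw [Matrix.sub_apply]
    exact hL g a b j
  have hspec := dsg_lift_seq_spec hI c hc s₀ h₀
  have hmul : ∀ g h, ρm (g * h) = ρm g * ρm h := by
    intro g h
    rw [← sub_eq_zero]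
    ext a b
    rw [Matrix.zero_apply]
    apply dsg_lift_eq_zero_of_mem_pow I
    intro j
    have e : ρm (g * h) - ρm g * ρm h =
        -((S j (g * h) : Matrix (Fin n) (Fin n) R) - ρm (g * h)) +
          ((S j (g * h) : Matrix (Fin n) (Fin n) R) -
            (S j g : Matrix (Fin n) (Fin n) R) * (S j h : Matrix (Fin n) (Fin n) R)) +
          (((S j g : Matrix (Fin n) (Fin n) R) - ρm g) * (S j h : Matrix (Fin n) (Fin n) R) +
            ρm g * ((S j h : Matrix (Fin n) (Fin n) R) - ρm h)) := by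
      noncomm_ring
    rw [e]
    exact dsg_lift_small_add (dsg_lift_small_add (dsg_lift_small_neg (hclose j (g * h)))
      (dsg_lift_small_mono (Nat.le_succ j) (hspec j g h)))
      (dsg_lift_small_add (dsg_lift_small_mul_right _ (hclose j g))
        (dsg_lift_small_mul_left _ (hclose j h))) a b
  have hone : ρm 1 = 1 := by
    rw [← sub_eq_zero]
    ext a b
    rw [Matrix.zero_apply]
    apply dsg_lift_eq_zero_of_mem_pow I
    intro j
    have e : ρm 1 - 1 = -((S (j + 1) 1 : Matrix (Fin n) (Fin n) R) - ρm 1) := by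
      rw [hS, dsg_lift_seq_one hI c hc s₀ h₀ j]
      abel
    rw [e]
    exact dsg_lift_small_mono (Nat.le_succ j) (dsg_lift_small_neg (hclose (j + 1) 1)) a b
  refine ⟨{ toFun := ρm, map_one' := hone, map_mul' := hmul }, fun g => ?_⟩
  show dsg_lift_Small I 1 (ρm g - (s₀ g : Matrix (Fin n) (Fin n) R))
  have e : ρm g - (s₀ g : Matrix (Fin n) (Fin n) R) =
      -((S 1 g : Matrix (Fin n) (Fin n) R) - ρm g) +
        ((S 1 g : Matrix (Fin n) (Fin n) R) - (S 0 g : Matrix (Fin n) (Fin n) R)) := by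
    show _ = -((S 1 g : Matrix (Fin n) (Fin n) R) - ρm g) +
        ((S 1 g : Matrix (Fin n) (Fin n) R) - (s₀ g : Matrix (Fin n) (Fin n) R))
    abel
  rw [e]
  exact dsg_lift_small_add (dsg_lift_small_neg (hclose 1 g))
    (dsg_lift_seq_close hI c hc s₀ h₀ 0 g)

end main

section main

variable {R : Type*} [CommRing R] (I : Ideal R) [IsAdicComplete I R] {n : ℕ} {Γ : Type*} [Group Γ]

theorem dsg_lift_isUnit_of_map {k : Type*} [CommRing k] (π : R →+* k)
    (hπ : Function.Surjective π) (hker : RingHom.ker π = I) {x : R} (hx : IsUnit (π x)) :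
    IsUnit x := by
  have hI : I ≤ Ideal.jacobson ⊥ := IsAdicComplete.le_jacobson_bot I
  obtain ⟨y', hy'⟩ := hx.exists_right_inv
  obtain ⟨y, rfl⟩ := hπ y'
  have hmem : x * y - 1 ∈ I := by
    rw [← hker, RingHom.mem_ker, map_sub, map_mul, hy', map_one, sub_self]
  have hu : IsUnit (x * y) := by
    have := dsg_lift_isUnit_add hI isUnit_one hmem
    rwa [add_sub_cancel] at this
  exact isUnit_of_mul_isUnit_left hu

/-- **Lifting representations of a finite group of invertible order** along a surjection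
`π : R → k` whose kernel `I` makes `R` adically complete. -/
theorem dsg_lift_exists_of_surjective [Finite Γ] (hΓ : IsUnit ((Nat.card Γ : ℕ) : R))
    {k : Type*} [CommRing k] (π : R →+* k) (hπ : Function.Surjective π)
    (hker : RingHom.ker π = I) (ρbar : Γ →* GL (Fin n) k) :
    ∃ ρ : Γ →* GL (Fin n) R,
      ∀ g, (ρ g : Matrix (Fin n) (Fin n) R).map π = (ρbar g : Matrix (Fin n) (Fin n) k) := by
  classical
  have : Fintype Γ := Fintype.ofFinite Γ
  obtain ⟨c', hc'⟩ := hΓ.exists_left_inv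
  have hc : c' * (Fintype.card Γ : R) = 1 := by
    rw [← hc', Nat.card_eq_fintype_card]
  -- set-theoretic lift
  let A : Γ → Matrix (Fin n) (Fin n) R := fun g =>
    (ρbar g : Matrix (Fin n) (Fin n) k).map (Function.surjInv hπ)
  have hA : ∀ g, (A g).map π = (ρbar g : Matrix (Fin n) (Fin n) k) := by
    intro g
    ext a b
    simp only [A, Matrix.map_apply]
    exact Function.surjInv_eq hπ _
  have hAu : ∀ g, IsUnit (A g) := by
    intro g
    rw [Matrix.isUnit_iff_isUnit_det]
    apply dsg_lift_isUnit_of_map I π hπ hker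
    rw [RingHom.map_det, RingHom.mapMatrix_apply, hA]
    exact (Matrix.isUnit_iff_isUnit_det _).1 (ρbar g).isUnit
  let s₀ : Γ → (Matrix (Fin n) (Fin n) R)ˣ := fun g => (hAu g).unit
  have hs₀ : ∀ g, (s₀ g : Matrix (Fin n) (Fin n) R) = A g := fun g => rfl
  have hsmall : ∀ X : Matrix (Fin n) (Fin n) R, X.map π = 0 → dsg_lift_Small I 1 X := by
    intro X hX a b
    rw [pow_one, ← hker, RingHom.mem_ker]
    have := congrFun (congrFun hX a) b
    simpa using this
  have h₀ : ∀ g h, dsg_lift_Small I 1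
      ((s₀ (g * h) : Matrix (Fin n) (Fin n) R) -
        (s₀ g : Matrix (Fin n) (Fin n) R) * (s₀ h : Matrix (Fin n) (Fin n) R)) := by
    intro g h
    apply hsmall
    rw [hs₀, hs₀, hs₀]
    have h1 : (A (g * h) - A g * A h).map π = (A (g * h)).map π - (A g).map π * (A h).map π := by
      rw [Matrix.map_sub (f := π) (map_sub π), Matrix.map_mul]
    rw [h1, hA, hA, hA, map_mul, Units.val_mul, sub_self]
  obtain ⟨ρ, hρ⟩ := dsg_lift_exists_aux I c' hc s₀ h₀
  refine ⟨ρ.toHomUnits, fun g => ?_⟩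
  have hcoe : ((ρ.toHomUnits g : GL (Fin n) R) : Matrix (Fin n) (Fin n) R) = ρ g := rfl
  rw [hcoe, ← hA g]
  have hdiff := hρ g
  ext a b
  rw [Matrix.map_apply, Matrix.map_apply, ← sub_eq_zero, ← map_sub, ← RingHom.mem_ker, hker]
  have := hdiff a b
  rwa [pow_one, hs₀, Matrix.sub_apply] at this

/-- the same for the quotient map `R → R ⧸ I`. -/
theorem dsg_lift_exists [Finite Γ] (hΓ : IsUnit ((Nat.card Γ : ℕ) : R))
    (ρbar : Γ →* GL (Fin n) (R ⧸ I)) :
    ∃ ρ : Γ →* GL (Fin n) R, ∀ g, (ρ g : Matrix (Fin n) (Fin n) R).map (Ideal.Quotient.mk I) =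
      (ρbar g : Matrix (Fin n) (Fin n) (R ⧸ I)) :=
  dsg_lift_exists_of_surjective I hΓ (Ideal.Quotient.mk I) Ideal.Quotient.mk_surjective
    Ideal.mk_ker ρbar

end main

end Fermat.Agent.DS
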