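/-
Project DS (S48), cell DS-G, leaf [G-LIFT] part 2: lifting a finite group of order prime to `ℓ`
from characteristic `ℓ` to `ℂ`, at a suitable place `A` of `Q̄` over `ℓ`.

Engine: `W := 𝕎(F̄_ℓ)` (Witt vectors, a complete DVR with algebraically closed residue field),
`L := AlgebraicClosure (Frac W) ≃+* ℂ` (same uncountable cardinality, characteristic zero),
`e := j⁻¹ ∘ ds_iota : Q̄ → L`, `V` a valuation subring of `L` dominating `W`, `A := V.comap e`.
The reduction `W → k_V` is onto with kernel `(ℓ)`, so `dsg_lift_exists_of_surjective` (part 1,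
`DS/Group/Lift.lean`) lifts every `Γ →* GL₂(k_A) ↪ GL₂(k_V)` with `ℓ ∤ |Γ|` to `GL₂(W) ↪ GL₂(ℂ)`.

Main theorem: `dsg_lift_A` (the statement requested by the DS-G architect, finding #1617 (A)).
-/
import Mathlib
import Fermat.Agent.DS.Defs
import Fermat.Agent.DS.Group.Lift

set_option autoImplicit false

noncomputable section

open Cardinal Polynomial

namespace Fermat.Agent.DS

section Setup
variable (ℓ : ℕ) [Fact ℓ.Prime]

abbrev dsg_lw_k : Type := AlgebraicClosure (ZMod ℓ)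

abbrev dsg_lw_W : Type := WittVector ℓ (dsg_lw_k ℓ)

abbrev dsg_lw_K : Type := FractionRing (dsg_lw_W ℓ)

abbrev dsg_lw_L : Type := AlgebraicClosure (dsg_lw_K ℓ)

instance dsg_lw_charZero_W : CharZero (dsg_lw_W ℓ) := by
  obtain ⟨q, hq⟩ := CharP.exists (dsg_lw_W ℓ)
  rcases CharP.char_is_prime_or_zero (dsg_lw_W ℓ) q with hp | h0
  · exfalso
    have h1 : ((q : ℕ) : dsg_lw_W ℓ) = 0 := CharP.cast_eq_zero _ q
    have h2 : ((q : ℕ) : dsg_lw_k ℓ) = 0 := by
      rw [← map_natCast (WittVector.constantCoeff (p := ℓ) (R := dsg_lw_k ℓ)) q, h1, map_zero]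
    have h3 : ℓ ∣ q := (CharP.cast_eq_zero_iff (dsg_lw_k ℓ) ℓ q).1 h2
    have h4 : ℓ = q := (Nat.prime_dvd_prime_iff_eq (Fact.out : ℓ.Prime) hp).1 h3
    subst h4
    exact WittVector.p_nonzero ℓ (dsg_lw_k ℓ) h1
  · subst h0
    exact CharP.charP_to_charZero _

theorem dsg_lw_algebraMap_injective :
    Function.Injective (algebraMap (dsg_lw_W ℓ) (dsg_lw_L ℓ)) := by
  rw [IsScalarTower.algebraMap_eq (dsg_lw_W ℓ) (dsg_lw_K ℓ) (dsg_lw_L ℓ)]
  exact (algebraMap (dsg_lw_K ℓ) (dsg_lw_L ℓ)).injective.comp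
    (IsFractionRing.injective (dsg_lw_W ℓ) (dsg_lw_K ℓ))

instance dsg_lw_charZero_L : CharZero (dsg_lw_L ℓ) :=
  charZero_of_injective_algebraMap (dsg_lw_algebraMap_injective ℓ)

theorem dsg_lw_isAlgebraic (x : dsg_lw_L ℓ) : IsAlgebraic (dsg_lw_W ℓ) x :=
  (IsFractionRing.isAlgebraic_iff (dsg_lw_W ℓ) (dsg_lw_K ℓ) (dsg_lw_L ℓ)).2
    (Algebra.IsAlgebraic.isAlgebraic x)

theorem dsg_lw_mk_W : #(dsg_lw_W ℓ) = 𝔠 := by
  have e : dsg_lw_W ℓ ≃ (ℕ → dsg_lw_k ℓ) :=
    ⟨fun x => x.coeff, fun f => WittVector.mk ℓ f, fun x => by cases x; rfl, fun f => rfl⟩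
  rw [Cardinal.mk_congr e, Cardinal.mk_arrow]
  simp only [lift_id, mk_eq_aleph0]
  refine power_aleph0_of_le_continuum ?_ ?_
  · exact Cardinal.two_le_iff.2 ⟨0, 1, zero_ne_one⟩
  · have h1 : #(dsg_lw_k ℓ) ≤ max #(ZMod ℓ) ℵ₀ :=
      Algebra.IsAlgebraic.cardinalMk_le_max (ZMod ℓ) (dsg_lw_k ℓ)
    refine h1.trans ?_
    refine max_le ?_ aleph0_le_continuum
    exact (Cardinal.mk_le_aleph0).trans aleph0_le_continuum

theorem dsg_lw_mk_L : #(dsg_lw_L ℓ) = 𝔠 := by
  have hK : #(dsg_lw_K ℓ) = 𝔠 := by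
    rw [IsFractionRing.cardinalMk (R := dsg_lw_W ℓ) (dsg_lw_K ℓ), dsg_lw_mk_W]
  apply le_antisymm
  · have h1 := Algebra.IsAlgebraic.cardinalMk_le_max (dsg_lw_K ℓ) (dsg_lw_L ℓ)
    rw [hK] at h1
    simpa [max_eq_left aleph0_le_continuum] using h1
  · rw [← hK]
    exact Cardinal.mk_le_of_injective (algebraMap (dsg_lw_K ℓ) (dsg_lw_L ℓ)).injective

theorem dsg_lw_exists_equiv : Nonempty (dsg_lw_L ℓ ≃+* ℂ) := by
  refine IsAlgClosed.ringEquiv_of_equiv_of_charZero ?_ ?_
  · rw [dsg_lw_mk_L]; exact aleph0_lt_continuum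
  · exact Cardinal.eq.1 (by rw [dsg_lw_mk_L, Cardinal.mk_complex])

end Setup

section Residue

variable {W : Type*} [CommRing W] {L : Type*} [Field L] [Algebra W L]

/-- The map `W → V` for a valuation subring `V` of `L` containing the image of `W`. -/
def dsg_lw_toV (V : ValuationSubring L) (hV : ∀ x : W, algebraMap W L x ∈ V) : W →+* V where
  toFun x := ⟨algebraMap W L x, hV x⟩
  map_one' := Subtype.ext (map_one _)
  map_mul' x y := Subtype.ext (map_mul _ x y)
  map_zero' := Subtype.ext (map_zero _)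
  map_add' x y := Subtype.ext (map_add _ x y)

@[simp] theorem dsg_lw_toV_coe (V : ValuationSubring L) (hV : ∀ x : W, algebraMap W L x ∈ V)
    (x : W) : ((dsg_lw_toV V hV x : V) : L) = algebraMap W L x := rfl

/-- The reduction map `W → k_V`. -/
def dsg_lw_phi (V : ValuationSubring L) (hV : ∀ x : W, algebraMap W L x ∈ V) :
    W →+* IsLocalRing.ResidueField V :=
  (IsLocalRing.residue V).comp (dsg_lw_toV V hV)

variable (ϖ : W) {k₀ : Type*} [Field k₀] (c : W →+* k₀) (hc : Function.Surjective c)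
  (hker : RingHom.ker c = Ideal.span {ϖ})
  (V : ValuationSubring L) (hV : ∀ x : W, algebraMap W L x ∈ V)
  (hϖ : algebraMap W L ϖ ∈ V.nonunits)

include hc hker hϖ in
theorem dsg_lw_ker_phi : RingHom.ker (dsg_lw_phi V hV) = Ideal.span {ϖ} := by
  have hϖ0 : dsg_lw_phi V hV ϖ = 0 := by
    rw [dsg_lw_phi, RingHom.comp_apply, IsLocalRing.residue_eq_zero_iff,
      ← ValuationSubring.coe_mem_nonunits_iff]
    exact hϖ
  ext x
  rw [RingHom.mem_ker]
  constructor
  · intro hx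
    by_contra hx'
    rw [← hker, RingHom.mem_ker] at hx'
    obtain ⟨y, hy⟩ := hc (c x)⁻¹
    have h1 : x * y - 1 ∈ RingHom.ker c := by
      rw [RingHom.mem_ker, map_sub, map_mul, hy, mul_inv_cancel₀ hx', map_one, sub_self]
    rw [hker, Ideal.mem_span_singleton] at h1
    obtain ⟨z, hz⟩ := h1
    have h2 := congrArg (dsg_lw_phi V hV) hz
    rw [map_sub, map_mul, map_mul, hx, hϖ0, zero_mul, zero_mul, map_one, zero_sub] at h2
    exact one_ne_zero (neg_eq_zero.1 h2)
  · intro hx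
    obtain ⟨z, rfl⟩ := Ideal.mem_span_singleton.1 hx
    rw [map_mul, hϖ0, zero_mul]

variable [IsHausdorff (Ideal.span {ϖ}) W]

include hker in
/-- Primitive polynomial: an element of `L` algebraic over `W` is a root of a polynomial over `W`
whose reduction mod `ϖ` is nonzero. -/
theorem dsg_lw_exists_primitive (hinj : Function.Injective (algebraMap W L)) (hϖne : ϖ ≠ 0)
    (x : L) (hx : IsAlgebraic W x) :
    ∃ P : W[X], P.map c ≠ 0 ∧ aeval x P = 0 := by
  have key : ∀ n : ℕ, ∀ P : W[X], (∃ i, P.coeff i ∉ Ideal.span {ϖ ^ n}) → aeval x P = 0 →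
      ∃ Q : W[X], Q.map c ≠ 0 ∧ aeval x Q = 0 := by
    intro n
    induction n with
    | zero =>
      rintro P ⟨i, hi⟩ _
      exact absurd (by simp) hi
    | succ n ih =>
      rintro P ⟨i, hi⟩ hP
      by_cases hPc : P.map c = 0
      · have hdvd : C ϖ ∣ P := by
          rw [Polynomial.C_dvd_iff_dvd_coeff]
          intro j
          have : c (P.coeff j) = 0 := by
            rw [← Polynomial.coeff_map, hPc, Polynomial.coeff_zero]
          rw [← RingHom.mem_ker, hker, Ideal.mem_span_singleton] at this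
          exact this
        obtain ⟨Q, rfl⟩ := hdvd
        refine ih Q ⟨i, fun hQ => hi ?_⟩ ?_
        · rw [Ideal.mem_span_singleton] at hQ ⊢
          obtain ⟨w, hw⟩ := hQ
          exact ⟨w, by rw [Polynomial.coeff_C_mul, hw, pow_succ]; ring⟩
        · rw [map_mul, Polynomial.aeval_C] at hP
          rcases mul_eq_zero.1 hP with h | h
          · exact absurd ((map_eq_zero_iff _ hinj).1 h) hϖne
          · exact h
      · exact ⟨P, hPc, hP⟩
  obtain ⟨P, hP0, hP⟩ := hx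
  obtain ⟨i, hi⟩ : ∃ i, P.coeff i ≠ 0 := by
    by_contra h
    push Not at h
    exact hP0 (Polynomial.ext (by simpa using h))
  have hH : ∃ n : ℕ, P.coeff i ∉ Ideal.span {ϖ ^ n} := by
    by_contra h
    push Not at h
    apply hi
    have := IsHausdorff.haus (I := Ideal.span {ϖ}) (M := W) inferInstance (P.coeff i)
    apply this
    intro n
    rw [SModEq.zero, smul_eq_mul, Ideal.mul_top, Ideal.span_singleton_pow]
    exact h n
  obtain ⟨n, hn⟩ := hH
  exact key n P ⟨i, hn⟩ hP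

include hc hker hϖ in
theorem dsg_lw_phi_surjective [IsAlgClosed k₀] (hinj : Function.Injective (algebraMap W L))
    (hϖne : ϖ ≠ 0) (halg : ∀ x : L, IsAlgebraic W x) :
    Function.Surjective (dsg_lw_phi V hV) := by
  have hkk : RingHom.ker c ≤ RingHom.ker (dsg_lw_phi V hV) := by
    rw [dsg_lw_ker_phi ϖ c hc hker V hV hϖ, hker]
  let σ : k₀ →+* IsLocalRing.ResidueField V := c.liftOfSurjective hc ⟨dsg_lw_phi V hV, hkk⟩
  have hσ : σ.comp c = dsg_lw_phi V hV := c.liftOfSurjective_comp hc ⟨dsg_lw_phi V hV, hkk⟩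
  intro y
  obtain ⟨x, rfl⟩ := IsLocalRing.residue_surjective y
  obtain ⟨P, hP0, hP⟩ := dsg_lw_exists_primitive ϖ c hker hinj hϖne (x : L) (halg _)
  have hroot : ((P.map c).map σ).IsRoot (IsLocalRing.residue V x) := by
    rw [Polynomial.map_map, hσ, Polynomial.IsRoot.def, Polynomial.eval_map]
    have h1 : P.eval₂ (dsg_lw_toV V hV) x = 0 := by
      apply Subtype.ext
      have h := Polynomial.hom_eval₂ P (dsg_lw_toV V hV) V.subtype x
      have hcomp : V.subtype.comp (dsg_lw_toV V hV) = algebraMap W L := RingHom.ext fun _ => rfl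
      rw [hcomp] at h
      have h' : ((P.eval₂ (dsg_lw_toV V hV) x : V) : L) = aeval (x : L) P := by
        rw [Polynomial.aeval_def]; exact h
      rw [h', hP]; rfl
    have h2 := Polynomial.hom_eval₂ P (dsg_lw_toV V hV) (IsLocalRing.residue V) x
    rw [h1, map_zero] at h2
    exact h2.symm
  obtain ⟨a, ha⟩ := (IsAlgClosed.splits (P.map c)).mem_range_of_isRoot hP0 hroot
  obtain ⟨w, rfl⟩ := hc a
  exact ⟨w, by rw [← hσ]; exact ha⟩

end Residue

section FiniteOrder

variable {L : Type*} [Field L]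

theorem dsg_lw_eigen_pow (M : Matrix (Fin 2) (Fin 2) L) {N : ℕ} (hM : M ^ N = 1)
    (a : L) (ha : a ^ 2 - M.trace * a + M.det = 0) : a ^ N = 1 := by
  have hdet : (Matrix.scalar (Fin 2) a - M).det = 0 := by
    rw [Matrix.det_fin_two]
    simp only [Matrix.sub_apply, Matrix.scalar_apply, Matrix.diagonal_apply_eq,
      Matrix.diagonal_apply_ne _ (show (0 : Fin 2) ≠ 1 by decide),
      Matrix.diagonal_apply_ne _ (show (1 : Fin 2) ≠ 0 by decide)]
    rw [Matrix.trace_fin_two, Matrix.det_fin_two] at ha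
    linear_combination ha
  obtain ⟨v, hv0, hv⟩ := Matrix.exists_mulVec_eq_zero_iff.2 hdet
  have hMv : M.mulVec v = a • v := by
    rw [Matrix.sub_mulVec, sub_eq_zero] at hv
    rw [← hv]
    ext i
    simp [Matrix.mulVec, dotProduct, Matrix.scalar_apply, Matrix.diagonal_apply]
  have hpow : ∀ n : ℕ, (M ^ n).mulVec v = a ^ n • v := by
    intro n
    induction n with
    | zero => simp
    | succ n ih =>
      rw [pow_succ, ← Matrix.mulVec_mulVec, hMv, Matrix.mulVec_smul, ih, smul_smul, pow_succ,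
        mul_comm]
  have h1 := hpow N
  rw [hM, Matrix.one_mulVec] at h1
  by_contra hne
  apply hv0
  have h2 : (a ^ N - 1) • v = 0 := by rw [sub_smul, one_smul, ← h1, sub_self]
  rcases smul_eq_zero.1 h2 with h | h
  · exact absurd (sub_eq_zero.1 h) hne
  · exact h

theorem dsg_lw_isIntegral_of_pow_eq_one [IsAlgClosed L] (M : Matrix (Fin 2) (Fin 2) L) {N : ℕ}
    (hN : 0 < N) (hM : M ^ N = 1) : IsIntegral ℤ M.trace ∧ IsIntegral ℤ M.det := by
  obtain ⟨a, ha⟩ := IsAlgClosed.exists_root (X ^ 2 - C M.trace * X + C M.det : L[X]) (by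
    have : (X ^ 2 - C M.trace * X + C M.det : L[X]).degree = 2 := by
      compute_degree!
    rw [this]; norm_num)
  have ha' : a ^ 2 - M.trace * a + M.det = 0 := by simpa using ha
  have hb' : (M.trace - a) ^ 2 - M.trace * (M.trace - a) + M.det = 0 := by
    linear_combination ha'
  have h1 := dsg_lw_eigen_pow M hM a ha'
  have h2 := dsg_lw_eigen_pow M hM _ hb'
  have i1 : IsIntegral ℤ a := IsIntegral.of_pow hN (by rw [h1]; exact isIntegral_one)
  have i2 : IsIntegral ℤ (M.trace - a) := IsIntegral.of_pow hN (by rw [h2]; exact isIntegral_one)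
  refine ⟨by simpa using i1.add i2, ?_⟩
  have : M.det = a * (M.trace - a) := by linear_combination ha'
  rw [this]
  exact i1.mul i2

end FiniteOrder

/-- Every algebraic integer of `ℂ` is the image under `ds_iota` of an algebraic integer of `Q̄`. -/
theorem dsg_lw_exists_iota_eq (z : ℂ) (hz : IsIntegral ℤ z) :
    ∃ t : ds_Qb, IsIntegral ℤ t ∧ ds_iota t = z := by
  obtain ⟨p, hp, hpz⟩ := hz
  have hsplit : (p.map (algebraMap ℤ ds_Qb)).Splits := IsAlgClosed.splits _
  have hne : p.map (algebraMap ℤ ds_Qb) ≠ 0 := (hp.map _).ne_zero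
  have hroot : ((p.map (algebraMap ℤ ds_Qb)).map (ds_iota : ds_Qb →+* ℂ)).IsRoot z := by
    rw [Polynomial.map_map, Polynomial.IsRoot.def, Polynomial.eval_map]
    have : (ds_iota : ds_Qb →+* ℂ).comp (algebraMap ℤ ds_Qb) = algebraMap ℤ ℂ :=
      RingHom.ext_int _ _
    rw [this]
    exact hpz
  obtain ⟨t, ht⟩ := hsplit.mem_range_of_isRoot hne hroot
  refine ⟨t, ?_, ht⟩
  refine (isIntegral_algHom_iff ((ds_iota : ds_Qb →+* ℂ).toIntAlgHom)
    ds_iota_injective).1 ?_
  change IsIntegral ℤ ((ds_iota : ds_Qb →+* ℂ) t)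
  rw [ht]
  exact ⟨p, hp, hpz⟩

section Comap

variable {Q L : Type*} [Field Q] [Field L] (V : ValuationSubring L) (e : Q →+* L)

theorem dsg_lw_mem_nonunits_comap {x : Q} : x ∈ (V.comap e).nonunits ↔ e x ∈ V.nonunits := by
  rw [ValuationSubring.mem_nonunits_iff_or, ValuationSubring.mem_nonunits_iff_or,
    ValuationSubring.mem_comap, map_inv₀, map_eq_zero]

/-- The restriction of `e` to the valuation rings. -/
def dsg_lw_res : (V.comap e) →+* V where
  toFun x := ⟨e x, ValuationSubring.mem_comap.1 x.2⟩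
  map_one' := Subtype.ext (map_one _)
  map_mul' _ _ := Subtype.ext (map_mul _ _ _)
  map_zero' := Subtype.ext (map_zero _)
  map_add' _ _ := Subtype.ext (map_add _ _ _)

@[simp] theorem dsg_lw_res_coe (x : V.comap e) : ((dsg_lw_res V e x : V) : L) = e x := rfl

instance dsg_lw_res_isLocalHom : IsLocalHom (dsg_lw_res V e) := by
  constructor
  intro a ha
  by_contra hna
  have h1 : a ∈ IsLocalRing.maximalIdeal (V.comap e) := by
    rw [IsLocalRing.mem_maximalIdeal]; exact hna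
  rw [← ValuationSubring.coe_mem_nonunits_iff, dsg_lw_mem_nonunits_comap] at h1
  have h2 : dsg_lw_res V e a ∈ IsLocalRing.maximalIdeal V := by
    rw [← ValuationSubring.coe_mem_nonunits_iff]; exact h1
  rw [IsLocalRing.mem_maximalIdeal] at h2
  exact h2 ha

/-- The induced embedding of residue fields. -/
def dsg_lw_theta : IsLocalRing.ResidueField (V.comap e) →+* IsLocalRing.ResidueField V :=
  IsLocalRing.ResidueField.map (dsg_lw_res V e)

theorem dsg_lw_theta_residue (x : V.comap e) :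
    dsg_lw_theta V e (IsLocalRing.residue _ x) = IsLocalRing.residue V (dsg_lw_res V e x) :=
  IsLocalRing.ResidueField.map_residue _ _

theorem dsg_lw_theta_injective : Function.Injective (dsg_lw_theta V e) :=
  (dsg_lw_theta V e).injective

end Comap

theorem dsg_lw_GLmap_injective {R S : Type*} [CommRing R] [CommRing S] (f : R →+* S)
    (hf : Function.Injective f) {n : ℕ} :
    Function.Injective (Matrix.GeneralLinearGroup.map (n := Fin n) f) := by
  intro a b hab
  apply Units.ext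
  ext i j
  apply hf
  have := congrArg (fun g : GL (Fin n) S => g i j) hab
  simpa using this

section Main

variable (ℓ : ℕ) [Fact ℓ.Prime]

theorem dsg_lw_isUnit_natCast {n : ℕ} (hn : ¬ ℓ ∣ n) : IsUnit ((n : ℕ) : dsg_lw_W ℓ) := by
  refine dsg_lift_isUnit_of_map (Ideal.span {(ℓ : dsg_lw_W ℓ)})
    (WittVector.constantCoeff (p := ℓ) (R := dsg_lw_k ℓ))
    (WittVector.constantCoeff_surjective ℓ) WittVector.ker_constantCoeff ?_
  rw [map_natCast, isUnit_iff_ne_zero]
  intro h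
  exact hn ((CharP.cast_eq_zero_iff (dsg_lw_k ℓ) ℓ n).1 h)

theorem dsg_lift_A :
    ∃ A : ValuationSubring ds_Qb, A.LiesOverPrime ℓ ∧
      ∀ (Γ : Type) [Group Γ] [Finite Γ], ¬ ℓ ∣ Nat.card Γ →
        ∀ ρbar : Γ →* GL (Fin 2) (IsLocalRing.ResidueField A),
          ∃ r : Γ →* GL (Fin 2) ℂ, (∀ g, r g = 1 ↔ ρbar g = 1) ∧
            ∀ g, ∃ t d : A, IsIntegral ℤ (t : ds_Qb) ∧ IsIntegral ℤ (d : ds_Qb) ∧
              ds_iota t = (r g : Matrix (Fin 2) (Fin 2) ℂ).trace ∧
              ds_iota d = (r g : Matrix (Fin 2) (Fin 2) ℂ).det ∧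
              IsLocalRing.residue A t =
                (ρbar g : Matrix (Fin 2) (Fin 2) (IsLocalRing.ResidueField A)).trace ∧
              IsLocalRing.residue A d =
                (ρbar g : Matrix (Fin 2) (Fin 2) (IsLocalRing.ResidueField A)).det := by
  classical
  obtain ⟨j⟩ := dsg_lw_exists_equiv ℓ
  let e : ds_Qb →+* dsg_lw_L ℓ := (j.symm : ℂ →+* dsg_lw_L ℓ).comp (ds_iota : ds_Qb →+* ℂ)
  have hje : ∀ x : ds_Qb, j (e x) = ds_iota x := fun x => by simp [e]
  obtain ⟨V, hV, hloc⟩ :=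
    IsLocalRing.exists_factor_valuationRing (algebraMap (dsg_lw_W ℓ) (dsg_lw_L ℓ))
  -- `ℓ` is a nonunit of `V`
  have hϖ : algebraMap (dsg_lw_W ℓ) (dsg_lw_L ℓ) (ℓ : dsg_lw_W ℓ) ∈ V.nonunits := by
    have h1 : ¬ IsUnit (((algebraMap (dsg_lw_W ℓ) (dsg_lw_L ℓ)).codRestrict V.toSubring hV)
        (ℓ : dsg_lw_W ℓ)) := fun h =>
      (WittVector.irreducible ℓ (k := dsg_lw_k ℓ)).not_isUnit (hloc.map_nonunit _ h)
    have h2 : (⟨algebraMap (dsg_lw_W ℓ) (dsg_lw_L ℓ) (ℓ : dsg_lw_W ℓ), hV _⟩ : V) ∈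
        IsLocalRing.maximalIdeal V := by
      rw [IsLocalRing.mem_maximalIdeal]
      exact h1
    exact ValuationSubring.coe_mem_nonunits_iff.2 h2
  -- the reduction map `W → k_V`
  have hcs : Function.Surjective (WittVector.constantCoeff (p := ℓ) (R := dsg_lw_k ℓ)) :=
    WittVector.constantCoeff_surjective ℓ
  have hck : RingHom.ker (WittVector.constantCoeff (p := ℓ) (R := dsg_lw_k ℓ)) =
      Ideal.span {(ℓ : dsg_lw_W ℓ)} := WittVector.ker_constantCoeff
  have hϖne : (ℓ : dsg_lw_W ℓ) ≠ 0 := WittVector.p_nonzero ℓ _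
  have hφker := dsg_lw_ker_phi (ℓ : dsg_lw_W ℓ) _ hcs hck V hV hϖ
  have hφsurj := dsg_lw_phi_surjective (ℓ : dsg_lw_W ℓ) _ hcs hck V hV hϖ
    (dsg_lw_algebraMap_injective ℓ) hϖne (dsg_lw_isAlgebraic ℓ)
  refine ⟨V.comap e, ?_, ?_⟩
  · change ((ℓ : ℕ) : ds_Qb) ∈ (V.comap e).nonunits
    rw [dsg_lw_mem_nonunits_comap, map_natCast]
    rwa [map_natCast] at hϖ
  intro Γ _ _ hΓ ρbar
  have hθ := dsg_lw_theta_injective V e
  let τ : (Γ ⧸ ρbar.ker) →* GL (Fin 2) (IsLocalRing.ResidueField V) :=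
    (Matrix.GeneralLinearGroup.map (dsg_lw_theta V e)).comp (QuotientGroup.kerLift ρbar)
  have hΓ' : ¬ ℓ ∣ Nat.card (Γ ⧸ ρbar.ker) := fun h =>
    hΓ (h.trans (Subgroup.card_quotient_dvd_card _))
  obtain ⟨ρ, hρ⟩ := dsg_lift_exists_of_surjective (Ideal.span {(ℓ : dsg_lw_W ℓ)})
    (dsg_lw_isUnit_natCast ℓ hΓ') (dsg_lw_phi V hV) hφsurj hφker τ
  let ψ : dsg_lw_W ℓ →+* ℂ :=
    (j : dsg_lw_L ℓ →+* ℂ).comp (algebraMap (dsg_lw_W ℓ) (dsg_lw_L ℓ))
  have hψ : Function.Injective ψ := j.injective.comp (dsg_lw_algebraMap_injective ℓ)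
  let r : Γ →* GL (Fin 2) ℂ :=
    ((Matrix.GeneralLinearGroup.map ψ).comp ρ).comp (QuotientGroup.mk' ρbar.ker)
  refine ⟨r, ?_, ?_⟩
  · intro g
    constructor
    · intro hg
      have h1 : ρ (QuotientGroup.mk g) = 1 :=
        dsg_lw_GLmap_injective ψ hψ (by rw [map_one]; exact hg)
      have h2 : τ (QuotientGroup.mk g) = 1 := by
        apply Units.ext
        rw [← hρ, h1]
        simp
      have h3 : QuotientGroup.kerLift ρbar (QuotientGroup.mk g) = 1 :=
        dsg_lw_GLmap_injective _ hθ (by rw [map_one]; exact h2)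
      rwa [QuotientGroup.kerLift_mk] at h3
    · intro hg
      have h1 : (QuotientGroup.mk g : Γ ⧸ ρbar.ker) = 1 :=
        (QuotientGroup.eq_one_iff g).2 (MonoidHom.mem_ker.2 hg)
      change (Matrix.GeneralLinearGroup.map ψ) (ρ (QuotientGroup.mk g)) = 1
      rw [h1, map_one, map_one]
  · intro g
    set Mw : Matrix (Fin 2) (Fin 2) (dsg_lw_W ℓ) :=
      ((ρ (QuotientGroup.mk g) : GL (Fin 2) (dsg_lw_W ℓ)) : Matrix (Fin 2) (Fin 2) (dsg_lw_W ℓ))
      with hMw
    have hr : ((r g : GL (Fin 2) ℂ) : Matrix (Fin 2) (Fin 2) ℂ) = Mw.map ψ := rfl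
    have hfin : ((r g : GL (Fin 2) ℂ) : Matrix (Fin 2) (Fin 2) ℂ) ^ Nat.card Γ = 1 := by
      rw [← Units.val_pow_eq_pow_val, ← map_pow, pow_card_eq_one', map_one]
      rfl
    obtain ⟨it, idt⟩ := dsg_lw_isIntegral_of_pow_eq_one _ Nat.card_pos hfin
    obtain ⟨t, ht_int, ht⟩ := dsg_lw_exists_iota_eq _ it
    obtain ⟨d, hd_int, hd⟩ := dsg_lw_exists_iota_eq _ idt
    have het : e t = algebraMap (dsg_lw_W ℓ) (dsg_lw_L ℓ) Mw.trace := by
      apply j.injective
      rw [hje, ht, hr, ← AddMonoidHom.map_trace]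
      rfl
    have hed : e d = algebraMap (dsg_lw_W ℓ) (dsg_lw_L ℓ) Mw.det := by
      apply j.injective
      rw [hje, hd, hr]
      have := RingHom.map_det ψ Mw
      rw [RingHom.mapMatrix_apply] at this
      rw [← this]
      rfl
    have htA : t ∈ V.comap e := by
      rw [ValuationSubring.mem_comap, het]; exact hV _
    have hdA : d ∈ V.comap e := by
      rw [ValuationSubring.mem_comap, hed]; exact hV _
    have hτ : (Mw.map (dsg_lw_phi V hV)) =
        ((QuotientGroup.kerLift ρbar (QuotientGroup.mk g) :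
          GL (Fin 2) (IsLocalRing.ResidueField (V.comap e))) :
            Matrix (Fin 2) (Fin 2) (IsLocalRing.ResidueField (V.comap e))).map
          (dsg_lw_theta V e) := hρ _
    rw [QuotientGroup.kerLift_mk] at hτ
    refine ⟨⟨t, htA⟩, ⟨d, hdA⟩, ht_int, hd_int, ht, hd, ?_, ?_⟩
    · apply hθ
      rw [dsg_lw_theta_residue, AddMonoidHom.map_trace, ← hτ, ← AddMonoidHom.map_trace]
      have : dsg_lw_res V e ⟨t, htA⟩ = dsg_lw_toV V hV Mw.trace := Subtype.ext het
      rw [this]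
      rfl
    · apply hθ
      rw [dsg_lw_theta_residue]
      have h1 := RingHom.map_det (dsg_lw_theta V e)
        ((ρbar g : GL (Fin 2) (IsLocalRing.ResidueField (V.comap e))) :
            Matrix (Fin 2) (Fin 2) (IsLocalRing.ResidueField (V.comap e)))
      rw [RingHom.mapMatrix_apply] at h1
      rw [h1, ← hτ]
      have h2 := RingHom.map_det (dsg_lw_phi V hV) Mw
      rw [RingHom.mapMatrix_apply] at h2
      rw [← h2]
      have : dsg_lw_res V e ⟨d, hdA⟩ = dsg_lw_toV V hV Mw.det := Subtype.ext hed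
      rw [this]
      rfl

end Main

end Fermat.Agent.DS
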