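/-
Project DS (S48), cell DS-G, leaf [G-LIFTφ]: the lifting theorem in the `φ`-vocabulary of
`DS/Seams.lean` v2 ("a place above `ℓ`" is a ring homomorphism `φ : ℤ̄ = integralClosure ℤ ℂ →+* k`
into an algebraically closed field of characteristic `ℓ`).

`dsg_lift_phi ℓ`: there are `k` and `φ` such that every `ρbar : Γ →* GL₂(k)`, `Γ` finite of order
prime to `ℓ`, lifts to `r : Γ →* GL₂(ℂ)` with the same kernel, with traces and determinants in `ℤ̄`
reducing under `φ` to those of `ρbar`.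

Engine (see `LiftWitt.lean`): `W = 𝕎(F̄_ℓ)`, `L = AlgebraicClosure (Frac W) ≃+* ℂ` via `j`,
`V ⊆ L` a valuation subring dominating `W`; `k := k_V`, `φ := residue_V ∘ j⁻¹`.
(`ds_Zb` of `DS/Seams.lean` is an `abbrev` for `↥(integralClosure ℤ ℂ)`, used verbatim here so that
this file does not depend on the seam file.)
-/
import Mathlib
import Fermat.Agent.DS.Group.LiftWitt

set_option autoImplicit false

noncomputable section

open Polynomial

namespace Fermat.Agent.DS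

/-- Elements integral over `ℤ` lie in every valuation subring. -/
theorem dsg_lp_mem_of_isIntegral {L : Type*} [Field L] (V : ValuationSubring L) {x : L}
    (hx : IsIntegral ℤ x) : x ∈ V := by
  have h1 : IsIntegral V x := hx.tower_top
  obtain ⟨y, hy⟩ := IsIntegrallyClosed.isIntegral_iff.1 h1
  rw [← hy]
  exact y.2

section Main

variable (ℓ : ℕ) [Fact ℓ.Prime]

/-- The map `ℤ̄ → V`, `z ↦ j⁻¹ z`. -/
def dsg_lp_toV (V : ValuationSubring (dsg_lw_L ℓ)) (j : dsg_lw_L ℓ ≃+* ℂ) :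
    integralClosure ℤ ℂ →+* V where
  toFun z := ⟨j.symm (z : ℂ), dsg_lp_mem_of_isIntegral V (by
    have hz : IsIntegral ℤ (z : ℂ) := z.2
    exact map_isIntegral_int (j.symm : ℂ →+* dsg_lw_L ℓ) hz)⟩
  map_one' := Subtype.ext (by simp)
  map_mul' _ _ := Subtype.ext (by simp)
  map_zero' := Subtype.ext (by simp)
  map_add' _ _ := Subtype.ext (by simp)

theorem dsg_lp_toV_coe (V : ValuationSubring (dsg_lw_L ℓ)) (j : dsg_lw_L ℓ ≃+* ℂ)
    (z : integralClosure ℤ ℂ) : ((dsg_lp_toV ℓ V j z : V) : dsg_lw_L ℓ) = j.symm (z : ℂ) := rfl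

theorem dsg_lift_phi :
    ∃ (k : Type) (_ : Field k) (_ : IsAlgClosed k) (_ : CharP k ℓ)
      (φ : integralClosure ℤ ℂ →+* k),
      ∀ (Γ : Type) [Group Γ] [Finite Γ], ¬ ℓ ∣ Nat.card Γ →
        ∀ ρbar : Γ →* GL (Fin 2) k,
          ∃ r : Γ →* GL (Fin 2) ℂ, (∀ g, r g = 1 ↔ ρbar g = 1) ∧
            ∀ g, ∃ t d : integralClosure ℤ ℂ,
              (t : ℂ) = (r g : Matrix (Fin 2) (Fin 2) ℂ).trace ∧
              (d : ℂ) = (r g : Matrix (Fin 2) (Fin 2) ℂ).det ∧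
              φ t = (ρbar g : Matrix (Fin 2) (Fin 2) k).trace ∧
              φ d = (ρbar g : Matrix (Fin 2) (Fin 2) k).det := by
  classical
  obtain ⟨j⟩ := dsg_lw_exists_equiv ℓ
  obtain ⟨V, hV, hloc⟩ :=
    IsLocalRing.exists_factor_valuationRing (algebraMap (dsg_lw_W ℓ) (dsg_lw_L ℓ))
  have hϖ : algebraMap (dsg_lw_W ℓ) (dsg_lw_L ℓ) (ℓ : dsg_lw_W ℓ) ∈ V.nonunits := by
    have h1 : ¬ IsUnit (((algebraMap (dsg_lw_W ℓ) (dsg_lw_L ℓ)).codRestrict V.toSubring hV)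
        (ℓ : dsg_lw_W ℓ)) := fun h =>
      (WittVector.irreducible ℓ (k := dsg_lw_k ℓ)).not_isUnit (hloc.map_nonunit _ h)
    have h2 : (⟨algebraMap (dsg_lw_W ℓ) (dsg_lw_L ℓ) (ℓ : dsg_lw_W ℓ), hV _⟩ : V) ∈
        IsLocalRing.maximalIdeal V := by
      rw [IsLocalRing.mem_maximalIdeal]
      exact h1
    exact ValuationSubring.coe_mem_nonunits_iff.2 h2
  have hcs : Function.Surjective (WittVector.constantCoeff (p := ℓ) (R := dsg_lw_k ℓ)) :=
    WittVector.constantCoeff_surjective ℓ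
  have hck : RingHom.ker (WittVector.constantCoeff (p := ℓ) (R := dsg_lw_k ℓ)) =
      Ideal.span {(ℓ : dsg_lw_W ℓ)} := WittVector.ker_constantCoeff
  have hϖne : (ℓ : dsg_lw_W ℓ) ≠ 0 := WittVector.p_nonzero ℓ _
  have hφker := dsg_lw_ker_phi (ℓ : dsg_lw_W ℓ) _ hcs hck V hV hϖ
  have hφsurj := dsg_lw_phi_surjective (ℓ : dsg_lw_W ℓ) _ hcs hck V hV hϖ
    (dsg_lw_algebraMap_injective ℓ) hϖne (dsg_lw_isAlgebraic ℓ)
  -- `k_V ≃ F̄_ℓ`, hence algebraically closed of characteristic `ℓ`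
  have hkk : RingHom.ker (WittVector.constantCoeff (p := ℓ) (R := dsg_lw_k ℓ)) ≤
      RingHom.ker (dsg_lw_phi V hV) := by rw [hφker, hck]
  let σ : dsg_lw_k ℓ →+* IsLocalRing.ResidueField V :=
    (WittVector.constantCoeff (p := ℓ) (R := dsg_lw_k ℓ)).liftOfSurjective hcs
      ⟨dsg_lw_phi V hV, hkk⟩
  have hσ : σ.comp (WittVector.constantCoeff (p := ℓ) (R := dsg_lw_k ℓ)) = dsg_lw_phi V hV :=
    RingHom.liftOfSurjective_comp _ hcs ⟨dsg_lw_phi V hV, hkk⟩
  have hσsurj : Function.Surjective σ := by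
    intro y
    obtain ⟨w, rfl⟩ := hφsurj y
    exact ⟨WittVector.constantCoeff w, by rw [← hσ]; rfl⟩
  let eσ : dsg_lw_k ℓ ≃+* IsLocalRing.ResidueField V :=
    RingEquiv.ofBijective σ ⟨σ.injective, hσsurj⟩
  have hAC : IsAlgClosed (IsLocalRing.ResidueField V) := IsAlgClosed.of_ringEquiv _ _ eσ
  have hCP : CharP (IsLocalRing.ResidueField V) ℓ := by
    exact charP_of_injective_ringHom σ.injective ℓ
  refine ⟨IsLocalRing.ResidueField V, inferInstance, hAC, hCP,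
    (IsLocalRing.residue V).comp (dsg_lp_toV ℓ V j), ?_⟩
  intro Γ _ _ hΓ ρbar
  have hΓ' : ¬ ℓ ∣ Nat.card (Γ ⧸ ρbar.ker) := fun h =>
    hΓ (h.trans (Subgroup.card_quotient_dvd_card _))
  obtain ⟨ρ, hρ⟩ := dsg_lift_exists_of_surjective (Ideal.span {(ℓ : dsg_lw_W ℓ)})
    (dsg_lw_isUnit_natCast ℓ hΓ') (dsg_lw_phi V hV) hφsurj hφker (QuotientGroup.kerLift ρbar)
  let ψ : dsg_lw_W ℓ →+* ℂ :=
    (j : dsg_lw_L ℓ →+* ℂ).comp (algebraMap (dsg_lw_W ℓ) (dsg_lw_L ℓ))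
  have hψ : Function.Injective ψ := j.injective.comp (dsg_lw_algebraMap_injective ℓ)
  let r : Γ →* GL (Fin 2) ℂ :=
    ((Matrix.GeneralLinearGroup.map ψ).comp ρ).comp (QuotientGroup.mk' ρbar.ker)
  refine ⟨r, ?_, ?_⟩
  · intro g
    constructor
    · intro hg
      have h1 : ρ (QuotientGroup.mk g) = 1 :=
        dsg_lw_GLmap_injective ψ hψ (by rw [map_one]; exact hg)
      have h2 : QuotientGroup.kerLift ρbar (QuotientGroup.mk g) = 1 := by
        apply Units.ext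
        rw [← hρ, h1]
        simp
      rwa [QuotientGroup.kerLift_mk] at h2
    · intro hg
      have h1 : (QuotientGroup.mk g : Γ ⧸ ρbar.ker) = 1 :=
        (QuotientGroup.eq_one_iff g).2 (MonoidHom.mem_ker.2 hg)
      change (Matrix.GeneralLinearGroup.map ψ) (ρ (QuotientGroup.mk g)) = 1
      rw [h1, map_one, map_one]
  · intro g
    set Mw : Matrix (Fin 2) (Fin 2) (dsg_lw_W ℓ) :=
      ((ρ (QuotientGroup.mk g) : GL (Fin 2) (dsg_lw_W ℓ)) : Matrix (Fin 2) (Fin 2) (dsg_lw_W ℓ))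
      with hMw
    have hr : ((r g : GL (Fin 2) ℂ) : Matrix (Fin 2) (Fin 2) ℂ) = Mw.map ψ := rfl
    have hfin : ((r g : GL (Fin 2) ℂ) : Matrix (Fin 2) (Fin 2) ℂ) ^ Nat.card Γ = 1 := by
      rw [← Units.val_pow_eq_pow_val, ← map_pow, pow_card_eq_one', map_one]
      rfl
    obtain ⟨it, idt⟩ := dsg_lw_isIntegral_of_pow_eq_one _ Nat.card_pos hfin
    have htr : ((r g : GL (Fin 2) ℂ) : Matrix (Fin 2) (Fin 2) ℂ).trace =
        j (algebraMap (dsg_lw_W ℓ) (dsg_lw_L ℓ) Mw.trace) := by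
      rw [hr, ← AddMonoidHom.map_trace]
      rfl
    have hdet : ((r g : GL (Fin 2) ℂ) : Matrix (Fin 2) (Fin 2) ℂ).det =
        j (algebraMap (dsg_lw_W ℓ) (dsg_lw_L ℓ) Mw.det) := by
      rw [hr]
      have := RingHom.map_det ψ Mw
      rw [RingHom.mapMatrix_apply] at this
      rw [← this]
      rfl
    have hτ : Mw.map (dsg_lw_phi V hV) =
        ((QuotientGroup.kerLift ρbar (QuotientGroup.mk g) :
          GL (Fin 2) (IsLocalRing.ResidueField V)) :
            Matrix (Fin 2) (Fin 2) (IsLocalRing.ResidueField V)) := hρ _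
    rw [QuotientGroup.kerLift_mk] at hτ
    refine ⟨⟨_, it⟩, ⟨_, idt⟩, rfl, rfl, ?_, ?_⟩
    · rw [← hτ, ← AddMonoidHom.map_trace]
      have : dsg_lp_toV ℓ V j ⟨_, it⟩ = dsg_lw_toV V hV Mw.trace := by
        apply Subtype.ext
        rw [dsg_lp_toV_coe, dsg_lw_toV_coe]
        show j.symm ((r g : GL (Fin 2) ℂ) : Matrix (Fin 2) (Fin 2) ℂ).trace = _
        rw [htr, RingEquiv.symm_apply_apply]
      rw [RingHom.comp_apply, this]
      rfl
    · rw [← hτ]
      have h2 := RingHom.map_det (dsg_lw_phi V hV) Mw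
      rw [RingHom.mapMatrix_apply] at h2
      rw [← h2]
      have : dsg_lp_toV ℓ V j ⟨_, idt⟩ = dsg_lw_toV V hV Mw.det := by
        apply Subtype.ext
        rw [dsg_lp_toV_coe, dsg_lw_toV_coe]
        show j.symm ((r g : GL (Fin 2) ℂ) : Matrix (Fin 2) (Fin 2) ℂ).det = _
        rw [hdet, RingEquiv.symm_apply_apply]
      rw [RingHom.comp_apply, this]
      rfl

end Main

end Fermat.Agent.DS
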