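/-
Project DS (S48), cell DS-G, adapter [B→A]: `ds_SeamBint ⟹ dsg_FewTraces`.

If the `a_p` (`p ∤ N`) are algebraic integers of one number field `K ⊆ ℂ` all of whose conjugate
systems `τ(a_p)` satisfy the Rankin bound `∑_p |τ a_p|² p^{-s} ≤ log (1/(s-1)) + C_τ`, then for
every `η > 0` the finite set `T := {x ∈ 𝓞_K : |τ x|² ≤ [K:ℚ]/η for all τ}` catches the `a_p`
outside a set of primes of upper Dirichlet density `≤ η`:
`a_p ∉ T ⟹ 1 ≤ (η/[K:ℚ]) ∑_τ |τ a_p|²`.
Owner: helper19.  Prefix `dsg_ft_`.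
-/
import Mathlib
import Fermat.Agent.DS.Group.Density

set_option autoImplicit false
set_option linter.style.haveILetI false

noncomputable section

open CongruenceSubgroup ModularFormClass NumberField Filter Topology
open scoped MatrixGroups ModularForm

namespace Fermat.Agent.DS

/-- `log (1 / (s - 1))` is large for `s` close to `1⁺`, in `s₀`-form. -/
theorem dsg_ft_exists_s0 (B : ℝ) : ∃ s₀ : ℝ, 1 < s₀ ∧ s₀ ≤ 2 ∧ ∀ s : ℝ, 1 < s → s < s₀ →
    B ≤ Real.log (1 / (s - 1)) := by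
  refine ⟨min 2 (1 + Real.exp (-B)), lt_min one_lt_two (by linarith [Real.exp_pos (-B)]),
    min_le_left _ _, fun s hs hss => ?_⟩
  have h1 : s - 1 < Real.exp (-B) := by
    have := hss.trans_le (min_le_right _ _)
    linarith
  have h2 : 0 < s - 1 := by linarith
  have h3 : Real.log (s - 1) < -B := by
    have := Real.log_lt_log h2 h1
    rwa [Real.log_exp] at this
  rw [one_div, Real.log_inv]
  linarith

/-- Bridge from finite-set bounds to `ds_primeSum` (weight one). -/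
theorem dsg_ft_primeSum_le (X : Set ℕ) (s B : ℝ)
    (h : ∀ P : Finset ℕ, (∀ p ∈ P, p.Prime ∧ p ∈ X) → ∑ p ∈ P, 1 / (p : ℝ) ^ s ≤ B) :
    ds_primeSum X (fun _ => 1) s ≤ B := by
  classical
  have hnn : ∀ p : Nat.Primes,
      0 ≤ X.indicator (fun n : ℕ => (1 : ℝ) * (n : ℝ) ^ (-s)) (p : ℕ) := fun p =>
    Set.indicator_nonneg (fun n _ => mul_nonneg zero_le_one
      (Real.rpow_nonneg (Nat.cast_nonneg n) _)) _
  have hpart : ∀ T : Finset Nat.Primes,
      ∑ p ∈ T, X.indicator (fun n : ℕ => (1 : ℝ) * (n : ℝ) ^ (-s)) (p : ℕ) ≤ B := by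
    intro T
    have hP : ∀ p ∈ (T.filter fun p : Nat.Primes => (p : ℕ) ∈ X).image
        (fun p : Nat.Primes => (p : ℕ)), p.Prime ∧ p ∈ X := by
      intro p hp
      rw [Finset.mem_image] at hp
      obtain ⟨q, hq, rfl⟩ := hp
      exact ⟨q.2, (Finset.mem_filter.mp hq).2⟩
    have h1 := h _ hP
    have h2 : ∑ p ∈ T, X.indicator (fun n : ℕ => (1 : ℝ) * (n : ℝ) ^ (-s)) (p : ℕ) =
        ∑ p ∈ (T.filter fun p : Nat.Primes => (p : ℕ) ∈ X).image
          (fun p : Nat.Primes => (p : ℕ)), 1 / (p : ℝ) ^ s := by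
      rw [Finset.sum_image (f := fun p : ℕ => 1 / (p : ℝ) ^ s)
        (g := fun p : Nat.Primes => (p : ℕ)) (fun a _ b _ hab => Subtype.ext hab),
        Finset.sum_filter]
      refine Finset.sum_congr rfl fun p _ => ?_
      by_cases hpX : (p : ℕ) ∈ X
      · rw [Set.indicator_of_mem hpX, if_pos hpX, Real.rpow_neg (Nat.cast_nonneg _),
          div_eq_mul_inv]
      · rw [Set.indicator_of_notMem hpX, if_neg hpX]
    rw [h2]
    exact h1
  have hsum : Summable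
      (fun p : Nat.Primes => X.indicator (fun n : ℕ => (1 : ℝ) * (n : ℝ) ^ (-s)) (p : ℕ)) :=
    summable_of_sum_le hnn hpart
  exact hsum.tsum_le_of_sum_le hpart

/-- **[B→A]** the adapter `ds_SeamBint ⟹ dsg_FewTraces`. -/
theorem dsg_fewTraces_of_seamB (hB : ds_SeamBint) (N : ℕ) [NeZero N] (ε : DirichletCharacter ℂ N)
    (f : CuspForm (Gamma1 N) 1) (hf : ds_W1 N ε f) :
    dsg_FewTraces N (fun p => qCoeff f p) := by
  classical
  obtain ⟨hint, K, α, hfd, hα, hR⟩ := hB N ε f hf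
  haveI : NumberField K := { to_charZero := inferInstance, to_finiteDimensional := hfd }
  choose N' C hN' hC using hR
  intro e₀ he₀
  set n : ℝ := (Fintype.card (K →+* ℂ) : ℝ) with hn
  have hn0 : 0 ≤ n := by positivity
  -- the bound and the finite set
  set c : ℝ := (n + 1) / e₀ with hc
  have hc0 : 0 < c := by positivity
  have hTfin := NumberField.Embeddings.finite_of_norm_le K ℂ (Real.sqrt c)
  set T : Finset ds_Zb := hTfin.toFinset.image
    (fun x : K => if h : IsIntegral ℤ ((x : K) : ℂ) then (⟨(x : ℂ), h⟩ : ds_Zb) else 0) with hT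
  refine ⟨T, ?_⟩
  set X : Set ℕ := {p | p.Prime ∧ ¬ p ∣ N ∧ ∀ x ∈ T, (x : ℂ) ≠ qCoeff f p} with hX
  -- a large conjugate
  have hbig : ∀ p ∈ X, ∃ τ : K →+* ℂ, c < ‖τ (α p)‖ ^ 2 := by
    intro p hp
    obtain ⟨hpp, hpN, hpT⟩ := hp
    by_contra hcon
    push Not at hcon
    have hαint : IsIntegral ℤ ((α p : K) : ℂ) := by
      rw [hα p hpp hpN]; exact hint p hpp hpN
    have hαint' : IsIntegral ℤ (α p : K) :=
      (isIntegral_algebraMap_iff (algebraMap K ℂ).injective).mp hαint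
    have hmem : α p ∈ hTfin.toFinset := by
      rw [Set.Finite.mem_toFinset]
      refine ⟨hαint', fun τ => ?_⟩
      have h1 := hcon τ
      exact Real.le_sqrt_of_sq_le h1
    have hmemT : (⟨((α p : K) : ℂ), hαint⟩ : ds_Zb) ∈ T := by
      rw [hT, Finset.mem_image]
      exact ⟨α p, hmem, by rw [dif_pos hαint]⟩
    exact hpT _ hmemT (hα p hpp hpN)
  -- the exceptional primes
  set D : ℕ := ∏ τ : K →+* ℂ, N' τ with hD
  have hD0 : D ≠ 0 := Finset.prod_ne_zero_iff.mpr fun τ _ => (hN' τ).ne'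
  set Cst : ℝ := (∑ τ : K →+* ℂ, C τ) / c + (D.primeFactors.card : ℝ) with hCst
  -- the finite-set bound
  have hfin : ∀ s : ℝ, 1 < s → s ≤ 2 → ∀ P : Finset ℕ, (∀ p ∈ P, p.Prime ∧ p ∈ X) →
      ∑ p ∈ P, 1 / (p : ℝ) ^ s ≤ n / c * Real.log (1 / (s - 1)) + Cst := by
    intro s hs hs2 P hP
    set P₁ := P.filter (fun p => ¬ p ∣ D) with hP₁
    set P₂ := P.filter (fun p => p ∣ D) with hP₂
    have hsplit : ∑ p ∈ P, 1 / (p : ℝ) ^ s =
        ∑ p ∈ P₂, 1 / (p : ℝ) ^ s + ∑ p ∈ P₁, 1 / (p : ℝ) ^ s :=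
      (Finset.sum_filter_add_sum_filter_not P (fun p => p ∣ D) _).symm
    -- the primes dividing `D`
    have h2 : ∑ p ∈ P₂, 1 / (p : ℝ) ^ s ≤ (D.primeFactors.card : ℝ) := by
      have hsub : P₂ ⊆ D.primeFactors := by
        intro p hp
        rw [hP₂, Finset.mem_filter] at hp
        exact Nat.mem_primeFactors.mpr ⟨(hP p hp.1).1, hp.2, hD0⟩
      calc ∑ p ∈ P₂, 1 / (p : ℝ) ^ s ≤ ∑ p ∈ P₂, (1 : ℝ) := by
            refine Finset.sum_le_sum fun p hp => ?_
            have hp1 : (1 : ℝ) ≤ (p : ℝ) := by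
              rw [hP₂, Finset.mem_filter] at hp
              exact_mod_cast (hP p hp.1).1.one_lt.le
            rw [div_le_one (Real.rpow_pos_of_pos (by linarith) _)]
            exact Real.one_le_rpow hp1 (by linarith)
        _ = (P₂.card : ℝ) := by simp
        _ ≤ (D.primeFactors.card : ℝ) := by exact_mod_cast Finset.card_le_card hsub
    -- the other primes
    have h1 : ∑ p ∈ P₁, 1 / (p : ℝ) ^ s ≤
        n / c * Real.log (1 / (s - 1)) + (∑ τ : K →+* ℂ, C τ) / c := by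
      have hle : ∀ p ∈ P₁, 1 / (p : ℝ) ^ s ≤
          (1 / c) * ∑ τ : K →+* ℂ, ‖τ (α p)‖ ^ 2 / (p : ℝ) ^ s := by
        intro p hp
        rw [hP₁, Finset.mem_filter] at hp
        obtain ⟨τ₀, hτ₀⟩ := hbig p (hP p hp.1).2
        have hps : 0 < (p : ℝ) ^ s :=
          Real.rpow_pos_of_pos (by exact_mod_cast (hP p hp.1).1.pos) _
        have h3 : ‖τ₀ (α p)‖ ^ 2 / (p : ℝ) ^ s ≤
            ∑ τ : K →+* ℂ, ‖τ (α p)‖ ^ 2 / (p : ℝ) ^ s :=
          Finset.single_le_sum (f := fun τ : K →+* ℂ => ‖τ (α p)‖ ^ 2 / (p : ℝ) ^ s)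
            (fun τ _ => by positivity) (Finset.mem_univ τ₀)
        have h4 : c / (p : ℝ) ^ s ≤ ‖τ₀ (α p)‖ ^ 2 / (p : ℝ) ^ s :=
          div_le_div_of_nonneg_right hτ₀.le hps.le
        calc 1 / (p : ℝ) ^ s = (1 / c) * (c / (p : ℝ) ^ s) := by field_simp
          _ ≤ (1 / c) * ∑ τ : K →+* ℂ, ‖τ (α p)‖ ^ 2 / (p : ℝ) ^ s :=
              mul_le_mul_of_nonneg_left (h4.trans h3) (by positivity)
      calc ∑ p ∈ P₁, 1 / (p : ℝ) ^ s
          ≤ ∑ p ∈ P₁, (1 / c) * ∑ τ : K →+* ℂ, ‖τ (α p)‖ ^ 2 / (p : ℝ) ^ s :=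
            Finset.sum_le_sum hle
        _ = (1 / c) * ∑ τ : K →+* ℂ, ∑ p ∈ P₁, ‖τ (α p)‖ ^ 2 / (p : ℝ) ^ s := by
            rw [← Finset.mul_sum, Finset.sum_comm]
        _ ≤ (1 / c) * ∑ τ : K →+* ℂ, (Real.log (1 / (s - 1)) + C τ) := by
            refine mul_le_mul_of_nonneg_left (Finset.sum_le_sum fun τ _ => ?_) (by positivity)
            refine hC τ s hs hs2 P₁ fun p hp => ?_
            rw [hP₁, Finset.mem_filter] at hp
            refine ⟨(hP p hp.1).1, fun hdvd => hp.2 ?_⟩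
            exact hdvd.trans (Finset.dvd_prod_of_mem _ (Finset.mem_univ τ))
        _ = n / c * Real.log (1 / (s - 1)) + (∑ τ : K →+* ℂ, C τ) / c := by
            rw [Finset.sum_add_distrib, Finset.sum_const, Finset.card_univ, nsmul_eq_mul, hn]
            ring
    rw [hsplit, hCst]
    linarith
  -- conclusion
  intro δ hδ
  obtain ⟨s₀, hs₀, hs₀2, hlog⟩ := dsg_ft_exists_s0 (max 0 (Cst / δ))
  refine ⟨s₀, hs₀, fun s hs hss => ?_⟩
  have hL := hlog s hs hss
  have hL0 : 0 ≤ Real.log (1 / (s - 1)) := (le_max_left _ _).trans hL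
  have hL1 : Cst / δ ≤ Real.log (1 / (s - 1)) := (le_max_right _ _).trans hL
  rw [div_le_iff₀ hδ] at hL1
  refine dsg_ft_primeSum_le X s _ fun P hP => ?_
  refine (hfin s hs (hss.le.trans hs₀2) P hP).trans ?_
  have hnc : n / c ≤ e₀ := by
    rw [hc, div_div_eq_mul_div, div_le_iff₀ (by positivity)]
    nlinarith
  have := mul_le_mul_of_nonneg_right hnc hL0
  linarith

end Fermat.Agent.DS
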