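/-
Project DS (S48, Deligne–Serre), cell DS-G, leaf [G-BASIC]: small generic facts used by the final
assembly `Group/Main.lean`.

* `dsg_ba_finite_range`     : a homomorphism of finite level out of `Γℚ` has finite image;
* `dsg_ba_eq_one_of_trace`  : an element of finite order of `GL₂(ℂ)` with trace `2` is `1`;
* `dsg_luc a e k`           : the Lucas sequence `V_k(a, e)` (`V₀ = 2`, `V₁ = a`,
                              `V_{k+2} = a V_{k+1} - e V_k`), i.e. `x^k + y^k` for the roots `x, y`
                              of `X² - a X + e`;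
* `dsg_luc_trace_pow`       : `tr (m ^ k) = V_k(tr m, det m)` for a `2 × 2` matrix;
* `dsg_luc_map`             : compatibility with ring homomorphisms;
* `dsg_luc_pow_add_pow`     : `V_k(x + y, x y) = x ^ k + y ^ k`;
* `dsg_luc_roots`           : over an algebraically closed field, `V_n(a, e) = 2` and `e ^ n = 1`
                              imply `a = x + y`, `e = x y` with `x ^ n = y ^ n = 1`.

Prefixes `dsg_ba_`, `dsg_luc`.
-/
import Mathlib
import Fermat.Agent.DS.Defs

set_option autoImplicit false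

noncomputable section

open scoped MatrixGroups

namespace Fermat.Agent.DS

/-! ### Finite image -/

/-- A homomorphism of finite level has finite image. -/
theorem dsg_ba_finite_range {M : Type} [Group M] (ρ : ds_G →* M)
    (hρ : GaloisFactorsThroughFiniteLevel ρ) : Finite ρ.range := by
  classical
  obtain ⟨L, hL, hker⟩ := hρ
  have := hL
  let r : ds_G → (L →ₐ[ℚ] ds_Qb) := fun σ => (σ : ds_Qb →ₐ[ℚ] ds_Qb).comp L.val
  have hr : ∀ σ τ : ds_G, r σ = r τ → ρ σ = ρ τ := by
    intro σ τ hστ
    have h1 : ρ (τ⁻¹ * σ) = 1 := by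
      apply hker
      intro x hx
      have h2 : σ x = τ x := DFunLike.congr_fun hστ ⟨x, hx⟩
      rw [AlgEquiv.mul_apply, h2]
      exact τ.symm_apply_apply x
    rw [map_mul, map_inv, inv_mul_eq_one] at h1
    exact h1.symm
  let g : (L →ₐ[ℚ] ds_Qb) → M := fun e => if h : ∃ σ, r σ = e then ρ h.choose else 1
  have hg : ∀ σ, ρ σ = g (r σ) := by
    intro σ
    have hex : ∃ τ, r τ = r σ := ⟨σ, rfl⟩
    simp only [g, dif_pos hex]
    exact hr _ _ hex.choose_spec.symm
  have hsub : (ρ.range : Set M) ⊆ Set.range g := by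
    rintro _ ⟨σ, rfl⟩
    exact ⟨r σ, (hg σ).symm⟩
  exact (Set.finite_range g).subset hsub

/-! ### The Lucas sequence -/

/-- The Lucas sequence `V_k(a, e)`: `V₀ = 2`, `V₁ = a`, `V_{k+2} = a V_{k+1} - e V_k`. -/
def dsg_luc {R : Type*} [CommRing R] (a e : R) : ℕ → R
  | 0 => 2
  | 1 => a
  | (k + 2) => a * dsg_luc a e (k + 1) - e * dsg_luc a e k

section Luc

variable {R : Type*} [CommRing R]

@[simp] theorem dsg_luc_zero (a e : R) : dsg_luc a e 0 = 2 := by
  rw [dsg_luc]

@[simp] theorem dsg_luc_one (a e : R) : dsg_luc a e 1 = a := by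
  rw [dsg_luc]

theorem dsg_luc_add_two (a e : R) (k : ℕ) :
    dsg_luc a e (k + 2) = a * dsg_luc a e (k + 1) - e * dsg_luc a e k := by
  rw [dsg_luc]

/-- Two-step induction principle packaged for the Lucas recursion. -/
theorem dsg_luc_induction {P : ℕ → Prop} (h0 : P 0) (h1 : P 1)
    (h2 : ∀ k, P k → P (k + 1) → P (k + 2)) (k : ℕ) : P k := by
  have : P k ∧ P (k + 1) := by
    induction k with
    | zero => exact ⟨h0, h1⟩
    | succ k ih => exact ⟨ih.2, h2 k ih.1 ih.2⟩
  exact this.1

/-- `V_k(x + y, x y) = x ^ k + y ^ k`. -/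
theorem dsg_luc_pow_add_pow (x y : R) (k : ℕ) : dsg_luc (x + y) (x * y) k = x ^ k + y ^ k := by
  induction k using dsg_luc_induction with
  | h0 => simp; norm_num
  | h1 => simp
  | h2 k ih0 ih1 =>
    rw [dsg_luc_add_two, ih0, ih1]
    ring

/-- The Lucas sequence commutes with ring homomorphisms. -/
theorem dsg_luc_map {S : Type*} [CommRing S] (f : R →+* S) (a e : R) (k : ℕ) :
    f (dsg_luc a e k) = dsg_luc (f a) (f e) k := by
  induction k using dsg_luc_induction with
  | h0 => simp [map_ofNat]
  | h1 => simp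
  | h2 k ih0 ih1 =>
    rw [dsg_luc_add_two, dsg_luc_add_two, map_sub, map_mul, map_mul, ih0, ih1]

/-- Cayley–Hamilton for `2 × 2` matrices: `m² = tr(m) m - det(m)`. -/
theorem dsg_luc_sq_eq (m : Matrix (Fin 2) (Fin 2) R) :
    m ^ 2 = m.trace • m - m.det • (1 : Matrix (Fin 2) (Fin 2) R) := by
  rw [pow_two, Matrix.trace_fin_two, Matrix.det_fin_two]
  ext i j
  fin_cases i <;> fin_cases j <;>
    simp [Matrix.mul_apply, Fin.sum_univ_two, Matrix.smul_apply, Matrix.sub_apply] <;> ring

/-- `tr (m ^ k) = V_k(tr m, det m)` for a `2 × 2` matrix. -/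
theorem dsg_luc_trace_pow (m : Matrix (Fin 2) (Fin 2) R) (k : ℕ) :
    (m ^ k).trace = dsg_luc m.trace m.det k := by
  induction k using dsg_luc_induction with
  | h0 => simp [Matrix.trace_one]
  | h1 => simp
  | h2 k ih0 ih1 =>
    have h : m ^ (k + 2) = m.trace • m ^ (k + 1) - m.det • m ^ k := by
      rw [pow_add, dsg_luc_sq_eq, mul_sub, Matrix.mul_smul, Matrix.mul_smul, mul_one, ← pow_succ]
    rw [h, Matrix.trace_sub, Matrix.trace_smul, Matrix.trace_smul, ih0, ih1, dsg_luc_add_two,
      smul_eq_mul, smul_eq_mul]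

end Luc

/-- Over an algebraically closed field, `V_n(a, e) = 2` and `e ^ n = 1` force `a = x + y`,
`e = x y` with `x ^ n = y ^ n = 1`. -/
theorem dsg_luc_roots {L : Type*} [Field L] [IsAlgClosed L] (a e : L) (n : ℕ)
    (h1 : dsg_luc a e n = 2) (h2 : e ^ n = 1) :
    ∃ x y : L, x ^ n = 1 ∧ y ^ n = 1 ∧ a = x + y ∧ e = x * y := by
  obtain ⟨x, hx⟩ := IsAlgClosed.exists_root (Polynomial.X ^ 2 - Polynomial.C a * Polynomial.X +
    Polynomial.C e : Polynomial L) (by
      have : (Polynomial.X ^ 2 - Polynomial.C a * Polynomial.X +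
          Polynomial.C e : Polynomial L).degree = 2 := by
        compute_degree!
      rw [this]; norm_num)
  have hx' : x ^ 2 - a * x + e = 0 := by
    simpa [Polynomial.IsRoot.def] using hx
  set y : L := a - x with hy
  have ha : a = x + y := by rw [hy]; ring
  have he : e = x * y := by rw [hy]; linear_combination hx'
  have hsum : x ^ n + y ^ n = 2 := by
    rw [← dsg_luc_pow_add_pow, ← ha, ← he]; exact h1
  have hprod : x ^ n * y ^ n = 1 := by
    rw [← mul_pow, ← he]; exact h2
  have hxn : (x ^ n - 1) ^ 2 = 0 := by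
    have : y ^ n = 2 - x ^ n := by linear_combination hsum
    rw [this] at hprod
    linear_combination -hprod
  have hxn1 : x ^ n = 1 := by
    have := pow_eq_zero_iff (two_ne_zero) |>.1 hxn
    linear_combination this
  refine ⟨x, y, hxn1, ?_, ha, he⟩
  rw [hxn1] at hsum
  linear_combination hsum

/-! ### Finite order and trace `2` -/

/-- An element of finite order of `GL₂(ℂ)` with trace `2` is the identity. -/
theorem dsg_ba_eq_one_of_trace (m : GL (Fin 2) ℂ) (n : ℕ) (hn : 0 < n) (hm : m ^ n = 1)
    (ht : ((m : GL (Fin 2) ℂ) : Matrix (Fin 2) (Fin 2) ℂ).trace = 2) : m = 1 := by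
  set A : Matrix (Fin 2) (Fin 2) ℂ := (m : Matrix (Fin 2) (Fin 2) ℂ) with hA
  have hAn : A ^ n = 1 := by
    have := congrArg (fun g : GL (Fin 2) ℂ => (g : Matrix (Fin 2) (Fin 2) ℂ)) hm
    simpa using this
  -- the Lucas value
  have hl : dsg_luc A.trace A.det n = 2 := by
    rw [← dsg_luc_trace_pow, hAn, Matrix.trace_one]; simp
  have hd : A.det ^ n = 1 := by
    rw [← Matrix.det_pow, hAn, Matrix.det_one]
  obtain ⟨x, y, hx, hy, hxy, hdet⟩ := dsg_luc_roots A.trace A.det n hl hd
  rw [ht] at hxy
  -- `x`, `y` of absolute value one with sum `2`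
  have nx : ‖x‖ = 1 := by
    have := congrArg norm hx
    rw [norm_pow, norm_one] at this
    exact (pow_eq_one_iff_of_nonneg (norm_nonneg x) hn.ne').1 this
  have ny : ‖y‖ = 1 := by
    have := congrArg norm hy
    rw [norm_pow, norm_one] at this
    exact (pow_eq_one_iff_of_nonneg (norm_nonneg y) hn.ne').1 this
  have hx1 : x = 1 := by
    have h1 : x.re ≤ 1 := by have := Complex.re_le_norm x; linarith
    have h2 : y.re ≤ 1 := by have := Complex.re_le_norm y; linarith
    have h3 : x.re + y.re = 2 := by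
      have := congrArg Complex.re hxy
      simpa using this.symm
    have h4 : x.re = 1 := by linarith
    have h5 : x.im = 0 := by
      have := Complex.sq_norm x
      rw [nx, Complex.normSq_apply, h4] at this
      nlinarith
    apply Complex.ext <;> simp [h4, h5]
  have hy1 : y = 1 := by rw [hx1] at hxy; linear_combination -hxy
  have hdet1 : A.det = 1 := by rw [hdet, hx1, hy1]; ring
  -- `(A - 1)² = 0`
  set U : Matrix (Fin 2) (Fin 2) ℂ := A - 1 with hU
  have hU2 : U * U = 0 := by
    have := dsg_luc_sq_eq A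
    rw [ht, hdet1] at this
    rw [hU, sub_mul, mul_sub, mul_sub, mul_one, one_mul, one_mul, ← pow_two, this]
    simp only [one_smul, two_smul]
    abel
  have hpow : ∀ k : ℕ, A ^ k = 1 + (k : ℂ) • U := by
    intro k
    induction k with
    | zero => simp
    | succ k ih =>
      have hAU : A = 1 + U := by rw [hU]; abel
      rw [pow_succ, ih]
      rw [hAU, mul_add, mul_one, add_mul, one_mul, Matrix.smul_mul, hU2, smul_zero, add_zero]
      push_cast
      rw [add_smul, one_smul]; abel
  have hU0 : U = 0 := by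
    have h := hpow n
    rw [hAn] at h
    have h' : (n : ℂ) • U = 0 := by
      have := congrArg (fun X => X - 1) h
      simpa using this.symm
    rcases smul_eq_zero.1 h' with h0 | h0
    · exact absurd (by exact_mod_cast h0) hn.ne'
    · exact h0
  apply Units.ext
  have : A = 1 := by rw [hU] at hU0; exact sub_eq_zero.1 hU0
  simpa [hA] using this

end Fermat.Agent.DS
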