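/-
DS-G / [G-KLEIN], arithmetic part (helper6).  Prefix `dsg_ka_`.  Mathlib only.

`1/a + 1/b + 1/c = 1 + 2/n` with `a, b, c ≥ 2`, `3a, 3b, 3c ≤ n` forces `n ≤ 60`
(the solutions are `(2,2,n/2)`, `(2,3,3)`, `(2,3,4)`, `(2,3,5)`; the first one is excluded by
`3c ≤ n`), and `1/a + 1/b = 2/n` is impossible when `3a, 3b ≤ n`.
-/
import Mathlib

set_option autoImplicit false

namespace Fermat.Agent.DS

theorem dsg_ka_sorted {n a b c : ℕ} (ha : 2 ≤ a) (hab : a ≤ b) (hbc : b ≤ c)
    (hn : 60 < n) (h3c : 3 * c ≤ n)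
    (h : (1 : ℚ) / a + 1 / b + 1 / c = 1 + 2 / n) : False := by
  have hb : 2 ≤ b := le_trans ha hab
  have hc : 2 ≤ c := le_trans hb hbc
  have ha0 : (0 : ℚ) < a := by exact_mod_cast (by omega : 0 < a)
  have hb0 : (0 : ℚ) < b := by exact_mod_cast (by omega : 0 < b)
  have hc0 : (0 : ℚ) < c := by exact_mod_cast (by omega : 0 < c)
  have hn0 : (0 : ℚ) < n := by exact_mod_cast (by omega : 0 < n)
  have hab' : (1 : ℚ) / b ≤ 1 / a := one_div_le_one_div_of_le ha0 (by exact_mod_cast hab)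
  have hbc' : (1 : ℚ) / c ≤ 1 / b := one_div_le_one_div_of_le hb0 (by exact_mod_cast hbc)
  have hnpos : (0 : ℚ) < 2 / n := by positivity
  -- a = 2
  have ha2 : a = 2 := by
    by_contra hne
    have h3 : 3 ≤ a := by omega
    have : (1 : ℚ) / a ≤ 1 / 3 :=
      one_div_le_one_div_of_le (by norm_num) (by exact_mod_cast h3)
    linarith
  subst ha2
  have e2 : ((2 : ℕ) : ℚ) = 2 := by norm_num
  have e3 : ((3 : ℕ) : ℚ) = 3 := by norm_num
  rw [e2] at h
  -- b ≤ 3
  have hb3 : b ≤ 3 := by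
    by_contra hne
    have h4 : 4 ≤ b := by omega
    have : (1 : ℚ) / b ≤ 1 / 4 :=
      one_div_le_one_div_of_le (by norm_num) (by exact_mod_cast h4)
    linarith
  have hb23 : b = 2 ∨ b = 3 := by omega
  rcases hb23 with rfl | rfl
  · -- 1/c = 2/n
    have h1 : (1 : ℚ) / c = 2 / n := by
      rw [e2] at h
      linarith
    rw [div_eq_div_iff hc0.ne' hn0.ne'] at h1
    have h2 : (n : ℚ) = 2 * c := by linarith
    have h3 : n = 2 * c := by exact_mod_cast h2
    omega
  · -- 1/c = 1/6 + 2/n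
    have h1 : (1 : ℚ) / c = 1 / 6 + 2 / n := by
      rw [e3] at h
      linarith
    have hc6 : c < 6 := by
      by_contra hne
      have h6 : 6 ≤ c := by omega
      have : (1 : ℚ) / c ≤ 1 / 6 :=
        one_div_le_one_div_of_le (by norm_num) (by exact_mod_cast h6)
      linarith
    have hc3 : 3 ≤ c := hbc
    interval_cases c
    · have h2 : (2 : ℚ) / n = 1 / 6 := by rw [e3] at h1; linarith
      rw [div_eq_div_iff hn0.ne' (by norm_num)] at h2
      have h3 : (n : ℚ) = 12 := by linarith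
      have h4 : n = 12 := by exact_mod_cast h3
      omega
    · have h2 : (2 : ℚ) / n = 1 / 12 := by
        have e4 : ((4 : ℕ) : ℚ) = 4 := by norm_num
        rw [e4] at h1; linarith
      rw [div_eq_div_iff hn0.ne' (by norm_num)] at h2
      have h3 : (n : ℚ) = 24 := by linarith
      have h4 : n = 24 := by exact_mod_cast h3
      omega
    · have h2 : (2 : ℚ) / n = 1 / 30 := by
        have e5 : ((5 : ℕ) : ℚ) = 5 := by norm_num
        rw [e5] at h1; linarith
      rw [div_eq_div_iff hn0.ne' (by norm_num)] at h2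
      have h3 : (n : ℚ) = 60 := by linarith
      have h4 : n = 60 := by exact_mod_cast h3
      omega

/-- The three-orbit case of Klein's equation. -/
theorem dsg_ka_three {n a b c : ℕ} (ha : 2 ≤ a) (hb : 2 ≤ b) (hc : 2 ≤ c)
    (hn : 60 < n) (h3a : 3 * a ≤ n) (h3b : 3 * b ≤ n) (h3c : 3 * c ≤ n)
    (h : (1 : ℚ) / a + 1 / b + 1 / c = 1 + 2 / n) : False := by
  rcases le_total a b with hab | hab <;> rcases le_total b c with hbc | hbc <;>
    rcases le_total a c with hac | hac
  · exact dsg_ka_sorted ha hab hbc hn h3c h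
  · exact dsg_ka_sorted ha hab hbc hn h3c h
  · exact dsg_ka_sorted ha hac hbc hn h3b (by linarith)
  · exact dsg_ka_sorted hc hac hab hn h3b (by linarith)
  · exact dsg_ka_sorted hb hab hac hn h3c (by linarith)
  · exact dsg_ka_sorted hb hbc hac hn h3a (by linarith)
  · exact dsg_ka_sorted hc hbc hab hn h3a (by linarith)
  · exact dsg_ka_sorted hc hbc hab hn h3a (by linarith)

/-- The two-orbit case of Klein's equation. -/
theorem dsg_ka_two {n a b : ℕ} (ha : 0 < a) (hb : 0 < b) (h3a : 3 * a ≤ n) (h3b : 3 * b ≤ n)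
    (h : (1 : ℚ) / a + 1 / b = 2 / n) : False := by
  have ha0 : (0 : ℚ) < a := by exact_mod_cast ha
  have hb0 : (0 : ℚ) < b := by exact_mod_cast hb
  have hn0 : (0 : ℚ) < n := by exact_mod_cast (by omega : 0 < n)
  have h1 : (3 : ℚ) / n ≤ 1 / a := by
    rw [div_le_div_iff₀ hn0 ha0]
    have : ((3 * a : ℕ) : ℚ) ≤ n := by exact_mod_cast h3a
    push_cast at this
    linarith
  have h2 : (3 : ℚ) / n ≤ 1 / b := by
    rw [div_le_div_iff₀ hn0 hb0]
    have : ((3 * b : ℕ) : ℚ) ≤ n := by exact_mod_cast h3b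
    push_cast at this
    linarith
  have h3 : (0 : ℚ) < 1 / n := by positivity
  have h4 : (3 : ℚ) / n = 3 * (1 / n) := by ring
  have h5 : (2 : ℚ) / n = 2 * (1 / n) := by ring
  linarith

end Fermat.Agent.DS
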