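/-
DS-G / [G-KLEIN], counting part (helper6).  Prefix `dsg_kc_`.  Mathlib only.

Abstract form of Klein's counting argument: a finite group `Γ` acts on a finite set `X`; a subgroup
`Z` acts trivially, every element outside `Z` has exactly two fixed points and every point is fixed
by some element outside `Z`.  Then some point stabiliser has index `≤ 2`, or `|Γ| ≤ 60 |Z|`.
-/
import Mathlib
import Fermat.Agent.DS.Group.KleinArith

set_option autoImplicit false

namespace Fermat.Agent.DS

open MulAction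

theorem dsg_kc_main {Γ X : Type*} [Group Γ] [Finite Γ] [MulAction Γ X] [Finite X]
    (Z : Subgroup Γ)
    (h1 : ∀ g ∈ Z, ∀ x : X, g • x = x)
    (h2 : ∀ g : Γ, g ∉ Z → Nat.card (fixedBy X g) = 2)
    (h3 : ∀ x : X, ∃ g : Γ, g ∉ Z ∧ g • x = x) :
    (∃ x : X, Nat.card Γ ≤ 2 * Nat.card (stabilizer Γ x)) ∨ Nat.card Γ ≤ 60 * Nat.card Z := by
  classical
  by_contra hcon
  push Not at hcon
  obtain ⟨hstab, h60⟩ := hcon
  have : Fintype Γ := Fintype.ofFinite Γ
  have : Fintype X := Fintype.ofFinite X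
  set N := Nat.card Γ with hN
  set z := Nat.card Z with hz
  have hzpos : 0 < z := Nat.card_pos
  have hNpos : 0 < N := Nat.card_pos
  have hzN : z ∣ N := Subgroup.card_subgroup_dvd_card Z
  -- stabiliser facts
  have hZle : ∀ x : X, Z ≤ stabilizer Γ x := fun x g hg => h1 g hg x
  have hsdvd : ∀ x : X, Nat.card (stabilizer Γ x) ∣ N := fun x =>
    Subgroup.card_subgroup_dvd_card _
  have hzdvd : ∀ x : X, z ∣ Nat.card (stabilizer Γ x) := fun x =>
    Subgroup.card_dvd_of_le (hZle x)
  have hspos : ∀ x : X, 0 < Nat.card (stabilizer Γ x) := fun x => Nat.card_pos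
  have hs2 : ∀ x : X, 2 * z ≤ Nat.card (stabilizer Γ x) := by
    intro x
    obtain ⟨g, hgZ, hgx⟩ := h3 x
    have hlt : Z < stabilizer Γ x := by
      refine lt_of_le_of_ne (hZle x) ?_
      intro heq
      exact hgZ (heq ▸ (show g ∈ stabilizer Γ x from hgx))
    have hne : z ≠ Nat.card (stabilizer Γ x) := by
      intro heq
      exact (ne_of_lt hlt) (Subgroup.eq_of_le_of_card_ge (hZle x) (le_of_eq heq.symm))
    obtain ⟨q, hq⟩ := hzdvd x
    rcases q with _ | _ | q
    · have := hspos x; rw [hq] at this; simp at this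
    · exact absurd (by rw [hq]; simp) hne
    · rw [hq]; nlinarith
  have hs3 : ∀ x : X, 3 * Nat.card (stabilizer Γ x) ≤ N := by
    intro x
    obtain ⟨q, hq⟩ := hsdvd x
    have hlt := hstab x
    rcases q with _ | _ | _ | q
    · rw [hq] at hNpos; simp at hNpos
    · rw [hq] at hlt; omega
    · rw [hq] at hlt; omega
    · rw [hq]; nlinarith [hspos x]
  -- Burnside
  have hB := sum_card_fixedBy_eq_card_orbits_mul_card_group Γ X
  have hfix : ∀ g : Γ, Fintype.card (fixedBy X g) =
      if g ∈ Z then Fintype.card X else 2 := by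
    intro g
    split_ifs with hg
    · apply Fintype.card_of_subtype Finset.univ
      intro x
      simp only [Finset.mem_univ, true_iff]
      exact h1 g hg x
    · rw [← Nat.card_eq_fintype_card]; exact h2 g hg
  simp_rw [hfix] at hB
  rw [Finset.sum_ite, Finset.sum_const, Finset.sum_const, smul_eq_mul, smul_eq_mul] at hB
  have hcZ : (Finset.univ.filter fun g : Γ => g ∈ Z).card = z := by
    rw [hz, Nat.card_eq_fintype_card, Fintype.card_subtype]
  have hcZ' : (Finset.univ.filter fun g : Γ => g ∉ Z).card = N - z := by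
    have := Finset.card_filter_add_card_filter_not (s := (Finset.univ : Finset Γ)) (fun g : Γ => g ∈ Z)
    rw [hcZ, Finset.card_univ, ← Nat.card_eq_fintype_card] at this
    omega
  rw [hcZ, hcZ'] at hB
  -- class formula
  have hC := card_eq_sum_card_group_div_card_stabilizer Γ X
  have hNF : Fintype.card Γ = N := by rw [hN, Nat.card_eq_fintype_card]
  simp_rw [hNF] at hC hB
  set s : (Quotient (orbitRel Γ X)) → ℕ := fun ω => Nat.card (stabilizer Γ ω.out) with hs
  have hsF : ∀ ω : (Quotient (orbitRel Γ X)), Fintype.card (stabilizer Γ ω.out) = s ω := fun ω => by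
    rw [hs]; simp only; rw [Nat.card_eq_fintype_card]
  simp_rw [hsF] at hC
  rw [hC] at hB
  -- rational identity
  have hzq : (0 : ℚ) < z := by exact_mod_cast hzpos
  have hNq : (0 : ℚ) < N := by exact_mod_cast hNpos
  have hsq : ∀ ω : (Quotient (orbitRel Γ X)), (0 : ℚ) < s ω := fun ω => by exact_mod_cast hspos ω.out
  have hzleN : z ≤ N := Nat.le_of_dvd hNpos hzN
  have hBq : (z : ℚ) * ∑ ω : (Quotient (orbitRel Γ X)), (N : ℚ) / s ω + 2 * ((N : ℚ) - z) =
      Fintype.card (Quotient (orbitRel Γ X)) * N := by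
    have := congrArg (Nat.cast : ℕ → ℚ) hB
    push_cast [Nat.cast_sub hzleN] at this
    have hsum : ∑ ω : (Quotient (orbitRel Γ X)), ((N / s ω : ℕ) : ℚ) =
        ∑ ω : (Quotient (orbitRel Γ X)), (N : ℚ) / s ω :=
      Finset.sum_congr rfl (fun ω _ => Nat.cast_div (hsdvd ω.out) (hsq ω).ne')
    rw [hsum] at this
    linarith
  have hkey : ∑ ω : (Quotient (orbitRel Γ X)), ((1 : ℚ) - z / s ω) = 2 - 2 * z / N := by
    rw [Finset.sum_sub_distrib, Finset.sum_const, Finset.card_univ, nsmul_eq_mul, mul_one]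
    have h4 : ∑ ω : (Quotient (orbitRel Γ X)), (z : ℚ) / s ω = (z * ∑ ω : (Quotient (orbitRel Γ X)), (N : ℚ) / s ω) / N := by
      rw [Finset.mul_sum, Finset.sum_div]
      apply Finset.sum_congr rfl
      intro ω _
      field_simp
    rw [h4]
    have h5 : (z : ℚ) * ∑ ω : (Quotient (orbitRel Γ X)), (N : ℚ) / s ω = Fintype.card (Quotient (orbitRel Γ X)) * N - 2 * ((N : ℚ) - z) := by
      linarith
    rw [h5]
    field_simp
    ring
  -- bounds on the terms
  have hterm_lo : ∀ ω : (Quotient (orbitRel Γ X)), (1 : ℚ) / 2 ≤ 1 - z / s ω := by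
    intro ω
    have : (z : ℚ) / s ω ≤ 1 / 2 := by
      rw [div_le_div_iff₀ (hsq ω) (by norm_num)]
      have := hs2 ω.out
      have h' : ((2 * z : ℕ) : ℚ) ≤ s ω := by exact_mod_cast this
      push_cast at h'
      linarith
    linarith
  have hterm_hi : ∀ ω : (Quotient (orbitRel Γ X)), (1 : ℚ) - z / s ω < 1 := by
    intro ω
    have : (0 : ℚ) < z / s ω := div_pos hzq (hsq ω)
    linarith
  have hsmall : (2 : ℚ) * z / N < 1 / 30 := by
    rw [div_lt_div_iff₀ hNq (by norm_num)]
    have h' : ((60 * z : ℕ) : ℚ) < N := by exact_mod_cast h60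
    push_cast at h'
    linarith
  have hpos2 : (0 : ℚ) < 2 * z / N := by positivity
  -- number of orbits
  have hcard_le : Fintype.card (Quotient (orbitRel Γ X)) ≤ 3 := by
    by_contra hgt
    push Not at hgt
    have : (Fintype.card (Quotient (orbitRel Γ X)) : ℚ) * (1 / 2) ≤ ∑ ω : (Quotient (orbitRel Γ X)), ((1 : ℚ) - z / s ω) := by
      rw [← nsmul_eq_mul, ← Finset.card_univ, ← Finset.sum_const]
      exact Finset.sum_le_sum fun ω _ => hterm_lo ω
    have h4 : (4 : ℚ) ≤ Fintype.card (Quotient (orbitRel Γ X)) := by exact_mod_cast hgt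
    linarith
  have hcard_ge : 2 ≤ Fintype.card (Quotient (orbitRel Γ X)) := by
    by_contra hlt
    push Not at hlt
    have : ∑ ω : (Quotient (orbitRel Γ X)), ((1 : ℚ) - z / s ω) ≤ Fintype.card (Quotient (orbitRel Γ X)) * 1 := by
      rw [← nsmul_eq_mul, ← Finset.card_univ, ← Finset.sum_const]
      exact Finset.sum_le_sum fun ω _ => (hterm_hi ω).le
    have h4 : (Fintype.card (Quotient (orbitRel Γ X)) : ℚ) ≤ 1 := by exact_mod_cast Nat.lt_succ_iff.mp hlt
    linarith
  have hcases : Fintype.card (Quotient (orbitRel Γ X)) = 2 ∨ Fintype.card (Quotient (orbitRel Γ X)) = 3 := by omega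
  rcases hcases with h2c | h3c
  · rw [← Finset.card_univ] at h2c
    obtain ⟨ω1, ω2, hne, huniv⟩ := Finset.card_eq_two.mp h2c
    rw [huniv, Finset.sum_pair hne] at hkey
    have hE : (1 : ℚ) / s ω1 + 1 / s ω2 = 2 / N := by
      have h6 : (z : ℚ) / s ω1 + z / s ω2 = 2 * z / N := by linarith
      have h7 : (z : ℚ) * (1 / s ω1 + 1 / s ω2) = z * (2 / N) := by
        rw [mul_add]; rw [mul_one_div, mul_one_div]; rw [h6]; ring
      exact mul_left_cancel₀ hzq.ne' h7
    exact dsg_ka_two (hspos ω1.out) (hspos ω2.out) (hs3 ω1.out) (hs3 ω2.out) hE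
  · rw [← Finset.card_univ] at h3c
    obtain ⟨ω1, ω2, ω3, h12, h13, h23, huniv⟩ := Finset.card_eq_three.mp h3c
    rw [huniv, Finset.sum_insert (by simp [h12, h13]), Finset.sum_pair h23] at hkey
    -- pass to e = s / z, n = N / z
    have he : ∀ ω : (Quotient (orbitRel Γ X)), ((s ω / z : ℕ) : ℚ) = (s ω : ℚ) / z := fun ω =>
      Nat.cast_div (hzdvd ω.out) hzq.ne'
    have hn' : ((N / z : ℕ) : ℚ) = (N : ℚ) / z := Nat.cast_div hzN hzq.ne'
    have he2 : ∀ ω : (Quotient (orbitRel Γ X)), 2 ≤ s ω / z := fun ω => by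
      rw [Nat.le_div_iff_mul_le hzpos]; exact hs2 ω.out
    have he3 : ∀ ω : (Quotient (orbitRel Γ X)), 3 * (s ω / z) ≤ N / z := fun ω => by
      rw [Nat.le_div_iff_mul_le hzpos]
      calc 3 * (s ω / z) * z = 3 * (s ω / z * z) := by ring
        _ = 3 * s ω := by rw [Nat.div_mul_cancel (hzdvd ω.out)]
        _ ≤ N := hs3 ω.out
    have hn60 : 60 < N / z := by
      rw [Nat.lt_div_iff_mul_lt' hzN]
      linarith
    refine dsg_ka_three (he2 ω1) (he2 ω2) (he2 ω3) hn60 (he3 ω1) (he3 ω2) (he3 ω3) ?_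
    rw [he, he, he, hn']
    have e1 : (1 : ℚ) / ((s ω1 : ℚ) / z) = z / s ω1 := by rw [one_div, inv_div]
    have e2 : (1 : ℚ) / ((s ω2 : ℚ) / z) = z / s ω2 := by rw [one_div, inv_div]
    have e3 : (1 : ℚ) / ((s ω3 : ℚ) / z) = z / s ω3 := by rw [one_div, inv_div]
    have e4 : (2 : ℚ) / ((N : ℚ) / z) = 2 * z / N := by field_simp
    rw [e1, e2, e3, e4]
    linarith

end Fermat.Agent.DS
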