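import Mathlib
import Fermat.Agent.DS.Group.KleinCount

/-!
# DS-G / [G-KLEIN], geometric part (prefix `dsg_kl_`)

`k` an algebraically closed field, `G ≤ GL₂(k)` a finite subgroup whose order is invertible in `k`.
Then `G` has a commutative subgroup of index `≤ 2`, or `|G| ≤ 60 |G ∩ k^×|`
(`dsg_kl_main`).  The proof applies the counting theorem `dsg_kc_main` to the action of `G` on the
points of `ℙ¹(k) = OnePoint k` having a non-scalar stabiliser.
-/

set_option autoImplicit false
set_option linter.unusedSectionVars false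
set_option linter.style.haveILetI false

namespace Fermat.Agent.DS

open Matrix MulAction OnePoint

section Upper

variable {k : Type*} [Field k]

/-- powers of an upper triangular matrix with equal diagonal entries. -/
theorem dsg_kl_pow_upper (g : GL (Fin 2) k) (h10 : g 1 0 = 0) (hd : g 0 0 = g 1 1) (m : ℕ) :
    (g ^ m : GL (Fin 2) k) 1 0 = 0 ∧ (g ^ m : GL (Fin 2) k) 0 0 = g 0 0 ^ m ∧
      (g ^ m : GL (Fin 2) k) 1 1 = g 0 0 ^ m ∧
      (g ^ m : GL (Fin 2) k) 0 1 * g 0 0 = m * g 0 0 ^ m * g 0 1 := by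
  induction m with
  | zero => simp
  | succ m ih =>
    obtain ⟨i10, i00, i11, i01⟩ := ih
    rw [pow_succ]
    simp only [Matrix.GeneralLinearGroup.coe_mul, Matrix.mul_apply, Fin.sum_univ_two]
    refine ⟨?_, ?_, ?_, ?_⟩
    · rw [i10, h10, zero_mul, mul_zero, add_zero]
    · rw [i00, h10, mul_zero, add_zero, pow_succ]
    · rw [i10, i11, zero_mul, zero_add, ← hd, pow_succ]
    · rw [i00, ← hd]
      push_cast
      linear_combination g 0 0 * i01

/-- an upper triangular matrix of finite order prime to the characteristic with equal diagonal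
entries is diagonal. -/
theorem dsg_kl_upper_diag_of_pow (g : GL (Fin 2) k) (h10 : g 1 0 = 0) (hd : g 0 0 = g 1 1)
    (m : ℕ) (hm : (m : k) ≠ 0) (hgm : g ^ m = 1) : g 0 1 = 0 := by
  obtain ⟨-, -, -, h⟩ := dsg_kl_pow_upper g h10 hd m
  rw [hgm] at h
  have h00 : g 0 0 ≠ 0 := by
    intro h0
    have := g.det_ne_zero
    rw [Matrix.det_fin_two, h10, h0] at this
    simp at this
  have : (m : k) * g 0 0 ^ m * g 0 1 = 0 := by
    rw [← h]
    simp
  rcases mul_eq_zero.1 this with h1 | h1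
  · rcases mul_eq_zero.1 h1 with h2 | h2
    · exact absurd h2 hm
    · exact absurd (pow_eq_zero_iff (by rintro rfl; exact hm (by simp)) |>.1 h2) h00
  · exact h1

end Upper

section Action

variable {k : Type*} [Field k] [DecidableEq k]

/-- central elements of `GL₂(k)` in coordinates. -/
theorem dsg_kl_mem_center_iff (g : GL (Fin 2) k) :
    g ∈ Subgroup.center (GL (Fin 2) k) ↔ g 1 0 = 0 ∧ g 0 1 = 0 ∧ g 0 0 = g 1 1 := by
  rw [Matrix.GeneralLinearGroup.mem_center_iff_val_mem_range_scalar]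
  constructor
  · rintro ⟨a, ha⟩
    have h := fun i j => congrFun (congrFun ha i) j
    refine ⟨?_, ?_, ?_⟩
    · rw [← h 1 0]; simp
    · rw [← h 0 1]; simp
    · rw [← h 0 0, ← h 1 1]; simp
  · rintro ⟨h10, h01, hd⟩
    refine ⟨g 0 0, ?_⟩
    ext i j
    fin_cases i <;> fin_cases j <;> simp [h10, h01, hd]

/-- central elements act trivially on the projective line. -/
theorem dsg_kl_center_smul (g : GL (Fin 2) k) (hg : g ∈ Subgroup.center (GL (Fin 2) k))
    (x : OnePoint k) : g • x = x := by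
  obtain ⟨h10, h01, hd⟩ := (dsg_kl_mem_center_iff g).1 hg
  have h11 : g 1 1 ≠ 0 := by
    intro h0
    have := g.det_ne_zero
    rw [Matrix.det_fin_two, h10, h0] at this
    simp at this
  cases x with
  | infty => rw [smul_infty_eq_self_iff]; exact h10
  | coe c =>
    rw [smul_some_eq_ite, h10, zero_mul, zero_add, if_neg h11, h01, add_zero, hd,
      mul_div_cancel_left₀ _ h11]

/-- the fixed points of an upper triangular matrix with distinct diagonal entries. -/
theorem dsg_kl_fixedBy_upper (g : GL (Fin 2) k) (h10 : g 1 0 = 0) (hd : g 0 0 ≠ g 1 1) :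
    fixedBy (OnePoint k) g = {∞, ((g 0 1 / (g 1 1 - g 0 0) : k) : OnePoint k)} := by
  have hsub : g 1 1 - g 0 0 ≠ 0 := sub_ne_zero.2 (Ne.symm hd)
  ext x
  rw [mem_fixedBy, Set.mem_insert_iff, Set.mem_singleton_iff]
  cases x with
  | infty =>
    rw [smul_infty_eq_self_iff]
    exact ⟨fun _ => Or.inl rfl, fun _ => h10⟩
  | coe c =>
    rw [← Matrix.GeneralLinearGroup.fixpointPolynomial_aeval_eq_zero_iff,
      Matrix.GeneralLinearGroup.fixpointPolynomial, h10]
    simp only [map_zero, zero_mul, zero_add, map_sub, map_mul, Polynomial.aeval_C,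
      Polynomial.aeval_X, Algebra.algebraMap_self_apply]
    constructor
    · intro h
      right
      rw [OnePoint.coe_eq_coe, eq_div_iff hsub]
      linear_combination h
    · rintro (h | h)
      · exact absurd h (OnePoint.coe_ne_infty c)
      · rw [OnePoint.coe_eq_coe] at h
        rw [h]
        field_simp
        ring

theorem dsg_kl_card_fixedBy_upper (g : GL (Fin 2) k) (h10 : g 1 0 = 0) (hd : g 0 0 ≠ g 1 1) :
    Nat.card (fixedBy (OnePoint k) g) = 2 := by
  rw [dsg_kl_fixedBy_upper g h10 hd, Nat.card_coe_set_eq, Set.ncard_pair]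
  exact OnePoint.infty_ne_coe _

/-- `GL₂(k)` acts transitively on the projective line. -/
theorem dsg_kl_exists_smul_eq_infty (x : OnePoint k) : ∃ γ : GL (Fin 2) k, γ • x = ∞ := by
  cases x with
  | infty => exact ⟨1, one_smul _ _⟩
  | coe t =>
    refine ⟨Matrix.GeneralLinearGroup.mkOfDetNeZero !![0, 1; 1, -t]
      (by rw [Matrix.det_fin_two_of]; simp), ?_⟩
    rw [smul_some_eq_ite]
    have h : (Matrix.GeneralLinearGroup.mkOfDetNeZero !![0, 1; 1, -t]
        (by rw [Matrix.det_fin_two_of]; simp) : GL (Fin 2) k) 1 0 * t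
        + (Matrix.GeneralLinearGroup.mkOfDetNeZero !![0, 1; 1, -t]
        (by rw [Matrix.det_fin_two_of]; simp) : GL (Fin 2) k) 1 1 = 0 := by
      simp [Matrix.GeneralLinearGroup.mkOfDetNeZero]
    rw [if_pos h]

/-- conjugation does not change the number of fixed points. -/
theorem dsg_kl_card_fixedBy_conj {Γ X : Type*} [Group Γ] [MulAction Γ X] (γ g : Γ) :
    Nat.card (fixedBy X (γ * g * γ⁻¹)) = Nat.card (fixedBy X g) := by
  refine Nat.card_congr ⟨fun x => ⟨γ⁻¹ • x.1, ?_⟩, fun x => ⟨γ • x.1, ?_⟩, ?_, ?_⟩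
  · have := x.2
    rw [mem_fixedBy] at this ⊢
    conv_rhs => rw [← this]
    simp [mul_smul]
  · have := x.2
    rw [mem_fixedBy] at this ⊢
    simp [mul_smul, this]
  · intro x
    simp
  · intro x
    simp

end Action

section Closed

variable {k : Type*} [Field k] [DecidableEq k]

/-- over an algebraically closed field every element of `GL₂(k)` has a fixed point on `ℙ¹(k)`. -/
theorem dsg_kl_exists_fixed [IsAlgClosed k] (g : GL (Fin 2) k) : ∃ x : OnePoint k, g • x = x := by
  by_cases h : g 1 0 = 0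
  · exact ⟨∞, smul_infty_eq_self_iff.2 h⟩
  · have hdeg : g.fixpointPolynomial.degree ≠ 0 := by
      have h1 : g.fixpointPolynomial = Polynomial.C (g 1 0) * Polynomial.X ^ 2
          + Polynomial.C (g 1 1 - g 0 0) * Polynomial.X + Polynomial.C (-(g 0 1)) := by
        rw [Matrix.GeneralLinearGroup.fixpointPolynomial, Polynomial.C_neg, sub_eq_add_neg]
      rw [h1, Polynomial.degree_quadratic h]
      norm_num
    obtain ⟨c, hc⟩ := IsAlgClosed.exists_root g.fixpointPolynomial hdeg
    refine ⟨(c : OnePoint k), Matrix.GeneralLinearGroup.fixpointPolynomial_aeval_eq_zero_iff.1 ?_⟩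
    rw [Polynomial.coe_aeval_eq_eval]
    exact hc

/-- **FIX2**: a non-scalar element of finite order prime to the characteristic has exactly two
fixed points on `ℙ¹(k)`. -/
theorem dsg_kl_card_fixedBy [IsAlgClosed k] (g : GL (Fin 2) k)
    (hg : g ∉ Subgroup.center (GL (Fin 2) k)) (m : ℕ) (hm : (m : k) ≠ 0) (hgm : g ^ m = 1) :
    Nat.card (fixedBy (OnePoint k) g) = 2 := by
  obtain ⟨x, hx⟩ := dsg_kl_exists_fixed g
  obtain ⟨γ, hγ⟩ := dsg_kl_exists_smul_eq_infty x
  set g' : GL (Fin 2) k := γ * g * γ⁻¹ with hg'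
  have hfix : g' • (∞ : OnePoint k) = ∞ := by
    rw [hg', mul_smul, mul_smul, ← hγ, inv_smul_smul, hx]
  have h10 : g' 1 0 = 0 := smul_infty_eq_self_iff.1 hfix
  have hncen : g' ∉ Subgroup.center (GL (Fin 2) k) := by
    intro hc
    apply hg
    have h1 : γ * g' = g' * γ := Subgroup.mem_center_iff.1 hc γ
    have : g = g' := by
      have h2 : g = γ⁻¹ * g' * γ := by rw [hg']; group
      rw [h2, mul_assoc, ← h1, inv_mul_cancel_left]
    rw [this]
    exact hc
  have hpow : g' ^ m = 1 := by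
    rw [hg', conj_pow, hgm, mul_one, mul_inv_cancel]
  have hd : g' 0 0 ≠ g' 1 1 := by
    intro hd
    apply hncen
    rw [dsg_kl_mem_center_iff]
    exact ⟨h10, dsg_kl_upper_diag_of_pow g' h10 hd m hm hpow, hd⟩
  rw [← dsg_kl_card_fixedBy_conj γ g]
  exact dsg_kl_card_fixedBy_upper g' h10 hd

/-- **STAB at `∞`**: in a finite group of order prime to the characteristic, two elements fixing
`∞` commute. -/
theorem dsg_kl_commute_of_fix_infty (G : Subgroup (GL (Fin 2) k)) [Finite G]
    (hG : (Nat.card G : k) ≠ 0) {g h : GL (Fin 2) k} (hg : g ∈ G) (hh : h ∈ G)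
    (hg' : g • (∞ : OnePoint k) = ∞) (hh' : h • (∞ : OnePoint k) = ∞) : g * h = h * g := by
  have hg10 : g 1 0 = 0 := smul_infty_eq_self_iff.1 hg'
  have hh10 : h 1 0 = 0 := smul_infty_eq_self_iff.1 hh'
  set x : GL (Fin 2) k := g * h with hx
  set y : GL (Fin 2) k := h * g with hy
  set z : GL (Fin 2) k := x⁻¹ * y with hz
  have hxz : x * z = y := by rw [hz]; group
  have hzG : z ∈ G := G.mul_mem (G.inv_mem (G.mul_mem hg hh)) (G.mul_mem hh hg)
  have hz' : z • (∞ : OnePoint k) = ∞ := by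
    rw [hz, hx, hy, mul_smul, mul_smul, hg', hh', inv_smul_eq_iff, mul_smul, hh', hg']
  have hz10 : z 1 0 = 0 := smul_infty_eq_self_iff.1 hz'
  have hx10 : x 1 0 = 0 := by
    rw [hx, Matrix.GeneralLinearGroup.coe_mul, Matrix.mul_apply, Fin.sum_univ_two, hg10, hh10]
    ring
  have hx00 : x 0 0 = g 0 0 * h 0 0 := by
    rw [hx, Matrix.GeneralLinearGroup.coe_mul, Matrix.mul_apply, Fin.sum_univ_two, hh10]
    ring
  have hx11 : x 1 1 = g 1 1 * h 1 1 := by
    rw [hx, Matrix.GeneralLinearGroup.coe_mul, Matrix.mul_apply, Fin.sum_univ_two, hg10]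
    ring
  have hy00 : y 0 0 = g 0 0 * h 0 0 := by
    rw [hy, Matrix.GeneralLinearGroup.coe_mul, Matrix.mul_apply, Fin.sum_univ_two, hg10]
    ring
  have hy11 : y 1 1 = g 1 1 * h 1 1 := by
    rw [hy, Matrix.GeneralLinearGroup.coe_mul, Matrix.mul_apply, Fin.sum_univ_two, hh10]
    ring
  have hxdet : x 0 0 * x 1 1 ≠ 0 := by
    have := x.det_ne_zero
    rwa [Matrix.det_fin_two, hx10, mul_zero, sub_zero] at this
  have hx00ne : x 0 0 ≠ 0 := left_ne_zero_of_mul hxdet
  have hx11ne : x 1 1 ≠ 0 := right_ne_zero_of_mul hxdet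
  have hz00 : z 0 0 = 1 := by
    have h1 : y 0 0 = x 0 0 * z 0 0 + x 0 1 * z 1 0 := by
      rw [← hxz, Matrix.GeneralLinearGroup.coe_mul, Matrix.mul_apply, Fin.sum_univ_two]
    rw [hz10, mul_zero, add_zero, hy00, ← hx00] at h1
    exact (mul_right_cancel₀ hx00ne (by rw [one_mul]; rw [mul_comm]; exact h1.symm) :
      z 0 0 = 1)
  have hz11 : z 1 1 = 1 := by
    have h1 : y 1 1 = x 1 0 * z 0 1 + x 1 1 * z 1 1 := by
      rw [← hxz, Matrix.GeneralLinearGroup.coe_mul, Matrix.mul_apply, Fin.sum_univ_two]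
    rw [hx10, zero_mul, zero_add, hy11, ← hx11] at h1
    exact (mul_right_cancel₀ hx11ne (by rw [one_mul]; rw [mul_comm]; exact h1.symm) :
      z 1 1 = 1)
  have hzpow : z ^ Nat.card G = 1 := by
    have := pow_card_eq_one' (G := G) (x := ⟨z, hzG⟩)
    exact congrArg Subtype.val this
  have hz01 : z 0 1 = 0 :=
    dsg_kl_upper_diag_of_pow z hz10 (hz00.trans hz11.symm) (Nat.card G) hG hzpow
  have hz1 : z = 1 := by
    apply Matrix.GeneralLinearGroup.ext
    intro i j
    fin_cases i <;> fin_cases j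
    · simpa using hz00
    · simpa using hz01
    · simpa using hz10
    · simpa using hz11
  rw [← hxz, hz1, mul_one]

/-- **STAB**: in a finite subgroup of `GL₂(k)` of order prime to the characteristic, two elements
with a common fixed point on `ℙ¹(k)` commute. -/
theorem dsg_kl_commute_of_fix (G : Subgroup (GL (Fin 2) k)) [Finite G]
    (hG : (Nat.card G : k) ≠ 0) {g h : GL (Fin 2) k} (hg : g ∈ G) (hh : h ∈ G) (x : OnePoint k)
    (hgx : g • x = x) (hhx : h • x = x) : g * h = h * g := by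
  obtain ⟨γ, hγ⟩ := dsg_kl_exists_smul_eq_infty x
  let c : GL (Fin 2) k →* GL (Fin 2) k := (MulAut.conj γ).toMonoidHom
  have hcinj : Function.Injective c := (MulAut.conj γ).injective
  have hcapp : ∀ u, c u = γ * u * γ⁻¹ := fun u => rfl
  let G' : Subgroup (GL (Fin 2) k) := G.map c
  haveI : Finite G' := Finite.of_equiv G (G.equivMapOfInjective c hcinj).toEquiv
  have hcard : Nat.card G' = Nat.card G :=
    (Nat.card_congr (G.equivMapOfInjective c hcinj).toEquiv).symm
  have hfix : ∀ u : GL (Fin 2) k, u • x = x → (γ * u * γ⁻¹) • (∞ : OnePoint k) = ∞ := by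
    intro u hu
    rw [mul_smul, mul_smul, ← hγ, inv_smul_smul, hu]
  have h1 := dsg_kl_commute_of_fix_infty G' (by rw [hcard]; exact hG)
    (Subgroup.mem_map_of_mem c hg) (Subgroup.mem_map_of_mem c hh)
    (by rw [hcapp]; exact hfix g hgx) (by rw [hcapp]; exact hfix h hhx)
  rw [← map_mul, ← map_mul] at h1
  exact hcinj h1

end Closed

section Main

variable {k : Type*} [Field k] [DecidableEq k] [IsAlgClosed k]

/-- the points of `ℙ¹(k)` with a non-scalar stabiliser in `G`, as a `G`-set. -/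
def dsg_kl_X (G : Subgroup (GL (Fin 2) k)) : SubMulAction G (OnePoint k) where
  carrier := {x | ∃ g : G, (g : GL (Fin 2) k) ∉ Subgroup.center (GL (Fin 2) k) ∧ g • x = x}
  smul_mem' := by
    rintro γ x ⟨g, hg, hgx⟩
    refine ⟨γ * g * γ⁻¹, ?_, ?_⟩
    · intro hc
      apply hg
      have h1 : (γ : GL (Fin 2) k) * ((γ * g * γ⁻¹ : G) : GL (Fin 2) k)
          = ((γ * g * γ⁻¹ : G) : GL (Fin 2) k) * γ := Subgroup.mem_center_iff.1 hc γ
      have h2 : (g : GL (Fin 2) k) = ((γ * g * γ⁻¹ : G) : GL (Fin 2) k) := by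
        have h3 : (g : GL (Fin 2) k)
            = (γ : GL (Fin 2) k)⁻¹ * ((γ * g * γ⁻¹ : G) : GL (Fin 2) k) * γ := by
          push_cast
          group
        rw [h3, mul_assoc, ← h1, inv_mul_cancel_left]
      rw [h2]
      exact hc
    · rw [mul_smul, mul_smul, inv_smul_smul, hgx]

theorem dsg_kl_mem_X (G : Subgroup (GL (Fin 2) k)) (x : OnePoint k) :
    x ∈ dsg_kl_X G ↔
      ∃ g : G, (g : GL (Fin 2) k) ∉ Subgroup.center (GL (Fin 2) k) ∧ g • x = x := Iff.rfl

theorem dsg_kl_pow_card (G : Subgroup (GL (Fin 2) k)) [Finite G] (g : G) :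
    (g : GL (Fin 2) k) ^ Nat.card G = 1 := by
  have := pow_card_eq_one' (G := G) (x := g)
  exact congrArg Subtype.val this

theorem dsg_kl_finite_X (G : Subgroup (GL (Fin 2) k)) [Finite G] (hG : (Nat.card G : k) ≠ 0) :
    Finite (dsg_kl_X G) := by
  have hsub : (dsg_kl_X G : Set (OnePoint k)) ⊆
      ⋃ g : G, {x | (g : GL (Fin 2) k) ∉ Subgroup.center (GL (Fin 2) k) ∧ g • x = x} := by
    rintro x ⟨g, hg, hgx⟩
    exact Set.mem_iUnion.2 ⟨g, hg, hgx⟩
  have hfin : (⋃ g : G, {x : OnePoint k |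
      (g : GL (Fin 2) k) ∉ Subgroup.center (GL (Fin 2) k) ∧ g • x = x}).Finite := by
    refine Set.finite_iUnion fun g => ?_
    by_cases hc : (g : GL (Fin 2) k) ∈ Subgroup.center (GL (Fin 2) k)
    · have : {x : OnePoint k |
          (g : GL (Fin 2) k) ∉ Subgroup.center (GL (Fin 2) k) ∧ g • x = x} = ∅ := by
        ext x
        simp [hc]
      rw [this]
      exact Set.finite_empty
    · have h2 := dsg_kl_card_fixedBy (g : GL (Fin 2) k) hc (Nat.card G) hG (dsg_kl_pow_card G g)
      have hfin2 : Finite (fixedBy (OnePoint k) (g : GL (Fin 2) k)) :=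
        Nat.finite_of_card_ne_zero (by rw [h2]; norm_num)
      refine Set.Finite.subset (Set.toFinite (fixedBy (OnePoint k) (g : GL (Fin 2) k))) ?_
      rintro x ⟨-, hx⟩
      exact hx
  exact (hfin.subset hsub).to_subtype

/-- **[G-KLEIN]** A finite subgroup of `GL₂(k)`, `k` algebraically closed, whose order is
invertible in `k` has a commutative subgroup of index at most `2`, or its image in `PGL₂(k)` has
order at most `60`. -/
theorem dsg_kl_main (G : Subgroup (GL (Fin 2) k)) [Finite G] (hG : (Nat.card G : k) ≠ 0) :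
    (∃ H : Subgroup (GL (Fin 2) k), H ≤ G ∧ (∀ a ∈ H, ∀ b ∈ H, a * b = b * a) ∧
      Nat.card G ≤ 2 * Nat.card H) ∨
    Nat.card G ≤ 60 * Nat.card ↥(G ⊓ Subgroup.center (GL (Fin 2) k)) := by
  haveI := dsg_kl_finite_X G hG
  let Z : Subgroup G := (Subgroup.center (GL (Fin 2) k)).subgroupOf G
  have hZ : ∀ g : G, g ∈ Z ↔ (g : GL (Fin 2) k) ∈ Subgroup.center (GL (Fin 2) k) :=
    fun g => Subgroup.mem_subgroupOf
  have h1 : ∀ g ∈ Z, ∀ x : dsg_kl_X G, g • x = x := by
    intro g hg x
    apply Subtype.ext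
    rw [SubMulAction.val_smul]
    exact dsg_kl_center_smul (g : GL (Fin 2) k) ((hZ g).1 hg) x.1
  have h2 : ∀ g : G, g ∉ Z → Nat.card (fixedBy (dsg_kl_X G) g) = 2 := by
    intro g hg
    have hc : (g : GL (Fin 2) k) ∉ Subgroup.center (GL (Fin 2) k) := fun h => hg ((hZ g).2 h)
    refine Eq.trans ?_
      (dsg_kl_card_fixedBy (g : GL (Fin 2) k) hc (Nat.card G) hG (dsg_kl_pow_card G g))
    refine Nat.card_congr ⟨fun x => ⟨x.1.1, ?_⟩, fun y => ⟨⟨y.1, ⟨g, hc, y.2⟩⟩, ?_⟩, ?_, ?_⟩
    · have := x.2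
      rw [mem_fixedBy] at this ⊢
      have h3 := congrArg Subtype.val this
      rwa [SubMulAction.val_smul] at h3
    · rw [mem_fixedBy]
      apply Subtype.ext
      rw [SubMulAction.val_smul]
      exact y.2
    · intro x
      rfl
    · intro y
      rfl
  have h3 : ∀ x : dsg_kl_X G, ∃ g : G, g ∉ Z ∧ g • x = x := by
    rintro ⟨x, g, hg, hgx⟩
    refine ⟨g, fun h => hg ((hZ g).1 h), ?_⟩
    apply Subtype.ext
    rw [SubMulAction.val_smul]
    exact hgx
  rcases dsg_kc_main Z h1 h2 h3 with ⟨x, hx⟩ | h60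
  · left
    refine ⟨(stabilizer G x).map G.subtype, Subgroup.map_subtype_le _, ?_, ?_⟩
    · rintro _ ⟨a, ha, rfl⟩ _ ⟨b, hb, rfl⟩
      have hax : (a : GL (Fin 2) k) • x.1 = x.1 := by
        have := congrArg Subtype.val (mem_stabilizer_iff.1 ha)
        rwa [SubMulAction.val_smul] at this
      have hbx : (b : GL (Fin 2) k) • x.1 = x.1 := by
        have := congrArg Subtype.val (mem_stabilizer_iff.1 hb)
        rwa [SubMulAction.val_smul] at this
      exact dsg_kl_commute_of_fix G hG a.2 b.2 x.1 hax hbx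
    · rw [Subgroup.card_map_of_injective G.subtype_injective]
      exact hx
  · right
    have hcard : Nat.card Z = Nat.card ↥(G ⊓ Subgroup.center (GL (Fin 2) k)) := by
      have h4 : Z = (G ⊓ Subgroup.center (GL (Fin 2) k)).subgroupOf G :=
        (Subgroup.inf_subgroupOf_left _ _).symm
      rw [h4]
      exact Nat.card_congr (Subgroup.subgroupOfEquivOfLe inf_le_left).toEquiv
    rw [← hcard]
    exact h60

end Main

end Fermat.Agent.DS
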