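import Mathlib

/-!
# DS-G (i): subgroups of `GL₂(𝔽_ℓ)` of order divisible by `ℓ` (prefix `dsg_sl2_`)

* `dsg_sl2_le`: a subgroup `G ≤ GL₂(𝔽_ℓ)` acting irreducibly on `𝔽_ℓ²` whose order is divisible by
  `ℓ` contains `SL₂(𝔽_ℓ)`.
* `dsg_sl2_card_charpoly_le`: at most `2 q²` elements of `GL₂(𝔽_q)` have a prescribed trace and
  determinant.
-/

set_option autoImplicit false
set_option linter.style.haveILetI false
set_option linter.unusedSectionVars false

namespace Fermat.Agent.DS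

open Matrix

open scoped MatrixGroups

section Generation

variable {F : Type*} [Field F]

/-- a subgroup of `GL₂(F)` containing all elementary matrices contains `SL₂(F)`. -/
theorem dsg_sl2_le_of_transvections (K : Subgroup (GL (Fin 2) F))
    (h : ∀ (i j : Fin 2) (hij : i ≠ j) (t : F),
      SpecialLinearGroup.toGL (SpecialLinearGroup.transvection hij t) ∈ K)
    (s : SL(2, F)) : SpecialLinearGroup.toGL s ∈ K := by
  refine SL2.transvection_induction (fun s => SpecialLinearGroup.toGL s ∈ K) h ?_ s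
  intro A B hA hB
  rw [map_mul]
  exact K.mul_mem hA hB

theorem dsg_sl2_transvection_pow {i j : Fin 2} (hij : i ≠ j) (a : F) (k : ℕ) :
    (SpecialLinearGroup.transvection hij a) ^ k
      = SpecialLinearGroup.transvection hij ((k : F) * a) := by
  induction k with
  | zero => simp
  | succ k ih =>
    rw [pow_succ, ih, ← SpecialLinearGroup.transvection_add]
    congr 1
    push_cast
    ring

end Generation

section Conj

variable {F : Type*} [Field F]

/-- `SL₂(F)` is normal in `GL₂(F)`: a subgroup containing a conjugate of it contains it. -/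
theorem dsg_sl2_le_of_conj (G : Subgroup (GL (Fin 2) F)) (P : GL (Fin 2) F)
    (h : ∀ s : SL(2, F), P * SpecialLinearGroup.toGL s * P⁻¹ ∈ G) (s : SL(2, F)) :
    SpecialLinearGroup.toGL s ∈ G := by
  have hdet : ((P⁻¹ * SpecialLinearGroup.toGL s * P : GL (Fin 2) F) : Matrix (Fin 2) (Fin 2) F).det
      = 1 := by
    have h1 : Matrix.GeneralLinearGroup.det (P⁻¹ * SpecialLinearGroup.toGL s * P) = 1 := by
      rw [map_mul, map_mul, mul_comm, ← mul_assoc, map_inv, mul_inv_cancel, one_mul]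
      apply Units.ext
      rw [Matrix.GeneralLinearGroup.val_det_apply]
      exact s.2
    have h2 := congrArg Units.val h1
    rwa [Matrix.GeneralLinearGroup.val_det_apply] at h2
  let s' : SL(2, F) := ⟨_, hdet⟩
  have hs' : SpecialLinearGroup.toGL s' = P⁻¹ * SpecialLinearGroup.toGL s * P :=
    Matrix.GeneralLinearGroup.ext fun _ _ => rfl
  have h3 := h s'
  rw [hs'] at h3
  have h4 : P * (P⁻¹ * SpecialLinearGroup.toGL s * P) * P⁻¹ = SpecialLinearGroup.toGL s := by
    group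
  rwa [h4] at h3

end Conj

section Nilpotent

variable {F : Type*} [Field F]

/-- a nilpotent `2 × 2` matrix over a field has square zero. -/
theorem dsg_sl2_sq_zero_of_pow (n : Matrix (Fin 2) (Fin 2) F) (k : ℕ) (h : n ^ k = 0) :
    n * n = 0 := by
  have hnil : IsNilpotent n := ⟨k, h⟩
  have h1 := Matrix.isNilpotent_charpoly_sub_pow_of_isNilpotent hnil
  have h2 : n.charpoly - Polynomial.X ^ 2 = 0 := by
    have := h1.eq_zero
    simpa using this
  have h3 := Matrix.aeval_self_charpoly n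
  rw [sub_eq_zero.1 h2, map_pow, Polynomial.aeval_X, pow_two] at h3
  exact h3

/-- kernel and image of a non-zero endomorphism of square zero of a plane are the same line. -/
theorem dsg_sl2_nilpotent_line {V : Type*} [AddCommGroup V] [Module F V]
    (hV : Module.finrank F V = 2) (f : V →ₗ[F] V) (hf : f ≠ 0) (hff : f ∘ₗ f = 0) :
    ∃ e : V, e ≠ 0 ∧ LinearMap.ker f = Submodule.span F {e} ∧
      LinearMap.range f = Submodule.span F {e} := by
  haveI : FiniteDimensional F V := Module.finite_of_finrank_pos (by omega)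
  have hle : LinearMap.range f ≤ LinearMap.ker f := by
    rintro _ ⟨w, rfl⟩
    rw [LinearMap.mem_ker]
    exact LinearMap.congr_fun hff w
  have hsum := LinearMap.finrank_range_add_finrank_ker f
  rw [hV] at hsum
  have hr1 : 1 ≤ Module.finrank F (LinearMap.range f) := by
    rw [Nat.one_le_iff_ne_zero]
    intro h0
    rw [Submodule.finrank_eq_zero] at h0
    exact hf (LinearMap.range_eq_bot.1 h0)
  have hrk := Submodule.finrank_mono hle
  have hr : Module.finrank F (LinearMap.range f) = 1 := by omega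
  have hk : Module.finrank F (LinearMap.ker f) = 1 := by omega
  have heq : LinearMap.range f = LinearMap.ker f :=
    Submodule.eq_of_le_of_finrank_eq hle (by rw [hr, hk])
  obtain ⟨e, he, he0⟩ : ∃ e ∈ LinearMap.range f, e ≠ 0 := by
    by_contra hcon
    push Not at hcon
    apply hf
    ext w
    exact hcon (f w) ⟨w, rfl⟩
  have hspan : Submodule.span F {e} = LinearMap.range f := by
    refine Submodule.eq_of_le_of_finrank_eq ?_ ?_
    · rw [Submodule.span_singleton_le_iff_mem]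
      exact he
    · rw [finrank_span_singleton he0, hr]
  exact ⟨e, he0, by rw [← heq, hspan], hspan.symm⟩

end Nilpotent

section Cols

variable {F : Type*} [Field F]

/-- the matrix with columns `e₁`, `e₂`. -/
def dsg_sl2_cols (e₁ e₂ : Fin 2 → F) : Matrix (Fin 2) (Fin 2) F :=
  Matrix.of fun i j => if j = 0 then e₁ i else e₂ i

theorem dsg_sl2_cols_det_ne_zero (e₁ e₂ : Fin 2 → F) (h1 : e₁ ≠ 0)
    (h2 : ∀ x : F, x • e₁ ≠ e₂) : (dsg_sl2_cols e₁ e₂).det ≠ 0 := by
  intro hdet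
  rw [Matrix.det_fin_two] at hdet
  simp only [dsg_sl2_cols, Matrix.of_apply, if_true, one_ne_zero, if_false] at hdet
  by_cases h0 : e₁ 0 = 0
  · have h11 : e₁ 1 ≠ 0 := by
      intro h11
      apply h1
      ext i
      fin_cases i
      · exact h0
      · exact h11
    apply h2 (e₂ 1 / e₁ 1)
    ext i
    fin_cases i
    · simp only [Fin.zero_eta, Pi.smul_apply, smul_eq_mul, h0, mul_zero]
      rw [h0, zero_mul, zero_sub, neg_eq_zero, mul_eq_zero] at hdet
      exact (hdet.resolve_right h11).symm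
    · simp only [Fin.mk_one, Pi.smul_apply, smul_eq_mul]
      rw [div_mul_cancel₀ _ h11]
  · apply h2 (e₂ 0 / e₁ 0)
    ext i
    fin_cases i
    · simp only [Fin.zero_eta, Pi.smul_apply, smul_eq_mul]
      rw [div_mul_cancel₀ _ h0]
    · simp only [Fin.mk_one, Pi.smul_apply, smul_eq_mul]
      field_simp
      linear_combination -hdet

theorem dsg_sl2_mul_cols (A : Matrix (Fin 2) (Fin 2) F) (e₁ e₂ : Fin 2 → F) :
    A * dsg_sl2_cols e₁ e₂ = dsg_sl2_cols (A *ᵥ e₁) (A *ᵥ e₂) := by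
  ext i j
  fin_cases j <;>
    simp [dsg_sl2_cols, Matrix.mul_apply, Matrix.mulVec, dotProduct, Fin.sum_univ_two]

theorem dsg_sl2_cols_mul_upper (e₁ e₂ : Fin 2 → F) (a : F) :
    dsg_sl2_cols e₁ e₂ *
        ((SpecialLinearGroup.transvection (zero_ne_one : (0 : Fin 2) ≠ 1) a : SL(2, F)) :
          Matrix (Fin 2) (Fin 2) F)
      = dsg_sl2_cols e₁ (a • e₁ + e₂) := by
  ext i j
  fin_cases j <;>
    simp [dsg_sl2_cols, Matrix.mul_apply, Fin.sum_univ_two, SpecialLinearGroup.transvection_coe,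
      Matrix.single_apply, Matrix.one_apply, mul_comm]

theorem dsg_sl2_cols_mul_lower (e₁ e₂ : Fin 2 → F) (b : F) :
    dsg_sl2_cols e₁ e₂ *
        ((SpecialLinearGroup.transvection (one_ne_zero : (1 : Fin 2) ≠ 0) b : SL(2, F)) :
          Matrix (Fin 2) (Fin 2) F)
      = dsg_sl2_cols (e₁ + b • e₂) e₂ := by
  ext i j
  fin_cases j <;>
    simp [dsg_sl2_cols, Matrix.mul_apply, Fin.sum_univ_two, SpecialLinearGroup.transvection_coe,
      Matrix.single_apply, Matrix.one_apply, mul_comm]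

end Cols

section CharL

variable {ℓ : ℕ} [Fact ℓ.Prime] {k : Type*} [Field k] [CharP k ℓ]

/-- an element of order `ℓ` of `GL₂(k)`, `char k = ℓ`, is unipotent: `(g - 1)² = 0`. -/
theorem dsg_sl2_unipotent (g : Matrix (Fin 2) (Fin 2) k) (h : g ^ ℓ = 1) :
    (g - 1) * (g - 1) = 0 := by
  refine dsg_sl2_sq_zero_of_pow _ ℓ ?_
  rw [sub_pow_char_of_commute ℓ (Commute.one_right g), h, one_pow, sub_self]

/-- **Two transvections.**  A finite subgroup `G` of `GL₂(k)`, `char k = ℓ`, of order divisible by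
`ℓ` which stabilises no line contains, in a suitable basis, the elementary matrices `E₁₂(1)` and
`E₂₁(c)` with `c ≠ 0`. -/
theorem dsg_sl2_two_transvections (G : Subgroup (GL (Fin 2) k)) [Finite G]
    (hdiv : ℓ ∣ Nat.card G)
    (hirr : ∀ v : Fin 2 → k, v ≠ 0 → ∃ g ∈ G,
      ¬ ∃ c : k, (g : Matrix (Fin 2) (Fin 2) k) *ᵥ v = c • v) :
    ∃ (P : GL (Fin 2) k) (c : k), c ≠ 0 ∧
      P * SpecialLinearGroup.toGL
        (SpecialLinearGroup.transvection (zero_ne_one : (0 : Fin 2) ≠ 1) (1 : k)) * P⁻¹ ∈ G ∧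
      P * SpecialLinearGroup.toGL
        (SpecialLinearGroup.transvection (one_ne_zero : (1 : Fin 2) ≠ 0) c) * P⁻¹ ∈ G := by
  -- an element of order `ℓ`
  obtain ⟨g0, hg0⟩ := exists_prime_orderOf_dvd_card' ℓ hdiv
  set g : GL (Fin 2) k := (g0 : GL (Fin 2) k) with hg
  have hgG : g ∈ G := g0.2
  have hgord : g ^ ℓ = 1 := by
    have h1 : g0 ^ ℓ = 1 := by
      have := pow_orderOf_eq_one g0
      rwa [hg0] at this
    have h2 := congrArg (Subtype.val : G → GL (Fin 2) k) h1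
    simpa using h2
  have hg1 : g ≠ 1 := by
    intro h1
    have h2 : g0 = 1 := Subtype.ext h1
    rw [h2, orderOf_one] at hg0
    exact (Fact.out : ℓ.Prime).one_lt.ne hg0
  set n : Matrix (Fin 2) (Fin 2) k := (g : Matrix (Fin 2) (Fin 2) k) - 1 with hn
  have hgn : (g : Matrix (Fin 2) (Fin 2) k) = n + 1 := by rw [hn]; abel
  have hnn : n * n = 0 := by
    refine dsg_sl2_unipotent (ℓ := ℓ) _ ?_
    have h2 := congrArg (fun x : GL (Fin 2) k => (x : Matrix (Fin 2) (Fin 2) k)) hgord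
    simpa using h2
  have hn0 : n ≠ 0 := by
    intro h0
    apply hg1
    apply Matrix.GeneralLinearGroup.ext
    intro i j
    rw [hgn, h0, zero_add]
    rfl
  have hgv : ∀ v : Fin 2 → k, (g : Matrix (Fin 2) (Fin 2) k) *ᵥ v = n *ᵥ v + v := by
    intro v
    rw [hgn, Matrix.add_mulVec, Matrix.one_mulVec]
  -- the axis of `g`
  obtain ⟨e₁, he0, hker, hrange⟩ := dsg_sl2_nilpotent_line (F := k)
    (by simp) (Matrix.mulVecLin n)
    (by
      intro h0
      apply hn0
      ext i j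
      have h1 := congrFun (LinearMap.congr_fun h0 (Pi.single j 1)) i
      simpa using h1)
    (by
      apply LinearMap.ext
      intro v
      rw [LinearMap.comp_apply, Matrix.mulVecLin_apply, Matrix.mulVecLin_apply,
        Matrix.mulVec_mulVec, hnn, Matrix.zero_mulVec, LinearMap.zero_apply])
  have hkermem : ∀ v : Fin 2 → k, n *ᵥ v = 0 → ∃ x : k, x • e₁ = v := by
    intro v hv
    have : v ∈ LinearMap.ker (Matrix.mulVecLin n) := hv
    rw [hker] at this
    exact Submodule.mem_span_singleton.1 this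
  have hrangemem : ∀ v : Fin 2 → k, ∃ x : k, x • e₁ = n *ᵥ v := by
    intro v
    have : n *ᵥ v ∈ LinearMap.range (Matrix.mulVecLin n) := ⟨v, rfl⟩
    rw [hrange] at this
    exact Submodule.mem_span_singleton.1 this
  have hne₁ : n *ᵥ e₁ = 0 := by
    have : e₁ ∈ LinearMap.ker (Matrix.mulVecLin n) := by
      rw [hker]
      exact Submodule.mem_span_singleton_self e₁
    exact this
  -- a second axis
  obtain ⟨h, hhG, hh'⟩ := hirr e₁ he0
  have hh : ∀ x : k, x • e₁ ≠ (h : Matrix (Fin 2) (Fin 2) k) *ᵥ e₁ := fun x hx => hh' ⟨x, hx.symm⟩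
  set e₂ : Fin 2 → k := (h : Matrix (Fin 2) (Fin 2) k) *ᵥ e₁ with he₂
  obtain ⟨a, ha⟩ := hrangemem e₂
  have ha0 : a ≠ 0 := by
    rintro rfl
    rw [zero_smul] at ha
    obtain ⟨x, hx⟩ := hkermem e₂ ha.symm
    exact hh x hx
  set w : Fin 2 → k := ((h⁻¹ : GL (Fin 2) k) : Matrix (Fin 2) (Fin 2) k) *ᵥ e₁ with hw
  have hhw : (h : Matrix (Fin 2) (Fin 2) k) *ᵥ w = e₁ := by
    rw [hw, Matrix.mulVec_mulVec, ← Matrix.GeneralLinearGroup.coe_mul, mul_inv_cancel]
    simp
  have hhe₂ : ((h⁻¹ : GL (Fin 2) k) : Matrix (Fin 2) (Fin 2) k) *ᵥ e₂ = e₁ := by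
    rw [he₂, Matrix.mulVec_mulVec, ← Matrix.GeneralLinearGroup.coe_mul, inv_mul_cancel]
    simp
  obtain ⟨b, hb⟩ := hrangemem w
  have hb0 : b ≠ 0 := by
    rintro rfl
    rw [zero_smul] at hb
    obtain ⟨x, hx⟩ := hkermem w hb.symm
    have h1 : x • e₂ = e₁ := by
      rw [he₂, ← Matrix.mulVec_smul, hx, hhw]
    have hx0 : x ≠ 0 := by
      rintro rfl
      rw [zero_smul] at h1
      exact he0 h1.symm
    apply hh x⁻¹
    rw [← h1, smul_smul, inv_mul_cancel₀ hx0, one_smul]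
  -- the rescaled first basis vector
  set e₁' : Fin 2 → k := a • e₁ with he₁'
  have he₁'0 : e₁' ≠ 0 := smul_ne_zero ha0 he0
  have hne₁' : n *ᵥ e₁' = 0 := by rw [he₁', Matrix.mulVec_smul, hne₁, smul_zero]
  have hind : ∀ x : k, x • e₁' ≠ e₂ := by
    intro x hx
    apply hh (x * a)
    rw [← hx, he₁', smul_smul]
  -- the change of basis
  let P : GL (Fin 2) k := Matrix.GeneralLinearGroup.mkOfDetNeZero (dsg_sl2_cols e₁' e₂)
    (dsg_sl2_cols_det_ne_zero e₁' e₂ he₁'0 hind)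
  have hP : (P : Matrix (Fin 2) (Fin 2) k) = dsg_sl2_cols e₁' e₂ := rfl
  have hrel1 : g * P = P * SpecialLinearGroup.toGL
      (SpecialLinearGroup.transvection (zero_ne_one : (0 : Fin 2) ≠ 1) (1 : k)) := by
    apply Units.ext
    change (g : Matrix (Fin 2) (Fin 2) k) * (P : Matrix (Fin 2) (Fin 2) k)
      = (P : Matrix (Fin 2) (Fin 2) k) * _
    rw [hP, dsg_sl2_mul_cols]
    erw [dsg_sl2_cols_mul_upper]
    rw [hgv, hgv, hne₁', zero_add, ← ha, one_smul]
  have hrel2 : (h * g * h⁻¹) * P = P * SpecialLinearGroup.toGL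
      (SpecialLinearGroup.transvection (one_ne_zero : (1 : Fin 2) ≠ 0) (a * b)) := by
    apply Units.ext
    change ((h : Matrix (Fin 2) (Fin 2) k) * (g : Matrix (Fin 2) (Fin 2) k)
        * ((h⁻¹ : GL (Fin 2) k) : Matrix (Fin 2) (Fin 2) k))
        * (P : Matrix (Fin 2) (Fin 2) k)
      = (P : Matrix (Fin 2) (Fin 2) k) * _
    rw [hP, dsg_sl2_mul_cols]
    erw [dsg_sl2_cols_mul_lower]
    congr 1
    · rw [he₁', Matrix.mulVec_smul, ← Matrix.mulVec_mulVec, ← Matrix.mulVec_mulVec, ← hw, hgv,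
        ← hb, Matrix.mulVec_add, Matrix.mulVec_smul, hhw, ← he₂, smul_add, smul_smul, add_comm]
    · rw [← Matrix.mulVec_mulVec, ← Matrix.mulVec_mulVec, hhe₂, hgv, hne₁, zero_add]
  refine ⟨P, a * b, mul_ne_zero ha0 hb0, ?_, ?_⟩
  · rw [← hrel1, mul_inv_cancel_right]
    exact hgG
  · rw [← hrel2, mul_inv_cancel_right]
    exact G.mul_mem (G.mul_mem hhG hgG) (G.inv_mem hhG)

end CharL

section Prime

variable {ℓ : ℕ} [Fact ℓ.Prime]

/-- over the prime field, one non-trivial elementary matrix gives them all. -/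
theorem dsg_sl2_transvection_mem (K : Subgroup (GL (Fin 2) (ZMod ℓ))) {i j : Fin 2} (hij : i ≠ j)
    {a : ZMod ℓ} (ha : a ≠ 0)
    (h : SpecialLinearGroup.toGL (SpecialLinearGroup.transvection hij a) ∈ K) (t : ZMod ℓ) :
    SpecialLinearGroup.toGL (SpecialLinearGroup.transvection hij t) ∈ K := by
  have h1 : t = (((t / a).val : ℕ) : ZMod ℓ) * a := by
    rw [ZMod.natCast_zmod_val, div_mul_cancel₀ _ ha]
  rw [h1, ← dsg_sl2_transvection_pow, map_pow]
  exact K.pow_mem h _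

/-- a subgroup of `GL₂(𝔽_ℓ)` containing `E₁₂(a)` and `E₂₁(c)`, `a c ≠ 0`, contains `SL₂(𝔽_ℓ)`. -/
theorem dsg_sl2_le_of_two (K : Subgroup (GL (Fin 2) (ZMod ℓ))) {a c : ZMod ℓ} (ha : a ≠ 0)
    (hc : c ≠ 0)
    (h1 : SpecialLinearGroup.toGL
      (SpecialLinearGroup.transvection (zero_ne_one : (0 : Fin 2) ≠ 1) a) ∈ K)
    (h2 : SpecialLinearGroup.toGL
      (SpecialLinearGroup.transvection (one_ne_zero : (1 : Fin 2) ≠ 0) c) ∈ K)
    (s : SL(2, ZMod ℓ)) : SpecialLinearGroup.toGL s ∈ K := by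
  refine dsg_sl2_le_of_transvections K ?_ s
  intro i j hij t
  fin_cases i <;> fin_cases j
  · exact absurd rfl hij
  · exact dsg_sl2_transvection_mem K _ ha h1 t
  · exact dsg_sl2_transvection_mem K _ hc h2 t
  · exact absurd rfl hij

/-- **[G-SL2] over the prime field.** A subgroup of `GL₂(𝔽_ℓ)` acting irreducibly on `𝔽_ℓ²` whose
order is divisible by `ℓ` contains `SL₂(𝔽_ℓ)`. -/
theorem dsg_sl2_le (G : Subgroup (GL (Fin 2) (ZMod ℓ))) (hdiv : ℓ ∣ Nat.card G)
    (hirr : ∀ v : Fin 2 → ZMod ℓ, v ≠ 0 → ∃ g ∈ G,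
      ¬ ∃ c : ZMod ℓ, (g : Matrix (Fin 2) (Fin 2) (ZMod ℓ)) *ᵥ v = c • v)
    (s : SL(2, ZMod ℓ)) : SpecialLinearGroup.toGL s ∈ G := by
  obtain ⟨P, c, hc0, h1, h2⟩ := dsg_sl2_two_transvections (ℓ := ℓ) G hdiv hirr
  let K : Subgroup (GL (Fin 2) (ZMod ℓ)) := G.comap (MulAut.conj P).toMonoidHom
  have hK : ∀ x : GL (Fin 2) (ZMod ℓ), x ∈ K ↔ P * x * P⁻¹ ∈ G := fun x => Iff.rfl
  have hall : ∀ s : SL(2, ZMod ℓ), SpecialLinearGroup.toGL s ∈ K :=
    dsg_sl2_le_of_two K one_ne_zero hc0 ((hK _).2 h1) ((hK _).2 h2)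
  exact dsg_sl2_le_of_conj G P (fun s => (hK _).1 (hall s)) s

end Prime

section Descent

variable {ℓ : ℕ} [Fact ℓ.Prime] {k : Type*} [Field k] [CharP k ℓ] [Algebra (ZMod ℓ) k]

/-- the base change of an elementary matrix. -/
theorem dsg_sl2_map_transvection {i j : Fin 2} (hij : i ≠ j) (t : ZMod ℓ) :
    Matrix.GeneralLinearGroup.map (algebraMap (ZMod ℓ) k)
        (SpecialLinearGroup.toGL (SpecialLinearGroup.transvection hij t))
      = SpecialLinearGroup.toGL (SpecialLinearGroup.transvection hij (algebraMap (ZMod ℓ) k t)) := by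
  apply Matrix.GeneralLinearGroup.ext
  intro a b
  rw [Matrix.GeneralLinearGroup.map_apply]
  change algebraMap (ZMod ℓ) k ((SpecialLinearGroup.transvection hij t :
      Matrix (Fin 2) (Fin 2) (ZMod ℓ)) a b)
    = (SpecialLinearGroup.transvection hij (algebraMap (ZMod ℓ) k t) :
      Matrix (Fin 2) (Fin 2) k) a b
  rw [SpecialLinearGroup.transvection_coe, SpecialLinearGroup.transvection_coe]
  simp only [Matrix.add_apply, Matrix.one_apply, Matrix.single_apply, map_add]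
  split_ifs <;> simp

/-- the trace of a conjugate. -/
theorem dsg_sl2_trace_conj (P x : GL (Fin 2) k) :
    ((P * x * P⁻¹ : GL (Fin 2) k) : Matrix (Fin 2) (Fin 2) k).trace
      = (x : Matrix (Fin 2) (Fin 2) k).trace := by
  rw [Matrix.GeneralLinearGroup.coe_mul, Matrix.GeneralLinearGroup.coe_mul, Matrix.trace_mul_comm,
    ← Matrix.mul_assoc, ← Matrix.GeneralLinearGroup.coe_mul, inv_mul_cancel]
  simp

/-- a matrix whose traces against `1`, `E₁₂(1)`, `E₂₁(1)`, `E₁₂(1)E₂₁(1)` lie in a subring has its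
entries in that subring. -/
theorem dsg_sl2_entries_mem (R : Subring k) (y : Matrix (Fin 2) (Fin 2) k)
    (h1 : y.trace ∈ R)
    (h2 : (y * (SpecialLinearGroup.transvection (zero_ne_one : (0 : Fin 2) ≠ 1) (1 : k) :
      Matrix (Fin 2) (Fin 2) k)).trace ∈ R)
    (h3 : (y * (SpecialLinearGroup.transvection (one_ne_zero : (1 : Fin 2) ≠ 0) (1 : k) :
      Matrix (Fin 2) (Fin 2) k)).trace ∈ R)
    (h4 : (y * ((SpecialLinearGroup.transvection (zero_ne_one : (0 : Fin 2) ≠ 1) (1 : k) :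
        Matrix (Fin 2) (Fin 2) k)
      * (SpecialLinearGroup.transvection (one_ne_zero : (1 : Fin 2) ≠ 0) (1 : k) :
        Matrix (Fin 2) (Fin 2) k))).trace ∈ R) :
    ∀ i j, y i j ∈ R := by
  have e2 : (y * (SpecialLinearGroup.transvection (zero_ne_one : (0 : Fin 2) ≠ 1) (1 : k) :
      Matrix (Fin 2) (Fin 2) k)).trace = y.trace + y 1 0 := by
    simp [SpecialLinearGroup.transvection_coe, Matrix.trace_fin_two, Matrix.mul_apply,
      Fin.sum_univ_two, Matrix.single_apply, Matrix.one_apply]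
    ring
  have e3 : (y * (SpecialLinearGroup.transvection (one_ne_zero : (1 : Fin 2) ≠ 0) (1 : k) :
      Matrix (Fin 2) (Fin 2) k)).trace = y.trace + y 0 1 := by
    simp [SpecialLinearGroup.transvection_coe, Matrix.trace_fin_two, Matrix.mul_apply,
      Fin.sum_univ_two, Matrix.single_apply, Matrix.one_apply]
    ring
  have e4 : (y * ((SpecialLinearGroup.transvection (zero_ne_one : (0 : Fin 2) ≠ 1) (1 : k) :
        Matrix (Fin 2) (Fin 2) k)
      * (SpecialLinearGroup.transvection (one_ne_zero : (1 : Fin 2) ≠ 0) (1 : k) :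
        Matrix (Fin 2) (Fin 2) k))).trace = y.trace + y 0 1 + y 1 0 + y 0 0 := by
    simp [SpecialLinearGroup.transvection_coe, Matrix.trace_fin_two, Matrix.mul_apply,
      Fin.sum_univ_two, Matrix.single_apply, Matrix.one_apply]
    ring
  have h10 : y 1 0 ∈ R := by
    have := R.sub_mem h2 h1
    rwa [e2, add_sub_cancel_left] at this
  have h01 : y 0 1 ∈ R := by
    have := R.sub_mem h3 h1
    rwa [e3, add_sub_cancel_left] at this
  have h00 : y 0 0 ∈ R := by
    have := R.sub_mem (R.sub_mem (R.sub_mem h4 h1) h01) h10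
    rw [e4] at this
    have e : y.trace + y 0 1 + y 1 0 + y 0 0 - y.trace - y 0 1 - y 1 0 = y 0 0 := by ring
    rwa [e] at this
  have h11 : y 1 1 ∈ R := by
    have := R.sub_mem h1 h00
    rw [Matrix.trace_fin_two] at this
    rwa [add_sub_cancel_left] at this
  intro i j
  fin_cases i <;> fin_cases j
  · exact h00
  · exact h01
  · exact h10
  · exact h11

/-- an invertible matrix with entries in the prime field comes from `GL₂(𝔽_ℓ)`. -/
theorem dsg_sl2_exists_map_eq (y : GL (Fin 2) k)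
    (h : ∀ i j, (y : Matrix (Fin 2) (Fin 2) k) i j ∈ (algebraMap (ZMod ℓ) k).range) :
    ∃ x : GL (Fin 2) (ZMod ℓ), Matrix.GeneralLinearGroup.map (algebraMap (ZMod ℓ) k) x = y := by
  choose z hz using h
  let Z : Matrix (Fin 2) (Fin 2) (ZMod ℓ) := Matrix.of z
  have hZ : Z.map (algebraMap (ZMod ℓ) k) = (y : Matrix (Fin 2) (Fin 2) k) := by
    ext i j
    exact hz i j
  have hdet : Z.det ≠ 0 := by
    intro h0
    have h1 : (y : Matrix (Fin 2) (Fin 2) k).det = 0 := by
      rw [← hZ]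
      have := RingHom.map_det (algebraMap (ZMod ℓ) k) Z
      rw [RingHom.mapMatrix_apply] at this
      rw [← this, h0, map_zero]
    exact (Matrix.GeneralLinearGroup.det y).ne_zero (by
      rw [Matrix.GeneralLinearGroup.val_det_apply]
      exact h1)
  refine ⟨Matrix.GeneralLinearGroup.mkOfDetNeZero Z hdet, ?_⟩
  apply Matrix.GeneralLinearGroup.ext
  intro i j
  rw [Matrix.GeneralLinearGroup.map_apply]
  exact hz i j

/-- **[G-SL2], descent form.**  Let `k` be a field of characteristic `ℓ` and `G ≤ GL₂(k)` a finite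
subgroup of order divisible by `ℓ`, stabilising no line, all of whose traces lie in `𝔽_ℓ`.  Then in
a suitable basis `SL₂(𝔽_ℓ) ≤ G ≤ GL₂(𝔽_ℓ)`. -/
theorem dsg_sl2_descent (G : Subgroup (GL (Fin 2) k)) [Finite G] (hdiv : ℓ ∣ Nat.card G)
    (hirr : ∀ v : Fin 2 → k, v ≠ 0 → ∃ g ∈ G,
      ¬ ∃ c : k, (g : Matrix (Fin 2) (Fin 2) k) *ᵥ v = c • v)
    (htr : ∀ g ∈ G, (g : Matrix (Fin 2) (Fin 2) k).trace ∈ (algebraMap (ZMod ℓ) k).range) :
    ∃ P : GL (Fin 2) k,
      (∀ s : SL(2, ZMod ℓ), P * Matrix.GeneralLinearGroup.map (algebraMap (ZMod ℓ) k)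
        (SpecialLinearGroup.toGL s) * P⁻¹ ∈ G) ∧
      ∀ g ∈ G, ∃ x : GL (Fin 2) (ZMod ℓ),
        P * Matrix.GeneralLinearGroup.map (algebraMap (ZMod ℓ) k) x * P⁻¹ = g := by
  obtain ⟨P, c, hc0, h1, h2⟩ := dsg_sl2_two_transvections (ℓ := ℓ) G hdiv hirr
  set ι := algebraMap (ZMod ℓ) k with hι
  -- `c` lies in the prime field
  obtain ⟨c₀, hc₀⟩ : c ∈ ι.range := by
    have h3 := htr _ (G.mul_mem h1 h2)
    have h4 : P * SpecialLinearGroup.toGL
          (SpecialLinearGroup.transvection (zero_ne_one : (0 : Fin 2) ≠ 1) (1 : k)) * P⁻¹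
        * (P * SpecialLinearGroup.toGL
          (SpecialLinearGroup.transvection (one_ne_zero : (1 : Fin 2) ≠ 0) c) * P⁻¹)
        = P * (SpecialLinearGroup.toGL
          (SpecialLinearGroup.transvection (zero_ne_one : (0 : Fin 2) ≠ 1) (1 : k))
          * SpecialLinearGroup.toGL
          (SpecialLinearGroup.transvection (one_ne_zero : (1 : Fin 2) ≠ 0) c)) * P⁻¹ := by
      group
    rw [h4, dsg_sl2_trace_conj] at h3
    have h5 : ((SpecialLinearGroup.toGL
          (SpecialLinearGroup.transvection (zero_ne_one : (0 : Fin 2) ≠ 1) (1 : k))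
          * SpecialLinearGroup.toGL
          (SpecialLinearGroup.transvection (one_ne_zero : (1 : Fin 2) ≠ 0) c) : GL (Fin 2) k) :
          Matrix (Fin 2) (Fin 2) k).trace = 2 + c := by
      rw [Matrix.GeneralLinearGroup.coe_mul]
      change ((SpecialLinearGroup.transvection (zero_ne_one : (0 : Fin 2) ≠ 1) (1 : k) :
          Matrix (Fin 2) (Fin 2) k)
        * (SpecialLinearGroup.transvection (one_ne_zero : (1 : Fin 2) ≠ 0) c :
          Matrix (Fin 2) (Fin 2) k)).trace = 2 + c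
      simp [SpecialLinearGroup.transvection_coe, Matrix.trace_fin_two, Matrix.mul_apply,
        Fin.sum_univ_two, Matrix.single_apply, Matrix.one_apply]
      ring
    rw [h5] at h3
    obtain ⟨z, hz⟩ := h3
    refine ⟨z - 2, ?_⟩
    rw [map_sub, hz, map_ofNat]
    ring
  have hc₀0 : c₀ ≠ 0 := by
    rintro rfl
    rw [map_zero] at hc₀
    exact hc0 hc₀.symm
  -- the subgroup of `GL₂(𝔽_ℓ)`
  let K : Subgroup (GL (Fin 2) (ZMod ℓ)) :=
    (G.comap (MulAut.conj P).toMonoidHom).comap (Matrix.GeneralLinearGroup.map ι)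
  have hK : ∀ x : GL (Fin 2) (ZMod ℓ), x ∈ K ↔
      P * Matrix.GeneralLinearGroup.map ι x * P⁻¹ ∈ G := fun x => Iff.rfl
  have hall : ∀ s : SL(2, ZMod ℓ), SpecialLinearGroup.toGL s ∈ K := by
    refine dsg_sl2_le_of_two K one_ne_zero hc₀0 ?_ ?_
    · rw [hK, hι, dsg_sl2_map_transvection, map_one]
      exact h1
    · rw [hK, hι, dsg_sl2_map_transvection, ← hι, hc₀]
      exact h2
  refine ⟨P, fun s => (hK _).1 (hall s), ?_⟩
  intro g hg
  -- the matrix of `g` in the new basis has entries in the prime field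
  have hy : ∀ s : SL(2, ZMod ℓ),
      (((P⁻¹ * g * P : GL (Fin 2) k) : Matrix (Fin 2) (Fin 2) k)
        * ((Matrix.GeneralLinearGroup.map ι (SpecialLinearGroup.toGL s) : GL (Fin 2) k) :
          Matrix (Fin 2) (Fin 2) k)).trace ∈ ι.range := by
    intro s
    have h3 := htr _ (G.mul_mem hg ((hK _).1 (hall s)))
    have h4 : g * (P * Matrix.GeneralLinearGroup.map ι (SpecialLinearGroup.toGL s) * P⁻¹)
        = P * (P⁻¹ * g * P * Matrix.GeneralLinearGroup.map ι (SpecialLinearGroup.toGL s)) * P⁻¹ := by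
      group
    rw [h4, dsg_sl2_trace_conj, Matrix.GeneralLinearGroup.coe_mul] at h3
    exact h3
  have hentries := dsg_sl2_entries_mem ι.range
    ((P⁻¹ * g * P : GL (Fin 2) k) : Matrix (Fin 2) (Fin 2) k)
    (by
      have := hy 1
      rw [map_one, map_one] at this
      simpa using this)
    (by
      have := hy (SpecialLinearGroup.transvection (zero_ne_one : (0 : Fin 2) ≠ 1) (1 : ZMod ℓ))
      rw [hι, dsg_sl2_map_transvection, map_one] at this
      exact this)
    (by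
      have := hy (SpecialLinearGroup.transvection (one_ne_zero : (1 : Fin 2) ≠ 0) (1 : ZMod ℓ))
      rw [hι, dsg_sl2_map_transvection, map_one] at this
      exact this)
    (by
      have := hy (SpecialLinearGroup.transvection (zero_ne_one : (0 : Fin 2) ≠ 1) (1 : ZMod ℓ)
        * SpecialLinearGroup.transvection (one_ne_zero : (1 : Fin 2) ≠ 0) (1 : ZMod ℓ))
      rw [map_mul, map_mul, hι, dsg_sl2_map_transvection, dsg_sl2_map_transvection, map_one,
        Matrix.GeneralLinearGroup.coe_mul] at this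
      exact this)
  obtain ⟨x, hx⟩ := dsg_sl2_exists_map_eq (ℓ := ℓ) (P⁻¹ * g * P) hentries
  refine ⟨x, ?_⟩
  rw [hx]
  group

end Descent

section Count

variable {F : Type*} [Field F] [Finite F]

/-- **[G-CNT]** at most `2 q²` elements of `GL₂(𝔽_q)` have a given trace and determinant. -/
theorem dsg_sl2_card_charpoly_le (t δ : F) :
    Nat.card {g : GL (Fin 2) F // (g : Matrix (Fin 2) (Fin 2) F).trace = t ∧
      (g : Matrix (Fin 2) (Fin 2) F).det = δ} ≤ 2 * Nat.card F ^ 2 := by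
  classical
  set S := {g : GL (Fin 2) F // (g : Matrix (Fin 2) (Fin 2) F).trace = t ∧
      (g : Matrix (Fin 2) (Fin 2) F).det = δ}
  let φ : S → (F × F) ⊕ (F × F) := fun g =>
    if (g.1 : Matrix (Fin 2) (Fin 2) F) 0 1 ≠ 0 then
      Sum.inl ((g.1 : Matrix (Fin 2) (Fin 2) F) 0 0, (g.1 : Matrix (Fin 2) (Fin 2) F) 0 1)
    else Sum.inr ((g.1 : Matrix (Fin 2) (Fin 2) F) 0 0, (g.1 : Matrix (Fin 2) (Fin 2) F) 1 0)
  have hφ : Function.Injective φ := by
    intro g g' hgg
    have htr : ∀ x : S, (x.1 : Matrix (Fin 2) (Fin 2) F) 1 1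
        = t - (x.1 : Matrix (Fin 2) (Fin 2) F) 0 0 := by
      intro x
      have := x.2.1
      rw [Matrix.trace_fin_two] at this
      exact eq_sub_of_add_eq' this
    have hdet : ∀ x : S, (x.1 : Matrix (Fin 2) (Fin 2) F) 0 0 * (x.1 : Matrix (Fin 2) (Fin 2) F) 1 1
        - (x.1 : Matrix (Fin 2) (Fin 2) F) 0 1 * (x.1 : Matrix (Fin 2) (Fin 2) F) 1 0 = δ := by
      intro x
      have := x.2.2
      rwa [Matrix.det_fin_two] at this
    apply Subtype.ext
    apply Matrix.GeneralLinearGroup.ext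
    by_cases hb : (g.1 : Matrix (Fin 2) (Fin 2) F) 0 1 ≠ 0
    · by_cases hb' : (g'.1 : Matrix (Fin 2) (Fin 2) F) 0 1 ≠ 0
      · simp only [φ, if_pos hb, if_pos hb', Sum.inl.injEq, Prod.mk.injEq] at hgg
        obtain ⟨h00, h01⟩ := hgg
        have h11 : (g.1 : Matrix (Fin 2) (Fin 2) F) 1 1 = (g'.1 : Matrix (Fin 2) (Fin 2) F) 1 1 := by
          rw [htr, htr, h00]
        have h10 : (g.1 : Matrix (Fin 2) (Fin 2) F) 1 0 = (g'.1 : Matrix (Fin 2) (Fin 2) F) 1 0 := by
          have h1 := hdet g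
          have h2 := hdet g'
          rw [← h00, ← h01, ← h11] at h2
          have h3 : (g.1 : Matrix (Fin 2) (Fin 2) F) 0 1 * ((g.1 : Matrix (Fin 2) (Fin 2) F) 1 0
              - (g'.1 : Matrix (Fin 2) (Fin 2) F) 1 0) = 0 := by
            linear_combination h2 - h1
          rcases mul_eq_zero.1 h3 with h4 | h4
          · exact absurd h4 hb
          · exact sub_eq_zero.1 h4
        intro i j
        fin_cases i <;> fin_cases j
        · exact h00
        · exact h01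
        · exact h10
        · exact h11
      · simp only [φ, if_pos hb, if_neg hb'] at hgg
        exact absurd hgg (by simp)
    · by_cases hb' : (g'.1 : Matrix (Fin 2) (Fin 2) F) 0 1 ≠ 0
      · simp only [φ, if_neg hb, if_pos hb'] at hgg
        exact absurd hgg (by simp)
      · simp only [φ, if_neg hb, if_neg hb', Sum.inr.injEq, Prod.mk.injEq] at hgg
        obtain ⟨h00, h10⟩ := hgg
        have h11 : (g.1 : Matrix (Fin 2) (Fin 2) F) 1 1 = (g'.1 : Matrix (Fin 2) (Fin 2) F) 1 1 := by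
          rw [htr, htr, h00]
        rw [not_not] at hb hb'
        intro i j
        fin_cases i <;> fin_cases j
        · exact h00
        · exact hb.trans hb'.symm
        · exact h10
        · exact h11
  calc Nat.card S ≤ Nat.card ((F × F) ⊕ (F × F)) := Nat.card_le_card_of_injective φ hφ
    _ = 2 * Nat.card F ^ 2 := by
      rw [Nat.card_sum, Nat.card_prod]
      ring

end Count

section Card

variable {F : Type*} [Field F] [Finite F]

/-- the big cell: `q² (q - 1) ≤ #SL₂(𝔽_q)`. -/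
theorem dsg_sl2_card_SL_ge : Nat.card F ^ 2 * (Nat.card F - 1) ≤ Nat.card SL(2, F) := by
  classical
  let ψ : (F × F) × Fˣ → SL(2, F) := fun p =>
    ⟨!![(p.2 : F), (p.2 : F) * p.1.1; p.1.2 * (p.2 : F), p.1.2 * (p.2 : F) * p.1.1 + ((p.2⁻¹ : Fˣ) : F)],
      by
        rw [Matrix.det_fin_two_of]
        have h : (p.2 : F) * ((p.2⁻¹ : Fˣ) : F) = 1 := by
          rw [← Units.val_mul, mul_inv_cancel, Units.val_one]
        linear_combination h⟩
  have hψ : Function.Injective ψ := by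
    rintro ⟨⟨x, y⟩, u⟩ ⟨⟨x', y'⟩, u'⟩ h
    have h00 := congrArg (fun s : SL(2, F) => (s : Matrix (Fin 2) (Fin 2) F) 0 0) h
    have h01 := congrArg (fun s : SL(2, F) => (s : Matrix (Fin 2) (Fin 2) F) 0 1) h
    have h10 := congrArg (fun s : SL(2, F) => (s : Matrix (Fin 2) (Fin 2) F) 1 0) h
    simp only [ψ, Matrix.of_apply, Matrix.cons_val', Matrix.cons_val_zero, Matrix.cons_val_one,
      Matrix.cons_val_fin_one] at h00 h01 h10
    have hu : u = u' := Units.ext h00
    subst hu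
    have hx : x = x' := mul_left_cancel₀ u.ne_zero h01
    have hy : y = y' := mul_right_cancel₀ u.ne_zero h10
    rw [hx, hy]
  have h1 := Nat.card_le_card_of_injective ψ hψ
  rw [Nat.card_prod, Nat.card_prod, Nat.card_units] at h1
  calc Nat.card F ^ 2 * (Nat.card F - 1) = Nat.card F * Nat.card F * (Nat.card F - 1) := by ring
    _ ≤ _ := h1

/-- `#GL₂(𝔽_q) ≤ q⁴`. -/
theorem dsg_sl2_card_GL_le : Nat.card (GL (Fin 2) F) ≤ Nat.card F ^ 4 := by
  classical
  haveI : Fintype F := Fintype.ofFinite F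
  rw [Matrix.card_GL_field, Fin.prod_univ_two, Nat.card_eq_fintype_card]
  simp only [Fin.val_zero, pow_zero, Fin.val_one, pow_one]
  calc (Fintype.card F ^ 2 - 1) * (Fintype.card F ^ 2 - Fintype.card F)
      ≤ Fintype.card F ^ 2 * Fintype.card F ^ 2 :=
        Nat.mul_le_mul (Nat.sub_le _ _) (Nat.sub_le _ _)
    _ = Fintype.card F ^ 4 := by ring

end Card

section Bound

variable {ℓ : ℕ} [Fact ℓ.Prime] {k : Type*} [Field k] [CharP k ℓ] [Algebra (ZMod ℓ) k]

theorem dsg_sl2_det_conj (P x : GL (Fin 2) k) :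
    ((P * x * P⁻¹ : GL (Fin 2) k) : Matrix (Fin 2) (Fin 2) k).det
      = (x : Matrix (Fin 2) (Fin 2) k).det := by
  rw [Matrix.GeneralLinearGroup.coe_mul, Matrix.GeneralLinearGroup.coe_mul, Matrix.det_mul,
    Matrix.det_mul, mul_comm, ← mul_assoc, ← Matrix.det_mul, ← Matrix.GeneralLinearGroup.coe_mul,
    inv_mul_cancel]
  simp

theorem dsg_sl2_trace_map (x : GL (Fin 2) (ZMod ℓ)) :
    ((Matrix.GeneralLinearGroup.map (algebraMap (ZMod ℓ) k) x : GL (Fin 2) k) :
        Matrix (Fin 2) (Fin 2) k).trace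
      = algebraMap (ZMod ℓ) k (x : Matrix (Fin 2) (Fin 2) (ZMod ℓ)).trace := by
  rw [Matrix.trace_fin_two, Matrix.trace_fin_two, Matrix.GeneralLinearGroup.map_apply,
    Matrix.GeneralLinearGroup.map_apply, map_add]

theorem dsg_sl2_det_map (x : GL (Fin 2) (ZMod ℓ)) :
    ((Matrix.GeneralLinearGroup.map (algebraMap (ZMod ℓ) k) x : GL (Fin 2) k) :
        Matrix (Fin 2) (Fin 2) k).det
      = algebraMap (ZMod ℓ) k (x : Matrix (Fin 2) (Fin 2) (ZMod ℓ)).det := by
  rw [Matrix.det_fin_two, Matrix.det_fin_two, Matrix.GeneralLinearGroup.map_apply,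
    Matrix.GeneralLinearGroup.map_apply, Matrix.GeneralLinearGroup.map_apply,
    Matrix.GeneralLinearGroup.map_apply, map_sub, map_mul, map_mul]

theorem dsg_sl2_map_injective :
    Function.Injective (Matrix.GeneralLinearGroup.map (n := Fin 2) (algebraMap (ZMod ℓ) k)) := by
  intro x y h
  apply Matrix.GeneralLinearGroup.ext
  intro i j
  have h1 := congrArg (fun z : GL (Fin 2) k => (z : Matrix (Fin 2) (Fin 2) k) i j) h
  simp only [Matrix.GeneralLinearGroup.map_apply] at h1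
  exact (algebraMap (ZMod ℓ) k).injective h1

/-- **[G-BOUND], case `ℓ ∣ |G|`** (Deligne–Serre, Prop. 7.2 (a)).  Let `G ≤ GL₂(k)`, `char k = ℓ`,
be finite of order divisible by `ℓ`, stabilising no line, with all traces in `𝔽_ℓ`.  If a subset
`H ⊆ G` with `|H| ≥ (1 - η)|G|` takes at most `M = |T|` values of `(trace, det)`, then
`|G| ≤ (1 + 2M/(1-η))⁴`. -/
theorem dsg_sl2_bound (G : Subgroup (GL (Fin 2) k)) [Finite G]
    (hirr : ∀ v : Fin 2 → k, v ≠ 0 → ∃ g ∈ G,
      ¬ ∃ c : k, (g : Matrix (Fin 2) (Fin 2) k) *ᵥ v = c • v)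
    (hl : ℓ ∣ Nat.card G)
    (htr : ∀ g ∈ G, (g : Matrix (Fin 2) (Fin 2) k).trace ∈ (algebraMap (ZMod ℓ) k).range)
    (H : Finset (GL (Fin 2) k)) (hHG : ∀ h ∈ H, h ∈ G) (η : ℝ) (hη : η < 1)
    (hH : (1 - η) * Nat.card G ≤ H.card)
    (T : Finset (k × k))
    (hT : ∀ h ∈ H, ((h : Matrix (Fin 2) (Fin 2) k).trace, (h : Matrix (Fin 2) (Fin 2) k).det) ∈ T) :
    (Nat.card G : ℝ) ≤ (1 + 2 * T.card / (1 - η)) ^ 4 := by
  classical
  obtain ⟨P, hSL, hdesc⟩ := dsg_sl2_descent (ℓ := ℓ) G hl hirr htr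
  set ι := algebraMap (ZMod ℓ) k with hι
  have hιinj : Function.Injective ι := (algebraMap (ZMod ℓ) k).injective
  choose! X hX using hdesc
  have hq : Nat.card (ZMod ℓ) = ℓ := Nat.card_zmod ℓ
  have htrX : ∀ g ∈ G, (g : Matrix (Fin 2) (Fin 2) k).trace
      = ι ((X g : Matrix (Fin 2) (Fin 2) (ZMod ℓ))).trace := by
    intro g hg
    conv_lhs => rw [← hX g hg]
    rw [dsg_sl2_trace_conj, dsg_sl2_trace_map]
  have hdetX : ∀ g ∈ G, (g : Matrix (Fin 2) (Fin 2) k).det
      = ι ((X g : Matrix (Fin 2) (Fin 2) (ZMod ℓ))).det := by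
    intro g hg
    conv_lhs => rw [← hX g hg]
    rw [dsg_sl2_det_conj, dsg_sl2_det_map]
  have hXinj : ∀ g ∈ G, ∀ g' ∈ G, X g = X g' → g = g' := by
    intro g hg g' hg' h
    rw [← hX g hg, ← hX g' hg', h]
  -- (a) a lower bound for `|G|`
  have hlow : ℓ ^ 2 * (ℓ - 1) ≤ Nat.card G := by
    have h1 : ℓ ^ 2 * (ℓ - 1) ≤ Nat.card SL(2, ZMod ℓ) := by
      have := dsg_sl2_card_SL_ge (F := ZMod ℓ)
      rwa [hq] at this
    refine h1.trans ?_
    refine Nat.card_le_card_of_injective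
      (fun s : SL(2, ZMod ℓ) => (⟨_, hSL s⟩ : G)) ?_
    intro s s' h
    have h2 := congrArg (Subtype.val : G → GL (Fin 2) k) h
    simp only at h2
    have h3 : Matrix.GeneralLinearGroup.map ι (SpecialLinearGroup.toGL s)
        = Matrix.GeneralLinearGroup.map ι (SpecialLinearGroup.toGL s') :=
      mul_left_cancel (mul_right_cancel h2)
    exact SpecialLinearGroup.toGL_injective (dsg_sl2_map_injective h3)
  -- (b) an upper bound for `|G|`
  have hupp : Nat.card G ≤ ℓ ^ 4 := by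
    have h1 : Nat.card (GL (Fin 2) (ZMod ℓ)) ≤ ℓ ^ 4 := by
      have := dsg_sl2_card_GL_le (F := ZMod ℓ)
      rwa [hq] at this
    refine le_trans ?_ h1
    refine Nat.card_le_card_of_injective (fun g : G => X g) ?_
    intro g g' h
    exact Subtype.ext (hXinj g g.2 g' g'.2 h)
  -- (c) an upper bound for `|H|`
  have hHcard : H.card ≤ 2 * ℓ ^ 2 * T.card := by
    refine Finset.card_le_mul_card_image_of_maps_to hT (2 * ℓ ^ 2) ?_
    rintro ⟨τ, δ⟩ -
    by_cases hne : (H.filter fun h : GL (Fin 2) k => ((h : Matrix (Fin 2) (Fin 2) k).trace,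
        (h : Matrix (Fin 2) (Fin 2) k).det) = (τ, δ)).Nonempty
    · obtain ⟨h₀, hh₀⟩ := hne
      rw [Finset.mem_filter] at hh₀
      obtain ⟨hh₀H, hh₀eq⟩ := hh₀
      rw [Prod.mk.injEq] at hh₀eq
      let S : Finset (GL (Fin 2) (ZMod ℓ)) := Finset.univ.filter fun x =>
        (x : Matrix (Fin 2) (Fin 2) (ZMod ℓ)).trace
            = (X h₀ : Matrix (Fin 2) (Fin 2) (ZMod ℓ)).trace ∧
          (x : Matrix (Fin 2) (Fin 2) (ZMod ℓ)).det
            = (X h₀ : Matrix (Fin 2) (Fin 2) (ZMod ℓ)).det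
      have hS : S.card ≤ 2 * ℓ ^ 2 := by
        have := dsg_sl2_card_charpoly_le (F := ZMod ℓ)
          (X h₀ : Matrix (Fin 2) (Fin 2) (ZMod ℓ)).trace
          (X h₀ : Matrix (Fin 2) (Fin 2) (ZMod ℓ)).det
        rw [hq, Nat.card_eq_fintype_card, Fintype.card_subtype] at this
        exact this
      refine le_trans (Finset.card_le_card_of_injOn X ?_ ?_) hS
      · intro h hh
        rw [Finset.mem_coe, Finset.mem_filter, Prod.mk.injEq] at hh
        rw [Finset.mem_coe, Finset.mem_filter]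
        refine ⟨Finset.mem_univ _, ?_, ?_⟩
        · apply hιinj
          rw [← htrX h (hHG h hh.1), ← htrX h₀ (hHG h₀ hh₀H), hh.2.1, hh₀eq.1]
        · apply hιinj
          rw [← hdetX h (hHG h hh.1), ← hdetX h₀ (hHG h₀ hh₀H), hh.2.2, hh₀eq.2]
      · intro h hh h' hh' heq
        rw [Finset.mem_coe, Finset.mem_filter] at hh hh'
        exact hXinj h (hHG h hh.1) h' (hHG h' hh'.1) heq
    · rw [Finset.not_nonempty_iff_eq_empty.1 hne, Finset.card_empty]
      exact Nat.zero_le _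
  -- (d) the arithmetic
  have hℓ2 : 2 ≤ ℓ := (Fact.out : ℓ.Prime).two_le
  have hc : 0 < 1 - η := by linarith
  have hL1 : (1 : ℝ) ≤ (ℓ : ℝ) := by exact_mod_cast (by omega : 1 ≤ ℓ)
  have hLpos : (0 : ℝ) < (ℓ : ℝ) ^ 2 := by positivity
  have hlowR : ((ℓ : ℝ)) ^ 2 * ((ℓ : ℝ) - 1) ≤ (Nat.card G : ℝ) := by
    have := (Nat.cast_le (α := ℝ)).2 hlow
    rwa [Nat.cast_mul, Nat.cast_pow, Nat.cast_sub (by omega : 1 ≤ ℓ), Nat.cast_one] at this
  have hHR : (H.card : ℝ) ≤ 2 * (ℓ : ℝ) ^ 2 * T.card := by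
    exact_mod_cast hHcard
  have h1 : (1 - η) * ((ℓ : ℝ) ^ 2 * ((ℓ : ℝ) - 1)) ≤ 2 * (ℓ : ℝ) ^ 2 * T.card :=
    le_trans (le_trans (mul_le_mul_of_nonneg_left hlowR hc.le) hH) hHR
  have h2 : (1 - η) * ((ℓ : ℝ) - 1) ≤ 2 * T.card := by
    have h3 : (ℓ : ℝ) ^ 2 * ((1 - η) * ((ℓ : ℝ) - 1)) ≤ (ℓ : ℝ) ^ 2 * (2 * T.card) := by
      calc (ℓ : ℝ) ^ 2 * ((1 - η) * ((ℓ : ℝ) - 1))
          = (1 - η) * ((ℓ : ℝ) ^ 2 * ((ℓ : ℝ) - 1)) := by ring
        _ ≤ 2 * (ℓ : ℝ) ^ 2 * T.card := h1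
        _ = (ℓ : ℝ) ^ 2 * (2 * T.card) := by ring
    exact le_of_mul_le_mul_left h3 hLpos
  have h3 : (ℓ : ℝ) ≤ 1 + 2 * T.card / (1 - η) := by
    have : (ℓ : ℝ) - 1 ≤ 2 * T.card / (1 - η) := by
      rw [le_div_iff₀ hc]
      linarith
    linarith
  calc (Nat.card G : ℝ) ≤ (ℓ : ℝ) ^ 4 := by exact_mod_cast hupp
    _ ≤ (1 + 2 * T.card / (1 - η)) ^ 4 := pow_le_pow_left₀ (by positivity) h3 4

/-- the same with characteristic polynomials. -/
theorem dsg_sl2_bound_charpoly (G : Subgroup (GL (Fin 2) k)) [Finite G]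
    (hirr : ∀ v : Fin 2 → k, v ≠ 0 → ∃ g ∈ G,
      ¬ ∃ c : k, (g : Matrix (Fin 2) (Fin 2) k) *ᵥ v = c • v)
    (hl : ℓ ∣ Nat.card G)
    (htr : ∀ g ∈ G, (g : Matrix (Fin 2) (Fin 2) k).trace ∈ (algebraMap (ZMod ℓ) k).range)
    (H : Finset (GL (Fin 2) k)) (hHG : ∀ h ∈ H, h ∈ G) (η : ℝ) (hη : η < 1)
    (hH : (1 - η) * Nat.card G ≤ H.card)
    (Tp : Finset (Polynomial k))
    (hTp : ∀ h ∈ H, (h : Matrix (Fin 2) (Fin 2) k).charpoly ∈ Tp) :
    (Nat.card G : ℝ) ≤ (1 + 2 * Tp.card / (1 - η)) ^ 4 := by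
  classical
  let T : Finset (k × k) := Tp.image fun p => (-p.coeff 1, p.coeff 0)
  have hT : ∀ h ∈ H, ((h : Matrix (Fin 2) (Fin 2) k).trace,
      (h : Matrix (Fin 2) (Fin 2) k).det) ∈ T := by
    intro h hh
    refine Finset.mem_image.2 ⟨_, hTp h hh, ?_⟩
    rw [Matrix.trace_eq_neg_charpoly_coeff, Matrix.det_eq_sign_charpoly_coeff]
    simp
  have h1 := dsg_sl2_bound (ℓ := ℓ) G hirr hl htr H hHG η hη hH T hT
  have hc : 0 < 1 - η := by linarith
  have h2 : (T.card : ℝ) ≤ Tp.card := by exact_mod_cast Finset.card_image_le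
  refine h1.trans (pow_le_pow_left₀ (by positivity) ?_ 4)
  have : 2 * (T.card : ℝ) / (1 - η) ≤ 2 * Tp.card / (1 - η) :=
    div_le_div_of_nonneg_right (by linarith) hc.le
  linarith

end Bound

end Fermat.Agent.DS
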