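import Mathlib
import Fermat.Agent.DS.Group.Klein
import Fermat.Agent.DS.Group.SL2

/-!
# DS-G / [G-BOUND], the case `ℓ ∤ |G|` (prefix `dsg_bk_`)

`k` algebraically closed, `G ≤ GL₂(k)` finite of order invertible in `k`.  If a subset `H ⊆ G` with
`|H| ≥ (1 - η)|G|`, `η < 1/2`, takes at most `M = |T|` values of `(trace, det)`, then
`|G| ≤ max (4M/(1-2η)) (120M/(1-η))` (Deligne–Serre, Prop. 7.2, cases (b), (c), (d)).
-/

set_option autoImplicit false
set_option linter.unusedSectionVars false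
set_option linter.style.haveILetI false

namespace Fermat.Agent.DS

open Matrix MulAction OnePoint

section Upper

variable {k : Type*} [Field k]

/-- two elements with the same diagonal of a finite group of upper triangular matrices, of order
prime to the characteristic, are equal. -/
theorem dsg_bk_eq_of_diag (S : Subgroup (GL (Fin 2) k)) [Finite S] (hS : (Nat.card S : k) ≠ 0)
    (hup : ∀ g ∈ S, g 1 0 = 0) {a b : GL (Fin 2) k} (ha : a ∈ S) (hb : b ∈ S)
    (h00 : a 0 0 = b 0 0) (h11 : a 1 1 = b 1 1) : a = b := by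
  set z : GL (Fin 2) k := a⁻¹ * b with hz
  have haz : a * z = b := by rw [hz]; group
  have hzS : z ∈ S := S.mul_mem (S.inv_mem ha) hb
  have hz10 : z 1 0 = 0 := hup z hzS
  have ha10 : a 1 0 = 0 := hup a ha
  have hadet : a 0 0 * a 1 1 ≠ 0 := by
    have := a.det_ne_zero
    rwa [Matrix.det_fin_two, ha10, mul_zero, sub_zero] at this
  have ha00ne : a 0 0 ≠ 0 := left_ne_zero_of_mul hadet
  have ha11ne : a 1 1 ≠ 0 := right_ne_zero_of_mul hadet
  have hz00 : z 0 0 = 1 := by
    have h1 : b 0 0 = a 0 0 * z 0 0 + a 0 1 * z 1 0 := by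
      rw [← haz, Matrix.GeneralLinearGroup.coe_mul, Matrix.mul_apply, Fin.sum_univ_two]
    rw [hz10, mul_zero, add_zero, ← h00] at h1
    exact mul_left_cancel₀ ha00ne (by rw [mul_one]; exact h1.symm)
  have hz11 : z 1 1 = 1 := by
    have h1 : b 1 1 = a 1 0 * z 0 1 + a 1 1 * z 1 1 := by
      rw [← haz, Matrix.GeneralLinearGroup.coe_mul, Matrix.mul_apply, Fin.sum_univ_two]
    rw [ha10, zero_mul, zero_add, ← h11] at h1
    exact mul_left_cancel₀ ha11ne (by rw [mul_one]; exact h1.symm)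
  have hzpow : z ^ Nat.card S = 1 := by
    have := pow_card_eq_one' (G := S) (x := ⟨z, hzS⟩)
    exact congrArg Subtype.val this
  have hz01 : z 0 1 = 0 :=
    dsg_kl_upper_diag_of_pow z hz10 (hz00.trans hz11.symm) (Nat.card S) hS hzpow
  have hz1 : z = 1 := by
    apply Matrix.GeneralLinearGroup.ext
    intro i j
    fin_cases i <;> fin_cases j
    · simpa using hz00
    · simpa using hz01
    · simpa using hz10
    · simpa using hz11
  rw [← haz, hz1, mul_one]

/-- in such a group at most two elements have a given trace and determinant. -/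
theorem dsg_bk_fiber_upper (S : Subgroup (GL (Fin 2) k)) [Finite S] (hS : (Nat.card S : k) ≠ 0)
    (hup : ∀ g ∈ S, g 1 0 = 0) {a b c : GL (Fin 2) k} (ha : a ∈ S) (hb : b ∈ S) (hc : c ∈ S)
    (htb : (a : Matrix (Fin 2) (Fin 2) k).trace = (b : Matrix (Fin 2) (Fin 2) k).trace)
    (htc : (a : Matrix (Fin 2) (Fin 2) k).trace = (c : Matrix (Fin 2) (Fin 2) k).trace)
    (hdb : (a : Matrix (Fin 2) (Fin 2) k).det = (b : Matrix (Fin 2) (Fin 2) k).det)
    (hdc : (a : Matrix (Fin 2) (Fin 2) k).det = (c : Matrix (Fin 2) (Fin 2) k).det) :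
    a = b ∨ a = c ∨ b = c := by
  have ha10 := hup a ha
  have hb10 := hup b hb
  have hc10 := hup c hc
  rw [Matrix.trace_fin_two, Matrix.trace_fin_two] at htb htc
  rw [Matrix.det_fin_two, Matrix.det_fin_two, ha10, mul_zero, sub_zero] at hdb hdc
  rw [hb10, mul_zero, sub_zero] at hdb
  rw [hc10, mul_zero, sub_zero] at hdc
  have hb' : (b 0 0 - a 0 0) * (b 0 0 - a 1 1) = 0 := by
    linear_combination (-(b 0 0 : k)) * htb + hdb
  have hc' : (c 0 0 - a 0 0) * (c 0 0 - a 1 1) = 0 := by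
    linear_combination (-(c 0 0 : k)) * htc + hdc
  rcases mul_eq_zero.1 hb' with h1 | h1
  · left
    have h00 : a 0 0 = b 0 0 := (sub_eq_zero.1 h1).symm
    exact dsg_bk_eq_of_diag S hS hup ha hb h00 (by linear_combination htb - h00)
  · rcases mul_eq_zero.1 hc' with h2 | h2
    · right; left
      have h00 : a 0 0 = c 0 0 := (sub_eq_zero.1 h2).symm
      exact dsg_bk_eq_of_diag S hS hup ha hc h00 (by linear_combination htc - h00)
    · right; right
      have h00 : b 0 0 = c 0 0 := (sub_eq_zero.1 h1).trans (sub_eq_zero.1 h2).symm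
      exact dsg_bk_eq_of_diag S hS hup hb hc h00 (by linear_combination htc - htb - h00)

end Upper

section Comm

variable {k : Type*} [Field k] [DecidableEq k] [IsAlgClosed k]

/-- a commutative finite subgroup of `GL₂(k)` of order prime to the characteristic is conjugate to
a group of upper triangular matrices. -/
theorem dsg_bk_exists_conj_upper (Hc : Subgroup (GL (Fin 2) k)) [Finite Hc]
    (hHc : (Nat.card Hc : k) ≠ 0) (hcomm : ∀ a ∈ Hc, ∀ b ∈ Hc, a * b = b * a) :
    ∃ γ : GL (Fin 2) k, ∀ g ∈ Hc, (γ * g * γ⁻¹ : GL (Fin 2) k) 1 0 = 0 := by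
  by_cases hall : ∀ g ∈ Hc, g ∈ Subgroup.center (GL (Fin 2) k)
  · refine ⟨1, fun g hg => ?_⟩
    rw [one_mul, inv_one, mul_one]
    exact ((dsg_kl_mem_center_iff g).1 (hall g hg)).1
  · push Not at hall
    obtain ⟨a, haH, hac⟩ := hall
    obtain ⟨x, hx⟩ := dsg_kl_exists_fixed a
    obtain ⟨γ, hγ⟩ := dsg_kl_exists_smul_eq_infty x
    refine ⟨γ, ?_⟩
    set a' : GL (Fin 2) k := γ * a * γ⁻¹ with ha'
    have hfix : a' • (∞ : OnePoint k) = ∞ := by
      rw [ha', mul_smul, mul_smul, ← hγ, inv_smul_smul, hx]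
    have h10 : a' 1 0 = 0 := smul_infty_eq_self_iff.1 hfix
    have hncen : a' ∉ Subgroup.center (GL (Fin 2) k) := by
      intro hc
      apply hac
      have h1 : γ * a' = a' * γ := Subgroup.mem_center_iff.1 hc γ
      have : a = a' := by
        have h2 : a = γ⁻¹ * a' * γ := by rw [ha']; group
        rw [h2, mul_assoc, ← h1, inv_mul_cancel_left]
      rw [this]
      exact hc
    have hpow : a' ^ Nat.card Hc = 1 := by
      have h1 : a ^ Nat.card Hc = 1 := by
        have := pow_card_eq_one' (G := Hc) (x := ⟨a, haH⟩)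
        exact congrArg Subtype.val this
      rw [ha', conj_pow, h1, mul_one, mul_inv_cancel]
    have hd : a' 0 0 ≠ a' 1 1 := by
      intro hd
      apply hncen
      rw [dsg_kl_mem_center_iff]
      exact ⟨h10, dsg_kl_upper_diag_of_pow a' h10 hd (Nat.card Hc) hHc hpow, hd⟩
    intro g hg
    set g' : GL (Fin 2) k := γ * g * γ⁻¹ with hg'
    have hcm : a' * g' = g' * a' := by
      rw [ha', hg']
      have := hcomm a haH g hg
      calc γ * a * γ⁻¹ * (γ * g * γ⁻¹) = γ * (a * g) * γ⁻¹ := by group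
        _ = γ * (g * a) * γ⁻¹ := by rw [this]
        _ = γ * g * γ⁻¹ * (γ * a * γ⁻¹) := by group
    have h1 := congrArg (fun u : GL (Fin 2) k => (u : Matrix (Fin 2) (Fin 2) k) 1 0) hcm
    simp only [Matrix.GeneralLinearGroup.coe_mul, Matrix.mul_apply, Fin.sum_univ_two] at h1
    rw [h10, zero_mul, zero_add, mul_zero, add_zero] at h1
    have h2 : g' 1 0 * (a' 1 1 - a' 0 0) = 0 := by linear_combination h1
    rcases mul_eq_zero.1 h2 with h3 | h3
    · exact h3
    · exact absurd (sub_eq_zero.1 h3).symm hd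

/-- in a commutative finite subgroup of `GL₂(k)` of order prime to the characteristic at most two
elements have a given trace and determinant. -/
theorem dsg_bk_fiber_comm (Hc : Subgroup (GL (Fin 2) k)) [Finite Hc]
    (hHc : (Nat.card Hc : k) ≠ 0) (hcomm : ∀ a ∈ Hc, ∀ b ∈ Hc, a * b = b * a)
    {a b c : GL (Fin 2) k} (ha : a ∈ Hc) (hb : b ∈ Hc) (hc : c ∈ Hc)
    (htb : (a : Matrix (Fin 2) (Fin 2) k).trace = (b : Matrix (Fin 2) (Fin 2) k).trace)
    (htc : (a : Matrix (Fin 2) (Fin 2) k).trace = (c : Matrix (Fin 2) (Fin 2) k).trace)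
    (hdb : (a : Matrix (Fin 2) (Fin 2) k).det = (b : Matrix (Fin 2) (Fin 2) k).det)
    (hdc : (a : Matrix (Fin 2) (Fin 2) k).det = (c : Matrix (Fin 2) (Fin 2) k).det) :
    a = b ∨ a = c ∨ b = c := by
  obtain ⟨γ, hγ⟩ := dsg_bk_exists_conj_upper Hc hHc hcomm
  let cj : GL (Fin 2) k →* GL (Fin 2) k := (MulAut.conj γ).toMonoidHom
  have hcinj : Function.Injective cj := (MulAut.conj γ).injective
  have hcapp : ∀ u, cj u = γ * u * γ⁻¹ := fun u => rfl
  let S : Subgroup (GL (Fin 2) k) := Hc.map cj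
  haveI : Finite S := Finite.of_equiv Hc (Hc.equivMapOfInjective cj hcinj).toEquiv
  have hcard : Nat.card S = Nat.card Hc :=
    (Nat.card_congr (Hc.equivMapOfInjective cj hcinj).toEquiv).symm
  have hup : ∀ g ∈ S, g 1 0 = 0 := by
    rintro _ ⟨g, hg, rfl⟩
    exact hγ g hg
  have h := dsg_bk_fiber_upper S (by rw [hcard]; exact hHc) hup
    (Subgroup.mem_map_of_mem cj ha) (Subgroup.mem_map_of_mem cj hb) (Subgroup.mem_map_of_mem cj hc)
    (by rw [hcapp, hcapp, dsg_sl2_trace_conj, dsg_sl2_trace_conj]; exact htb)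
    (by rw [hcapp, hcapp, dsg_sl2_trace_conj, dsg_sl2_trace_conj]; exact htc)
    (by rw [hcapp, hcapp, dsg_sl2_det_conj, dsg_sl2_det_conj]; exact hdb)
    (by rw [hcapp, hcapp, dsg_sl2_det_conj, dsg_sl2_det_conj]; exact hdc)
  rcases h with h | h | h
  · exact Or.inl (hcinj h)
  · exact Or.inr (Or.inl (hcinj h))
  · exact Or.inr (Or.inr (hcinj h))

end Comm

section CaseA

variable {k : Type*} [Field k] [DecidableEq k] [IsAlgClosed k]

/-- **Case (b)/(c)**: `G` has a commutative subgroup of index at most `2`. -/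
theorem dsg_bk_bound_comm (G : Subgroup (GL (Fin 2) k)) [Finite G] (hG : (Nat.card G : k) ≠ 0)
    (Hc : Subgroup (GL (Fin 2) k)) (hle : Hc ≤ G) (hcomm : ∀ a ∈ Hc, ∀ b ∈ Hc, a * b = b * a)
    (hidx : Nat.card G ≤ 2 * Nat.card Hc)
    (H : Finset (GL (Fin 2) k)) (hHG : ∀ h ∈ H, h ∈ G) (η : ℝ)
    (hH : (1 - η) * Nat.card G ≤ H.card) (T : Finset (k × k))
    (hT : ∀ h ∈ H, ((h : Matrix (Fin 2) (Fin 2) k).trace, (h : Matrix (Fin 2) (Fin 2) k).det) ∈ T) :
    (1 / 2 - η) * Nat.card G ≤ 2 * T.card := by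
  classical
  haveI : Finite Hc := Finite.of_injective (Subgroup.inclusion hle) (Subgroup.inclusion_injective hle)
  have hHc : (Nat.card Hc : k) ≠ 0 := by
    intro h0
    obtain ⟨q, hq⟩ := Subgroup.card_dvd_of_le hle
    apply hG
    rw [hq, Nat.cast_mul, h0, zero_mul]
  -- the part of `H` inside `Hc`
  set H' : Finset (GL (Fin 2) k) := H.filter (fun h => h ∈ Hc) with hH'
  have hH'card : H'.card ≤ 2 * T.card := by
    refine Finset.card_le_mul_card_image_of_maps_to
      (f := fun h : GL (Fin 2) k => ((h : Matrix (Fin 2) (Fin 2) k).trace,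
        (h : Matrix (Fin 2) (Fin 2) k).det))
      (fun h hh => hT h (Finset.mem_filter.1 hh).1) 2 ?_
    intro τδ _
    by_contra hcon
    rw [not_le, Finset.two_lt_card] at hcon
    obtain ⟨a, ha, b, hb, c, hc, hab, hac, hbc⟩ := hcon
    simp only [Finset.mem_filter] at ha hb hc
    have hab' := ha.2.trans hb.2.symm
    have hac' := ha.2.trans hc.2.symm
    rw [Prod.mk.injEq] at hab' hac'
    rcases dsg_bk_fiber_comm Hc hHc hcomm ha.1.2 hb.1.2 hc.1.2 hab'.1 hac'.1 hab'.2 hac'.2
      with h | h | h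
    · exact hab h
    · exact hac h
    · exact hbc h
  -- the part of `H` outside `Hc`
  have hout : (H.filter (fun h => h ∉ Hc)).card ≤ Nat.card G - Nat.card Hc := by
    have hGfin : (G : Set (GL (Fin 2) k)).Finite := Set.toFinite _
    have h1 : ((H.filter (fun h => h ∉ Hc) : Finset (GL (Fin 2) k)) : Set (GL (Fin 2) k))
        ⊆ (G : Set (GL (Fin 2) k)) \ (Hc : Set (GL (Fin 2) k)) := by
      intro h hh
      rw [Finset.mem_coe, Finset.mem_filter] at hh
      exact ⟨hHG h hh.1, hh.2⟩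
    have h2 := Set.ncard_le_ncard h1 (hGfin.subset Set.sdiff_subset)
    rw [Set.ncard_coe_finset, Set.ncard_sdiff (fun x hx => hle hx) (hGfin.subset (fun x hx => hle hx))]
      at h2
    rw [← Nat.card_coe_set_eq, ← Nat.card_coe_set_eq] at h2
    exact h2
  have hsplit : H.card = H'.card + (H.filter (fun h => h ∉ Hc)).card := by
    rw [hH']
    exact (Finset.card_filter_add_card_filter_not (fun h => h ∈ Hc)).symm
  have hHcle : Nat.card Hc ≤ Nat.card G := Nat.le_of_dvd Nat.card_pos (Subgroup.card_dvd_of_le hle)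
  have h1 : (H.card : ℝ) ≤ 2 * T.card + ((Nat.card G : ℝ) - Nat.card Hc) := by
    have : H.card ≤ 2 * T.card + (Nat.card G - Nat.card Hc) := by omega
    have h2 := (Nat.cast_le (α := ℝ)).2 this
    rw [Nat.cast_add, Nat.cast_mul, Nat.cast_sub hHcle] at h2
    exact_mod_cast h2
  have h2 : (Nat.card G : ℝ) ≤ 2 * Nat.card Hc := by exact_mod_cast hidx
  linarith

end CaseA

section CaseB

variable {k : Type*} [Field k] [DecidableEq k]

/-- multiplying by a central element multiplies the determinant by the square of the scalar. -/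
theorem dsg_bk_det_mul_central (a z : GL (Fin 2) k) (hz : z ∈ Subgroup.center (GL (Fin 2) k)) :
    ((a * z : GL (Fin 2) k) : Matrix (Fin 2) (Fin 2) k).det
      = (z 0 0) ^ 2 * (a : Matrix (Fin 2) (Fin 2) k).det := by
  obtain ⟨h10, h01, hd⟩ := (dsg_kl_mem_center_iff z).1 hz
  rw [Matrix.GeneralLinearGroup.coe_mul, Matrix.det_mul, Matrix.det_fin_two (z : Matrix _ _ k), h10,
    h01, ← hd]
  ring

/-- a central element is determined by its upper left entry. -/
theorem dsg_bk_central_ext (z z' : GL (Fin 2) k) (hz : z ∈ Subgroup.center (GL (Fin 2) k))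
    (hz' : z' ∈ Subgroup.center (GL (Fin 2) k)) (h : z 0 0 = z' 0 0) : z = z' := by
  obtain ⟨h10, h01, hd⟩ := (dsg_kl_mem_center_iff z).1 hz
  obtain ⟨h10', h01', hd'⟩ := (dsg_kl_mem_center_iff z').1 hz'
  apply Matrix.GeneralLinearGroup.ext
  intro i j
  fin_cases i <;> fin_cases j
  · exact h
  · exact h01.trans h01'.symm
  · exact h10.trans h10'.symm
  · show z 1 1 = z' 1 1
    rw [← hd, ← hd', h]

/-- in a coset of the scalars at most two elements have a given determinant. -/
theorem dsg_bk_fiber_coset (a b c : GL (Fin 2) k)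
    (hb : a⁻¹ * b ∈ Subgroup.center (GL (Fin 2) k))
    (hc : a⁻¹ * c ∈ Subgroup.center (GL (Fin 2) k))
    (hdb : (a : Matrix (Fin 2) (Fin 2) k).det = (b : Matrix (Fin 2) (Fin 2) k).det)
    (hdc : (a : Matrix (Fin 2) (Fin 2) k).det = (c : Matrix (Fin 2) (Fin 2) k).det) :
    a = b ∨ a = c ∨ b = c := by
  set z := a⁻¹ * b with hz
  set z' := a⁻¹ * c with hz'
  have hb' : b = a * z := by rw [hz]; group
  have hc' : c = a * z' := by rw [hz']; group
  have hdet : (a : Matrix (Fin 2) (Fin 2) k).det ≠ 0 := a.det_ne_zero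
  have h1 : (z 0 0) ^ 2 = 1 := by
    have := dsg_bk_det_mul_central a z hb
    rw [← hb', ← hdb] at this
    exact mul_right_cancel₀ hdet (by rw [one_mul]; exact this.symm)
  have h2 : (z' 0 0) ^ 2 = 1 := by
    have := dsg_bk_det_mul_central a z' hc
    rw [← hc', ← hdc] at this
    exact mul_right_cancel₀ hdet (by rw [one_mul]; exact this.symm)
  have hone : ∀ w : GL (Fin 2) k, w ∈ Subgroup.center (GL (Fin 2) k) → w 0 0 = 1 → w = 1 := by
    intro w hw h
    exact dsg_bk_central_ext w 1 hw (Subgroup.one_mem _) (by rw [h]; simp)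
  rcases sq_eq_one_iff.1 h1 with h3 | h3
  · left
    rw [hb', hone z hb h3, mul_one]
  · rcases sq_eq_one_iff.1 h2 with h4 | h4
    · right; left
      rw [hc', hone z' hc h4, mul_one]
    · right; right
      rw [hb', hc', dsg_bk_central_ext z z' hb hc (h3.trans h4.symm)]

/-- **Case (d)**: the image of `G` in `PGL₂(k)` has order at most `60`. -/
theorem dsg_bk_bound_sixty (G : Subgroup (GL (Fin 2) k)) [Finite G]
    (h60 : Nat.card G ≤ 60 * Nat.card ↥(G ⊓ Subgroup.center (GL (Fin 2) k)))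
    (H : Finset (GL (Fin 2) k)) (hHG : ∀ h ∈ H, h ∈ G) (T : Finset (k × k))
    (hT : ∀ h ∈ H, ((h : Matrix (Fin 2) (Fin 2) k).trace, (h : Matrix (Fin 2) (Fin 2) k).det) ∈ T) :
    H.card ≤ 120 * T.card := by
  classical
  let Z : Subgroup G := (Subgroup.center (GL (Fin 2) k)).subgroupOf G
  have hZ : ∀ g : G, g ∈ Z ↔ (g : GL (Fin 2) k) ∈ Subgroup.center (GL (Fin 2) k) :=
    fun g => Subgroup.mem_subgroupOf
  have hcardZ : Nat.card Z = Nat.card ↥(G ⊓ Subgroup.center (GL (Fin 2) k)) := by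
    have h4 : Z = (G ⊓ Subgroup.center (GL (Fin 2) k)).subgroupOf G :=
      (Subgroup.inf_subgroupOf_left _ _).symm
    rw [h4]
    exact Nat.card_congr (Subgroup.subgroupOfEquivOfLe inf_le_left).toEquiv
  haveI : Fintype (G ⧸ Z) := Fintype.ofFinite _
  have hidx : Fintype.card (G ⧸ Z) ≤ 60 := by
    rw [← Nat.card_eq_fintype_card, ← Subgroup.index_eq_card]
    have h1 := Subgroup.card_mul_index Z
    rw [← hcardZ, ← h1] at h60
    have hpos : 0 < Nat.card Z := Nat.card_pos
    exact Nat.le_of_mul_le_mul_left (by rw [mul_comm _ 60]; exact h60) hpos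
  let f : GL (Fin 2) k → (G ⧸ Z) × (k × k) := fun h =>
    (if hh : h ∈ G then (QuotientGroup.mk (⟨h, hh⟩ : G) : G ⧸ Z) else 1,
      ((h : Matrix (Fin 2) (Fin 2) k).trace, (h : Matrix (Fin 2) (Fin 2) k).det))
  have hmaps : ∀ h ∈ H, f h ∈ (Finset.univ : Finset (G ⧸ Z)) ×ˢ T := by
    intro h hh
    exact Finset.mem_product.2 ⟨Finset.mem_univ _, hT h hh⟩
  have hcard := Finset.card_le_mul_card_image_of_maps_to hmaps 2 (by
    intro qτ _
    by_contra hcon
    rw [not_le, Finset.two_lt_card] at hcon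
    obtain ⟨a, ha, b, hb, c, hc, hab, hac, hbc⟩ := hcon
    simp only [Finset.mem_filter] at ha hb hc
    have hab' := ha.2.trans hb.2.symm
    have hac' := ha.2.trans hc.2.symm
    simp only [f, dif_pos (hHG a ha.1), dif_pos (hHG b hb.1), dif_pos (hHG c hc.1),
      Prod.mk.injEq] at hab' hac'
    have hb2 : a⁻¹ * b ∈ Subgroup.center (GL (Fin 2) k) := by
      have := QuotientGroup.eq.1 hab'.1
      exact (hZ _).1 this
    have hc2 : a⁻¹ * c ∈ Subgroup.center (GL (Fin 2) k) := by
      have := QuotientGroup.eq.1 hac'.1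
      exact (hZ _).1 this
    rcases dsg_bk_fiber_coset a b c hb2 hc2 hab'.2.2 hac'.2.2 with h | h | h
    · exact hab h
    · exact hac h
    · exact hbc h)
  rw [Finset.card_product, Finset.card_univ] at hcard
  calc H.card ≤ 2 * (Fintype.card (G ⧸ Z) * T.card) := hcard
    _ ≤ 2 * (60 * T.card) := by
      exact Nat.mul_le_mul_left 2 (Nat.mul_le_mul_right _ hidx)
    _ = 120 * T.card := by ring

end CaseB

section Final

variable {k : Type*} [Field k] [DecidableEq k] [IsAlgClosed k]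

/-- **[G-BOUND], case `char k ∤ |G|`** (Deligne–Serre, Prop. 7.2 (b)–(d)). -/
theorem dsg_bk_bound (G : Subgroup (GL (Fin 2) k)) [Finite G] (hG : (Nat.card G : k) ≠ 0)
    (H : Finset (GL (Fin 2) k)) (hHG : ∀ h ∈ H, h ∈ G) (η : ℝ) (hη : η < 1 / 2)
    (hH : (1 - η) * Nat.card G ≤ H.card) (T : Finset (k × k))
    (hT : ∀ h ∈ H, ((h : Matrix (Fin 2) (Fin 2) k).trace, (h : Matrix (Fin 2) (Fin 2) k).det) ∈ T) :
    (Nat.card G : ℝ) ≤ max (4 * T.card / (1 - 2 * η)) (120 * T.card / (1 - η)) := by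
  rcases dsg_kl_main G hG with ⟨Hc, hle, hcomm, hidx⟩ | h60
  · refine le_trans ?_ (le_max_left _ _)
    have h1 := dsg_bk_bound_comm G hG Hc hle hcomm hidx H hHG η hH T hT
    have hpos : 0 < 1 - 2 * η := by linarith
    rw [le_div_iff₀ hpos]
    linarith
  · refine le_trans ?_ (le_max_right _ _)
    have h1 := dsg_bk_bound_sixty G h60 H hHG T hT
    have h2 : (H.card : ℝ) ≤ 120 * T.card := by exact_mod_cast h1
    have hpos : 0 < 1 - η := by linarith
    rw [le_div_iff₀ hpos]
    linarith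

end Final

end Fermat.Agent.DS
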