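import Mathlib
import Fermat.Agent.DS.Group.SL2

/-!
# DS-G, [G-TV]: the case `ℓ ∣ |G|` of the group-theoretic bound, without any rationality hypothesis
(prefix `dsg_tv_`)

Let `k` be a field of characteristic `ℓ` and `G ≤ GL₂(k)` a finite subgroup of order divisible by
`ℓ` which stabilises no line.  If `H ⊆ G` and the pairs `(trace, det)` of the elements of `H` lie in a
finite set `T`, then `ℓ · |H| ≤ (|T| + 1) · |G|`.

Proof: after conjugation `G` contains `u = E₁₂(1)` and `u' = E₂₁(c)`, `c ≠ 0`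
(`dsg_sl2_two_transvections`).  Let `B` be the set of upper triangular elements of `G`.
* `(m, b) ↦ u' ^ m * b` is injective on `{0, …, ℓ-1} × B`, so `ℓ |B| ≤ |G|`;
* for `g ∉ B` the `ℓ` elements `g * u ^ m` have the same determinant, the same lower left entry
  `g₁₀ ≠ 0` and the pairwise distinct traces `tr g + m g₁₀`; so `(m, h) ↦ ((tr h, det h), h * u ^ m)`
  is injective on `{0, …, ℓ-1} × (H ∖ B)`, whence `ℓ |H ∖ B| ≤ |T| |G|`.
-/

set_option autoImplicit false
set_option linter.style.haveILetI false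
set_option linter.unusedSectionVars false

namespace Fermat.Agent.DS

open Matrix

open scoped MatrixGroups

section Core

variable {ℓ : ℕ} [Fact ℓ.Prime] {k : Type*} [Field k] [CharP k ℓ]

/-- the matrix of `E₁₂(t)`. -/
theorem dsg_tv_E12 (t : k) :
    ((SpecialLinearGroup.toGL (SpecialLinearGroup.transvection
      (zero_ne_one : (0 : Fin 2) ≠ 1) t) : GL (Fin 2) k) : Matrix (Fin 2) (Fin 2) k)
      = !![1, t; 0, 1] := by
  change Matrix.transvection (0 : Fin 2) 1 t = _
  ext i j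
  fin_cases i <;> fin_cases j <;> simp [Matrix.transvection, Matrix.single]

/-- the matrix of `E₂₁(t)`. -/
theorem dsg_tv_E21 (t : k) :
    ((SpecialLinearGroup.toGL (SpecialLinearGroup.transvection
      (one_ne_zero : (1 : Fin 2) ≠ 0) t) : GL (Fin 2) k) : Matrix (Fin 2) (Fin 2) k)
      = !![1, 0; t, 1] := by
  change Matrix.transvection (1 : Fin 2) 0 t = _
  ext i j
  fin_cases i <;> fin_cases j <;> simp [Matrix.transvection, Matrix.single]

theorem dsg_tv_E12_pow (m : ℕ) :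
    (((SpecialLinearGroup.toGL (SpecialLinearGroup.transvection
      (zero_ne_one : (0 : Fin 2) ≠ 1) (1 : k)) : GL (Fin 2) k) ^ m : GL (Fin 2) k) :
        Matrix (Fin 2) (Fin 2) k) = !![1, (m : k); 0, 1] := by
  rw [← map_pow, dsg_sl2_transvection_pow, dsg_tv_E12, mul_one]

theorem dsg_tv_E21_pow (c : k) (m : ℕ) :
    (((SpecialLinearGroup.toGL (SpecialLinearGroup.transvection
      (one_ne_zero : (1 : Fin 2) ≠ 0) c) : GL (Fin 2) k) ^ m : GL (Fin 2) k) :
        Matrix (Fin 2) (Fin 2) k) = !![1, 0; (m : k) * c, 1] := by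
  rw [← map_pow, dsg_sl2_transvection_pow, dsg_tv_E21]

/-- natural numbers below `ℓ` are distinct in `k`. -/
theorem dsg_tv_cast_inj {m m' : ℕ} (hm : m < ℓ) (hm' : m' < ℓ) (h : (m : k) = (m' : k)) :
    m = m' := by
  have h1 := (CharP.natCast_eq_natCast k ℓ).1 h
  exact Nat.ModEq.eq_of_lt_of_lt h1 hm hm'

/-- **core of [G-TV]**: `G` contains `E₁₂(1)` and `E₂₁(c)`, `c ≠ 0`. -/
theorem dsg_tv_core (G : Subgroup (GL (Fin 2) k)) [Finite G] (c : k) (hc : c ≠ 0)
    (hu : (SpecialLinearGroup.toGL (SpecialLinearGroup.transvection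
      (zero_ne_one : (0 : Fin 2) ≠ 1) (1 : k)) : GL (Fin 2) k) ∈ G)
    (hu' : (SpecialLinearGroup.toGL (SpecialLinearGroup.transvection
      (one_ne_zero : (1 : Fin 2) ≠ 0) c) : GL (Fin 2) k) ∈ G)
    (H : Finset (GL (Fin 2) k)) (hHG : ∀ h ∈ H, h ∈ G) (T : Finset (k × k))
    (hT : ∀ h ∈ H, ((h : Matrix (Fin 2) (Fin 2) k).trace,
      (h : Matrix (Fin 2) (Fin 2) k).det) ∈ T) :
    ℓ * H.card ≤ (T.card + 1) * Nat.card G := by
  classical
  haveI : Fintype G := Fintype.ofFinite G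
  set u : GL (Fin 2) k := SpecialLinearGroup.toGL (SpecialLinearGroup.transvection
      (zero_ne_one : (0 : Fin 2) ≠ 1) (1 : k)) with hu_def
  set u' : GL (Fin 2) k := SpecialLinearGroup.toGL (SpecialLinearGroup.transvection
      (one_ne_zero : (1 : Fin 2) ≠ 0) c) with hu'_def
  set Gs : Finset (GL (Fin 2) k) := Finset.univ.image (Subtype.val : G → GL (Fin 2) k) with hGs
  have hGs_card : Gs.card = Nat.card G := by
    rw [hGs, Finset.card_image_of_injective _ Subtype.val_injective, Finset.card_univ,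
      Nat.card_eq_fintype_card]
  have hGs_mem : ∀ g, g ∈ Gs ↔ g ∈ G := by
    intro g
    simp [hGs]
  set B : Finset (GL (Fin 2) k) :=
    Gs.filter (fun g => (g : Matrix (Fin 2) (Fin 2) k) 1 0 = 0) with hB
  -- the entries of the products with powers of the transvections
  have hmulL : ∀ (m : ℕ) (b : GL (Fin 2) k),
      ((u' ^ m * b : GL (Fin 2) k) : Matrix (Fin 2) (Fin 2) k)
        = !![(b : Matrix (Fin 2) (Fin 2) k) 0 0, (b : Matrix (Fin 2) (Fin 2) k) 0 1;
            (m : k) * c * (b : Matrix (Fin 2) (Fin 2) k) 0 0 + (b : Matrix (Fin 2) (Fin 2) k) 1 0,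
            (m : k) * c * (b : Matrix (Fin 2) (Fin 2) k) 0 1
              + (b : Matrix (Fin 2) (Fin 2) k) 1 1] := by
    intro m b
    rw [Units.val_mul, hu'_def, dsg_tv_E21_pow]
    ext i j
    fin_cases i <;> fin_cases j <;> simp [Matrix.mul_apply, Fin.sum_univ_two]
  have hmulR : ∀ (m : ℕ) (h : GL (Fin 2) k),
      ((h * u ^ m : GL (Fin 2) k) : Matrix (Fin 2) (Fin 2) k)
        = !![(h : Matrix (Fin 2) (Fin 2) k) 0 0,
              (m : k) * (h : Matrix (Fin 2) (Fin 2) k) 0 0 + (h : Matrix (Fin 2) (Fin 2) k) 0 1;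
            (h : Matrix (Fin 2) (Fin 2) k) 1 0,
              (m : k) * (h : Matrix (Fin 2) (Fin 2) k) 1 0
                + (h : Matrix (Fin 2) (Fin 2) k) 1 1] := by
    intro m h
    rw [Units.val_mul, hu_def, dsg_tv_E12_pow]
    ext i j
    fin_cases i <;> fin_cases j <;> simp [Matrix.mul_apply, Fin.sum_univ_two, mul_comm]
  -- (1) `ℓ |B| ≤ |G|`
  have h1 : ℓ * B.card ≤ Gs.card := by
    have hinj : Set.InjOn (fun p : ℕ × GL (Fin 2) k => u' ^ p.1 * p.2)
        ((Finset.range ℓ ×ˢ B : Finset (ℕ × GL (Fin 2) k)) : Set (ℕ × GL (Fin 2) k)) := by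
      rintro ⟨m, b⟩ hmb ⟨m', b'⟩ hmb' heq
      simp only [Finset.coe_product, Set.mem_prod, Finset.mem_coe, Finset.mem_range] at hmb hmb'
      obtain ⟨hm, hb⟩ := hmb
      obtain ⟨hm', hb'⟩ := hmb'
      have hb10 : (b : Matrix (Fin 2) (Fin 2) k) 1 0 = 0 := (Finset.mem_filter.1 hb).2
      have hb'10 : (b' : Matrix (Fin 2) (Fin 2) k) 1 0 = 0 := (Finset.mem_filter.1 hb').2
      have heq' : ((u' ^ m * b : GL (Fin 2) k) : Matrix (Fin 2) (Fin 2) k)
          = ((u' ^ m' * b' : GL (Fin 2) k) : Matrix (Fin 2) (Fin 2) k) := congrArg _ heq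
      rw [hmulL, hmulL] at heq'
      have e00 := congrFun (congrFun heq' 0) 0
      have e10 := congrFun (congrFun heq' 1) 0
      simp only [Matrix.of_apply, Matrix.cons_val', Matrix.cons_val_zero, Matrix.cons_val_one,
        Matrix.empty_val', Matrix.cons_val_fin_one, Matrix.head_cons] at e00 e10
      -- `b₀₀ ≠ 0`
      have hb00 : (b : Matrix (Fin 2) (Fin 2) k) 0 0 ≠ 0 := by
        intro h0
        have hdet : (b : Matrix (Fin 2) (Fin 2) k).det ≠ 0 := by
          have := (Matrix.GeneralLinearGroup.det b).ne_zero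
          simpa using this
        apply hdet
        rw [Matrix.det_fin_two, h0, hb10]
        ring
      rw [hb10, hb'10, ← e00] at e10
      have hmm : (m : k) = (m' : k) := by
        have h2 : ((m : k) - (m' : k)) * (c * (b : Matrix (Fin 2) (Fin 2) k) 0 0) = 0 := by
          linear_combination e10
        rcases mul_eq_zero.1 h2 with h3 | h3
        · exact sub_eq_zero.1 h3
        · exact absurd h3 (mul_ne_zero hc hb00)
      have hmeq : m = m' := dsg_tv_cast_inj (ℓ := ℓ) hm hm' hmm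
      subst hmeq
      have hbb : b = b' := mul_left_cancel heq
      rw [hbb]
    have hmaps : ∀ p ∈ (Finset.range ℓ ×ˢ B : Finset (ℕ × GL (Fin 2) k)),
        (fun p : ℕ × GL (Fin 2) k => u' ^ p.1 * p.2) p ∈ Gs := by
      rintro ⟨m, b⟩ hmb
      have hb : b ∈ G := (hGs_mem b).1 (Finset.mem_filter.1 (Finset.mem_product.1 hmb).2).1
      exact (hGs_mem _).2 (G.mul_mem (G.pow_mem hu' m) hb)
    have := Finset.card_le_card_of_injOn _ hmaps hinj
    simpa [Finset.card_product] using this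
  -- (2) `ℓ |H ∖ B| ≤ |T| |G|`
  set H' : Finset (GL (Fin 2) k) :=
    H.filter (fun g => (g : Matrix (Fin 2) (Fin 2) k) 1 0 ≠ 0) with hH'
  have h2 : ℓ * H'.card ≤ T.card * Gs.card := by
    have hinj : Set.InjOn (fun p : ℕ × GL (Fin 2) k =>
          ((((p.2 : Matrix (Fin 2) (Fin 2) k).trace, (p.2 : Matrix (Fin 2) (Fin 2) k).det) : k × k),
            p.2 * u ^ p.1))
        ((Finset.range ℓ ×ˢ H' : Finset (ℕ × GL (Fin 2) k)) : Set (ℕ × GL (Fin 2) k)) := by
      rintro ⟨m, h⟩ hmh ⟨m', h'⟩ hmh' heq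
      simp only [Finset.coe_product, Set.mem_prod, Finset.mem_coe, Finset.mem_range] at hmh hmh'
      obtain ⟨hm, hh⟩ := hmh
      obtain ⟨hm', hh'⟩ := hmh'
      have hh10 : (h : Matrix (Fin 2) (Fin 2) k) 1 0 ≠ 0 := (Finset.mem_filter.1 hh).2
      simp only [Prod.mk.injEq] at heq
      obtain ⟨⟨htr, _⟩, hprod⟩ := heq
      have heq' : ((h * u ^ m : GL (Fin 2) k) : Matrix (Fin 2) (Fin 2) k)
          = ((h' * u ^ m' : GL (Fin 2) k) : Matrix (Fin 2) (Fin 2) k) := congrArg _ hprod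
      rw [hmulR, hmulR] at heq'
      have e00 := congrFun (congrFun heq' 0) 0
      have e10 := congrFun (congrFun heq' 1) 0
      have e11 := congrFun (congrFun heq' 1) 1
      simp only [Matrix.of_apply, Matrix.cons_val', Matrix.cons_val_zero, Matrix.cons_val_one,
        Matrix.empty_val', Matrix.cons_val_fin_one, Matrix.head_cons] at e00 e10 e11
      rw [Matrix.trace_fin_two, Matrix.trace_fin_two] at htr
      have hmm : (m : k) = (m' : k) := by
        have h3 : ((m : k) - (m' : k)) * (h : Matrix (Fin 2) (Fin 2) k) 1 0 = 0 := by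
          rw [← e10] at e11
          linear_combination e11 - htr + e00
        rcases mul_eq_zero.1 h3 with h4 | h4
        · exact sub_eq_zero.1 h4
        · exact absurd h4 hh10
      have hmeq : m = m' := dsg_tv_cast_inj (ℓ := ℓ) hm hm' hmm
      subst hmeq
      have hbb : h = h' := mul_right_cancel hprod
      rw [hbb]
    have hmaps : ∀ p ∈ (Finset.range ℓ ×ˢ H' : Finset (ℕ × GL (Fin 2) k)),
        (fun p : ℕ × GL (Fin 2) k =>
          ((((p.2 : Matrix (Fin 2) (Fin 2) k).trace, (p.2 : Matrix (Fin 2) (Fin 2) k).det) : k × k),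
            p.2 * u ^ p.1)) p ∈ T ×ˢ Gs := by
      rintro ⟨m, h⟩ hmh
      have hhH : h ∈ H := (Finset.mem_filter.1 (Finset.mem_product.1 hmh).2).1
      refine Finset.mem_product.2 ⟨hT h hhH, (hGs_mem _).2 ?_⟩
      exact G.mul_mem (hHG h hhH) (G.pow_mem hu m)
    have := Finset.card_le_card_of_injOn _ hmaps hinj
    simpa [Finset.card_product] using this
  -- (3) assemble
  have h3 : H.card ≤ B.card + H'.card := by
    have hsub : H ⊆ B ∪ H' := by
      intro h hh
      by_cases h0 : (h : Matrix (Fin 2) (Fin 2) k) 1 0 = 0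
      · exact Finset.mem_union_left _
          (Finset.mem_filter.2 ⟨(hGs_mem h).2 (hHG h hh), h0⟩)
      · exact Finset.mem_union_right _ (Finset.mem_filter.2 ⟨hh, h0⟩)
    exact (Finset.card_le_card hsub).trans (Finset.card_union_le _ _)
  rw [← hGs_card]
  calc ℓ * H.card ≤ ℓ * (B.card + H'.card) := Nat.mul_le_mul_left _ h3
    _ = ℓ * B.card + ℓ * H'.card := by ring
    _ ≤ Gs.card + T.card * Gs.card := Nat.add_le_add h1 h2
    _ = (T.card + 1) * Gs.card := by ring

end Core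

section General

variable {ℓ : ℕ} [Fact ℓ.Prime] {k : Type*} [Field k] [CharP k ℓ]

theorem dsg_tv_trace_conj (P x : GL (Fin 2) k) :
    ((P⁻¹ * x * P : GL (Fin 2) k) : Matrix (Fin 2) (Fin 2) k).trace
      = (x : Matrix (Fin 2) (Fin 2) k).trace := by
  rw [Matrix.GeneralLinearGroup.coe_mul, Matrix.GeneralLinearGroup.coe_mul, Matrix.trace_mul_comm,
    ← Matrix.mul_assoc, ← Matrix.GeneralLinearGroup.coe_mul, mul_inv_cancel]
  simp

theorem dsg_tv_det_conj (P x : GL (Fin 2) k) :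
    ((P⁻¹ * x * P : GL (Fin 2) k) : Matrix (Fin 2) (Fin 2) k).det
      = (x : Matrix (Fin 2) (Fin 2) k).det := by
  rw [Matrix.GeneralLinearGroup.coe_mul, Matrix.GeneralLinearGroup.coe_mul, Matrix.det_mul,
    Matrix.det_mul, mul_comm, ← mul_assoc, ← Matrix.det_mul, ← Matrix.GeneralLinearGroup.coe_mul,
    mul_inv_cancel]
  simp

/-- **[G-TV]** (Deligne–Serre, Prop. 7.2, case `ℓ ∣ |G|`, without any rationality hypothesis).
Let `G ≤ GL₂(k)`, `char k = ℓ`, be finite of order divisible by `ℓ`, stabilising no line.  If the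
pairs `(trace, det)` of the elements of `H ⊆ G` lie in `T`, then `ℓ |H| ≤ (|T| + 1) |G|`. -/
theorem dsg_tv_bound (G : Subgroup (GL (Fin 2) k)) [Finite G]
    (hirr : ∀ v : Fin 2 → k, v ≠ 0 → ∃ g ∈ G,
      ¬ ∃ c : k, (g : Matrix (Fin 2) (Fin 2) k) *ᵥ v = c • v)
    (hl : ℓ ∣ Nat.card G)
    (H : Finset (GL (Fin 2) k)) (hHG : ∀ h ∈ H, h ∈ G) (T : Finset (k × k))
    (hT : ∀ h ∈ H, ((h : Matrix (Fin 2) (Fin 2) k).trace,
      (h : Matrix (Fin 2) (Fin 2) k).det) ∈ T) :
    ℓ * H.card ≤ (T.card + 1) * Nat.card G := by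
  classical
  obtain ⟨P, c, hc, h1, h2⟩ := dsg_sl2_two_transvections (ℓ := ℓ) G hl hirr
  -- conjugate by `P⁻¹`
  set φ : GL (Fin 2) k ≃* GL (Fin 2) k := MulAut.conj P⁻¹ with hφ
  have hφ_apply : ∀ x, φ x = P⁻¹ * x * P := by
    intro x
    simp [hφ]
  set G' : Subgroup (GL (Fin 2) k) := G.map φ.toMonoidHom with hG'
  have hcard : Nat.card G' = Nat.card G :=
    Subgroup.card_map_of_injective (K := G) (f := φ.toMonoidHom) φ.injective
  haveI : Finite G' := Nat.finite_of_card_ne_zero (by rw [hcard]; exact Nat.card_pos.ne')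
  have hmem : ∀ x ∈ G, P⁻¹ * x * P ∈ G' := by
    intro x hx
    exact ⟨x, hx, hφ_apply x⟩
  have hu : (SpecialLinearGroup.toGL (SpecialLinearGroup.transvection
      (zero_ne_one : (0 : Fin 2) ≠ 1) (1 : k)) : GL (Fin 2) k) ∈ G' := by
    have := hmem _ h1
    simpa [mul_assoc] using this
  have hu' : (SpecialLinearGroup.toGL (SpecialLinearGroup.transvection
      (one_ne_zero : (1 : Fin 2) ≠ 0) c) : GL (Fin 2) k) ∈ G' := by
    have := hmem _ h2
    simpa [mul_assoc] using this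
  set H' : Finset (GL (Fin 2) k) := H.image (fun x => P⁻¹ * x * P) with hH'
  have hH'card : H'.card = H.card := by
    apply Finset.card_image_of_injective
    intro x y hxy
    have h3 : P⁻¹ * x = P⁻¹ * y := mul_right_cancel hxy
    exact mul_left_cancel h3
  have hH'G : ∀ h ∈ H', h ∈ G' := by
    intro h hh
    obtain ⟨x, hx, rfl⟩ := Finset.mem_image.1 hh
    exact hmem x (hHG x hx)
  have hT' : ∀ h ∈ H', ((h : Matrix (Fin 2) (Fin 2) k).trace,
      (h : Matrix (Fin 2) (Fin 2) k).det) ∈ T := by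
    intro h hh
    obtain ⟨x, hx, rfl⟩ := Finset.mem_image.1 hh
    rw [dsg_tv_trace_conj, dsg_tv_det_conj]
    exact hT x hx
  have := dsg_tv_core (ℓ := ℓ) G' c hc hu hu' H' hH'G T hT'
  rwa [hH'card, hcard] at this

/-- numerical form: if moreover `119 |G| ≤ 120 |H|` then `ℓ ≤ 2 (|T| + 1)`. -/
theorem dsg_tv_prime_le (G : Subgroup (GL (Fin 2) k)) [Finite G]
    (hirr : ∀ v : Fin 2 → k, v ≠ 0 → ∃ g ∈ G,
      ¬ ∃ c : k, (g : Matrix (Fin 2) (Fin 2) k) *ᵥ v = c • v)
    (hl : ℓ ∣ Nat.card G)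
    (H : Finset (GL (Fin 2) k)) (hHG : ∀ h ∈ H, h ∈ G)
    (hH : 119 * Nat.card G ≤ 120 * H.card) (T : Finset (k × k))
    (hT : ∀ h ∈ H, ((h : Matrix (Fin 2) (Fin 2) k).trace,
      (h : Matrix (Fin 2) (Fin 2) k).det) ∈ T) :
    ℓ ≤ 2 * (T.card + 1) := by
  have h1 := dsg_tv_bound (ℓ := ℓ) G hirr hl H hHG T hT
  have hpos : 0 < Nat.card G := Nat.card_pos
  by_contra hcon
  rw [not_le] at hcon
  -- `119 ℓ |G| ≤ 120 ℓ |H| ≤ 120 (|T|+1) |G|`, so `119 ℓ ≤ 120 (|T| + 1)`
  have h2 : 119 * ℓ * Nat.card G ≤ 120 * (T.card + 1) * Nat.card G := by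
    calc 119 * ℓ * Nat.card G = ℓ * (119 * Nat.card G) := by ring
      _ ≤ ℓ * (120 * H.card) := Nat.mul_le_mul_left _ hH
      _ = 120 * (ℓ * H.card) := by ring
      _ ≤ 120 * ((T.card + 1) * Nat.card G) := Nat.mul_le_mul_left _ h1
      _ = 120 * (T.card + 1) * Nat.card G := by ring
  have h3 : 119 * ℓ ≤ 120 * (T.card + 1) := Nat.le_of_mul_le_mul_right h2 hpos
  omega

end General

end Fermat.Agent.DS
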