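import Mathlib
import Fermat.Agent.DS.Group.Transv
import Fermat.Agent.DS.Group.BoundKlein

/-!
# DS-G: the group-theoretic bound (prefix `dsg_bd_`)

`k` algebraically closed of characteristic `ℓ`, `G ≤ GL₂(k)` finite and semisimple, `H ⊆ G` with
`119 |G| ≤ 120 |H|` such that the pairs `(trace, det)` of the elements of `H` lie in a set `T` with
`|T| ≤ M`.  If `ℓ > 2 (M + 1)` then `ℓ ∤ |G|` and `|G| ≤ 122 M`.

* `dsg_bd_no_line` : semisimple + `ℓ ∣ |G|` ⟹ `G` stabilises no line;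
* `dsg_bd_not_dvd` : `ℓ > 2 (M + 1)` ⟹ `ℓ ∤ |G|` (from `dsg_tv_prime_le`);
* `dsg_bd_main`    : the bound (from `dsg_bk_bound`).
-/

set_option autoImplicit false
set_option linter.style.haveILetI false
set_option linter.unusedSectionVars false

namespace Fermat.Agent.DS

open Matrix

open scoped MatrixGroups

section

variable {ℓ : ℕ} [Fact ℓ.Prime] {k : Type*} [Field k] [CharP k ℓ]

/-- in characteristic `ℓ`, `c ^ ℓ = 1` implies `c = 1`. -/
theorem dsg_bd_eq_one_of_pow (c : k) (h : c ^ ℓ = 1) : c = 1 := by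
  have h1 : (c - 1) ^ ℓ = 0 := by
    rw [sub_pow_char (p := ℓ) c 1, h, one_pow, sub_self]
  have h2 := pow_eq_zero_iff (Fact.out : ℓ.Prime).ne_zero |>.mp h1
  exact sub_eq_zero.mp h2

/-- A semisimple finite subgroup of `GL₂(k)`, `char k = ℓ`, of order divisible by `ℓ` stabilises
no line. -/
theorem dsg_bd_no_line (G : Subgroup (GL (Fin 2) k)) [Finite G]
    (hss : ∀ L : Submodule k (Fin 2 → k),
      (∀ g ∈ G, ∀ v ∈ L, (g : Matrix (Fin 2) (Fin 2) k) *ᵥ v ∈ L) →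
      ∃ L' : Submodule k (Fin 2 → k),
        (∀ g ∈ G, ∀ v ∈ L', (g : Matrix (Fin 2) (Fin 2) k) *ᵥ v ∈ L') ∧ IsCompl L L')
    (hl : ℓ ∣ Nat.card G) :
    ∀ v : Fin 2 → k, v ≠ 0 → ∃ g ∈ G,
      ¬ ∃ c : k, (g : Matrix (Fin 2) (Fin 2) k) *ᵥ v = c • v := by
  intro v hv
  by_contra hcon
  push Not at hcon
  -- the line `k v` is stable
  have hL : ∀ g ∈ G, ∀ x ∈ Submodule.span k {v},
      (g : Matrix (Fin 2) (Fin 2) k) *ᵥ x ∈ Submodule.span k {v} := by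
    intro g hg x hx
    obtain ⟨a, rfl⟩ := Submodule.mem_span_singleton.mp hx
    obtain ⟨c, hc⟩ := hcon g hg
    rw [Matrix.mulVec_smul, hc]
    exact Submodule.smul_mem _ _ (Submodule.smul_mem _ _ (Submodule.mem_span_singleton_self v))
  obtain ⟨L', hL', hcompl⟩ := hss _ hL
  -- an element of order `ℓ`
  obtain ⟨g0, hg0⟩ := exists_prime_orderOf_dvd_card' ℓ hl
  set g : GL (Fin 2) k := (g0 : GL (Fin 2) k) with hg
  have hgG : g ∈ G := g0.2
  have hgord : g ^ ℓ = 1 := by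
    have h1 : g0 ^ ℓ = 1 := by
      have := pow_orderOf_eq_one g0
      rwa [hg0] at this
    have h2 := congrArg (Subtype.val : G → GL (Fin 2) k) h1
    simpa using h2
  have hg1 : g ≠ 1 := by
    intro h1
    have h2 : g0 = 1 := Subtype.ext h1
    rw [h2, orderOf_one] at hg0
    exact (Fact.out : ℓ.Prime).one_lt.ne hg0
  have hgm : (g : Matrix (Fin 2) (Fin 2) k) ^ ℓ = 1 := by
    have h2 := congrArg (fun x : GL (Fin 2) k => (x : Matrix (Fin 2) (Fin 2) k)) hgord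
    simpa using h2
  -- an eigenvector of `g` with eigenvalue `c` is fixed
  have hfix : ∀ x : Fin 2 → k, x ≠ 0 → ∀ c : k,
      (g : Matrix (Fin 2) (Fin 2) k) *ᵥ x = c • x → (g : Matrix (Fin 2) (Fin 2) k) *ᵥ x = x := by
    intro x hx c hc
    have hpow : ∀ m : ℕ, ((g : Matrix (Fin 2) (Fin 2) k) ^ m) *ᵥ x = c ^ m • x := by
      intro m
      induction m with
      | zero => simp
      | succ m ih =>
        rw [pow_succ, ← Matrix.mulVec_mulVec, hc, Matrix.mulVec_smul, ih, smul_smul, pow_succ,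
          mul_comm]
    have h1 := hpow ℓ
    rw [hgm, Matrix.one_mulVec] at h1
    have h2 : (c ^ ℓ - 1) • x = 0 := by rw [sub_smul, one_smul, ← h1, sub_self]
    have h3 : c ^ ℓ = 1 := by
      rcases smul_eq_zero.mp h2 with h | h
      · exact sub_eq_zero.mp h
      · exact absurd h hx
    rw [hc, dsg_bd_eq_one_of_pow (ℓ := ℓ) c h3, one_smul]
  -- `g` fixes `v`
  have hgv : (g : Matrix (Fin 2) (Fin 2) k) *ᵥ v = v := by
    obtain ⟨c, hc⟩ := hcon g hgG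
    exact hfix v hv c hc
  -- `g` fixes `L'` pointwise
  have hfinL : Module.finrank k (Submodule.span k {v}) = 1 := finrank_span_singleton hv
  have hfinL' : Module.finrank k L' = 1 := by
    have h1 := Submodule.finrank_add_eq_of_isCompl hcompl
    rw [hfinL, Module.finrank_fintype_fun_eq_card, Fintype.card_fin] at h1
    omega
  obtain ⟨w, hw0, hw⟩ := finrank_eq_one_iff'.mp hfinL'
  have hwL' : ∀ x ∈ L', ∃ a : k, x = a • (w : Fin 2 → k) := by
    intro x hx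
    obtain ⟨a, ha⟩ := hw ⟨x, hx⟩
    refine ⟨a, ?_⟩
    have := congrArg Subtype.val ha
    simpa using this.symm
  have hw0' : (w : Fin 2 → k) ≠ 0 := fun h => hw0 (Subtype.ext h)
  have hgw : (g : Matrix (Fin 2) (Fin 2) k) *ᵥ (w : Fin 2 → k) = (w : Fin 2 → k) := by
    obtain ⟨c, hc⟩ := hwL' _ (hL' g hgG w w.2)
    exact hfix _ hw0' c hc
  -- so `g = 1`
  apply hg1
  apply Matrix.GeneralLinearGroup.ext
  intro i j
  have hall : ∀ x : Fin 2 → k, (g : Matrix (Fin 2) (Fin 2) k) *ᵥ x = x := by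
    intro x
    have hx : x ∈ Submodule.span k {v} ⊔ L' := by
      rw [hcompl.sup_eq_top]; exact Submodule.mem_top
    obtain ⟨y, hy, z, hz, rfl⟩ := Submodule.mem_sup.mp hx
    obtain ⟨a, rfl⟩ := Submodule.mem_span_singleton.mp hy
    obtain ⟨b, rfl⟩ := hwL' z hz
    rw [Matrix.mulVec_add, Matrix.mulVec_smul, Matrix.mulVec_smul, hgv, hgw]
  have h1 := congrFun (hall (Pi.single j 1)) i
  simpa [Matrix.one_apply, Pi.single_apply, eq_comm] using h1

/-- `ℓ > 2 (M + 1)` ⟹ `ℓ ∤ |G|`. -/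
theorem dsg_bd_not_dvd (G : Subgroup (GL (Fin 2) k)) [Finite G]
    (hss : ∀ L : Submodule k (Fin 2 → k),
      (∀ g ∈ G, ∀ v ∈ L, (g : Matrix (Fin 2) (Fin 2) k) *ᵥ v ∈ L) →
      ∃ L' : Submodule k (Fin 2 → k),
        (∀ g ∈ G, ∀ v ∈ L', (g : Matrix (Fin 2) (Fin 2) k) *ᵥ v ∈ L') ∧ IsCompl L L')
    (H : Finset (GL (Fin 2) k)) (hHG : ∀ h ∈ H, h ∈ G)
    (hH : 119 * Nat.card G ≤ 120 * H.card) (T : Finset (k × k))
    (hT : ∀ h ∈ H, ((h : Matrix (Fin 2) (Fin 2) k).trace,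
      (h : Matrix (Fin 2) (Fin 2) k).det) ∈ T)
    (M : ℕ) (hM : T.card ≤ M) (hℓ : 2 * (M + 1) < ℓ) : ¬ ℓ ∣ Nat.card G := by
  intro hl
  have h1 := dsg_tv_prime_le (ℓ := ℓ) G (dsg_bd_no_line (ℓ := ℓ) G hss hl) hl H hHG hH T hT
  omega

/-- **The group-theoretic bound.** -/
theorem dsg_bd_main [IsAlgClosed k] (G : Subgroup (GL (Fin 2) k)) [Finite G]
    (hss : ∀ L : Submodule k (Fin 2 → k),
      (∀ g ∈ G, ∀ v ∈ L, (g : Matrix (Fin 2) (Fin 2) k) *ᵥ v ∈ L) →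
      ∃ L' : Submodule k (Fin 2 → k),
        (∀ g ∈ G, ∀ v ∈ L', (g : Matrix (Fin 2) (Fin 2) k) *ᵥ v ∈ L') ∧ IsCompl L L')
    (H : Finset (GL (Fin 2) k)) (hHG : ∀ h ∈ H, h ∈ G)
    (hH : 119 * Nat.card G ≤ 120 * H.card) (T : Finset (k × k))
    (hT : ∀ h ∈ H, ((h : Matrix (Fin 2) (Fin 2) k).trace,
      (h : Matrix (Fin 2) (Fin 2) k).det) ∈ T)
    (M : ℕ) (hM : T.card ≤ M) (hℓ : 2 * (M + 1) < ℓ) :
    ¬ ℓ ∣ Nat.card G ∧ Nat.card G ≤ 122 * M := by
  classical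
  have hnd := dsg_bd_not_dvd (ℓ := ℓ) G hss H hHG hH T hT M hM hℓ
  refine ⟨hnd, ?_⟩
  have hG : ((Nat.card G : ℕ) : k) ≠ 0 := by
    intro h0
    exact hnd ((CharP.cast_eq_zero_iff k ℓ _).mp h0)
  have hH' : (1 - (1 / 120 : ℝ)) * (Nat.card G : ℝ) ≤ (H.card : ℝ) := by
    have h1 : ((119 * Nat.card G : ℕ) : ℝ) ≤ ((120 * H.card : ℕ) : ℝ) := by exact_mod_cast hH
    push_cast at h1
    linarith
  have hb := dsg_bk_bound G hG H hHG (1 / 120 : ℝ) (by norm_num) hH' T hT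
  have hTM : (T.card : ℝ) ≤ (M : ℝ) := by exact_mod_cast hM
  have hT0 : (0 : ℝ) ≤ (T.card : ℝ) := Nat.cast_nonneg _
  have h2 : (Nat.card G : ℝ) ≤ 122 * (M : ℝ) := by
    refine hb.trans (max_le ?_ ?_)
    · rw [div_le_iff₀ (by norm_num)]
      nlinarith
    · rw [div_le_iff₀ (by norm_num)]
      nlinarith
  exact_mod_cast h2

end

end Fermat.Agent.DS
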