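/-
Project DS (S48), cell DS-G, leaf [G-DENS] (prefix `dsg_dn_`): from the Chebotarev density theorem
(seam `dsg_Chebotarev`) to a large subset of the image with few characteristic polynomials.

`ρ : Γℚ → GL₂(k)` of finite level, `G' := ρ.range`.  If outside a set `X` of primes of upper
density `≤ 1/240` (and a finite set `F`) every Frobenius has `(tr, det) ∈ Tk`, then
`H := {h ∈ G' | (tr h, det h) ∈ Tk}` has `119 |G'| ≤ 120 |H|`:
apply (C) to `C := H` and to `C := univ`; as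
`{p ∉ S₁} ⊆ {p ∉ S₂ ∧ Frob_p ⊆ C} ∪ X ∪ (F ∪ S₂)` on primes,
`(1 - δ) L ≤ (|C|/|G'| + δ) L + (1/240 + δ) L + |F ∪ S₂|`, `L = log (1/(s-1)) → ∞`.
No existence or conjugacy of Frobenius elements is needed.
-/
import Mathlib
import Fermat.Agent.DS.Group.Density

set_option autoImplicit false
set_option linter.unusedSectionVars false
set_option linter.style.haveILetI false

noncomputable section

open scoped MatrixGroups

namespace Fermat.Agent.DS

/-! ### finite image -/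

/-- A homomorphism of finite level has finite image. -/
theorem dsg_dn_finite_range {M : Type} [Group M] (ρ : ds_G →* M)
    (h : GaloisFactorsThroughFiniteLevel ρ) : Finite ρ.range := by
  classical
  obtain ⟨L, hL, hker⟩ := h
  haveI := hL
  let r : ds_G → (L →ₐ[ℚ] ds_Qb) := fun σ => (σ : ds_Qb →ₐ[ℚ] ds_Qb).comp L.val
  have hr : ∀ σ τ : ds_G, r σ = r τ → ρ σ = ρ τ := by
    intro σ τ hστ
    have h1 : ρ (τ⁻¹ * σ) = 1 := by
      apply hker
      intro x hx
      have h2 : σ x = τ x := DFunLike.congr_fun hστ ⟨x, hx⟩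
      rw [AlgEquiv.mul_apply, h2]
      exact τ.symm_apply_apply x
    rw [map_mul, map_inv, inv_mul_eq_one] at h1
    exact h1.symm
  let g : (L →ₐ[ℚ] ds_Qb) → M := fun e => if h : ∃ σ, r σ = e then ρ h.choose else 1
  have hg : ∀ σ, ρ σ = g (r σ) := by
    intro σ
    have hex : ∃ τ, r τ = r σ := ⟨σ, rfl⟩
    simp only [g, dif_pos hex]
    exact hr _ _ hex.choose_spec.symm
  have hsub : (ρ.range : Set M) ⊆ Set.range g := by
    rintro _ ⟨σ, rfl⟩
    exact ⟨r σ, (hg σ).symm⟩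
  exact (Set.finite_range g).subset hsub

/-! ### elementary properties of `ds_primeSum` (weight one) -/

section PrimeSum

/-- the general term of `ds_primeSum X 1 s`. -/
def dsg_dn_term (X : Set ℕ) (s : ℝ) (p : Nat.Primes) : ℝ :=
  X.indicator (fun n : ℕ => (1 : ℝ) * (n : ℝ) ^ (-s)) (p : ℕ)

theorem dsg_dn_primeSum_eq (X : Set ℕ) (s : ℝ) :
    ds_primeSum X (fun _ => 1) s = ∑' p : Nat.Primes, dsg_dn_term X s p := rfl

theorem dsg_dn_term_nonneg (X : Set ℕ) (s : ℝ) (p : Nat.Primes) : 0 ≤ dsg_dn_term X s p :=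
  Set.indicator_nonneg (fun n _ => mul_nonneg zero_le_one
    (Real.rpow_nonneg (Nat.cast_nonneg n) _)) _

theorem dsg_dn_term_le (X : Set ℕ) (s : ℝ) (p : Nat.Primes) :
    dsg_dn_term X s p ≤ ((p : ℕ) : ℝ) ^ (-s) := by
  unfold dsg_dn_term
  by_cases hp : (p : ℕ) ∈ X
  · rw [Set.indicator_of_mem hp, one_mul]
  · rw [Set.indicator_of_notMem hp]
    exact Real.rpow_nonneg (Nat.cast_nonneg _) _

theorem dsg_dn_term_le_one (X : Set ℕ) {s : ℝ} (hs : 0 ≤ s) (p : Nat.Primes) :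
    dsg_dn_term X s p ≤ 1 := by
  refine (dsg_dn_term_le X s p).trans ?_
  have h1 : (1 : ℝ) ≤ ((p : ℕ) : ℝ) := by exact_mod_cast p.2.one_lt.le
  exact Real.rpow_le_one_of_one_le_of_nonpos h1 (by linarith)

theorem dsg_dn_summable (X : Set ℕ) {s : ℝ} (hs : 1 < s) : Summable (dsg_dn_term X s) := by
  have h1 : Summable (fun p : Nat.Primes => ((p : ℕ) : ℝ) ^ (-s)) :=
    Nat.Primes.summable_rpow.2 (by linarith)
  exact Summable.of_nonneg_of_le (dsg_dn_term_nonneg X s) (dsg_dn_term_le X s) h1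

/-- monotonicity, with the inclusion required on primes only. -/
theorem dsg_dn_primeSum_mono {X Y : Set ℕ} (h : ∀ p : ℕ, p.Prime → p ∈ X → p ∈ Y) {s : ℝ}
    (hs : 1 < s) : ds_primeSum X (fun _ => 1) s ≤ ds_primeSum Y (fun _ => 1) s := by
  rw [dsg_dn_primeSum_eq, dsg_dn_primeSum_eq]
  refine (dsg_dn_summable X hs).tsum_le_tsum (fun p => ?_) (dsg_dn_summable Y hs)
  unfold dsg_dn_term
  by_cases hp : (p : ℕ) ∈ X
  · rw [Set.indicator_of_mem hp, Set.indicator_of_mem (h _ p.2 hp)]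
  · rw [Set.indicator_of_notMem hp]
    exact dsg_dn_term_nonneg Y s p

theorem dsg_dn_primeSum_union_le (X Y : Set ℕ) {s : ℝ} (hs : 1 < s) :
    ds_primeSum (X ∪ Y) (fun _ => 1) s
      ≤ ds_primeSum X (fun _ => 1) s + ds_primeSum Y (fun _ => 1) s := by
  rw [dsg_dn_primeSum_eq, dsg_dn_primeSum_eq, dsg_dn_primeSum_eq,
    ← (dsg_dn_summable X hs).tsum_add (dsg_dn_summable Y hs)]
  refine (dsg_dn_summable (X ∪ Y) hs).tsum_le_tsum (fun p => ?_)
    ((dsg_dn_summable X hs).add (dsg_dn_summable Y hs))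
  unfold dsg_dn_term
  by_cases hX : (p : ℕ) ∈ X
  · rw [Set.indicator_of_mem (Set.mem_union_left Y hX), Set.indicator_of_mem hX]
    exact le_add_of_nonneg_right (dsg_dn_term_nonneg Y s p)
  · by_cases hY : (p : ℕ) ∈ Y
    · rw [Set.indicator_of_mem (Set.mem_union_right X hY), Set.indicator_of_mem hY]
      exact le_add_of_nonneg_left (dsg_dn_term_nonneg X s p)
    · rw [Set.indicator_of_notMem (fun h => h.elim hX hY), Set.indicator_of_notMem hX,
        Set.indicator_of_notMem hY, add_zero]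

theorem dsg_dn_primeSum_finset_le (F : Finset ℕ) {s : ℝ} (hs : 1 < s) :
    ds_primeSum (↑F : Set ℕ) (fun _ => 1) s ≤ (F.card : ℝ) := by
  classical
  rw [dsg_dn_primeSum_eq]
  refine Real.tsum_le_of_sum_le (fun p => dsg_dn_term_nonneg _ s p) (fun T => ?_)
  have h1 : ∑ p ∈ T, dsg_dn_term (↑F : Set ℕ) s p
      ≤ ∑ p ∈ T, if (p : ℕ) ∈ F then (1 : ℝ) else 0 := by
    refine Finset.sum_le_sum fun p _ => ?_
    by_cases hp : (p : ℕ) ∈ F
    · rw [if_pos hp]; exact dsg_dn_term_le_one _ (by linarith) p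
    · rw [if_neg hp]
      unfold dsg_dn_term
      rw [Set.indicator_of_notMem (by simpa using hp)]
  refine h1.trans ?_
  rw [Finset.sum_ite, Finset.sum_const_zero, add_zero, Finset.sum_const, nsmul_eq_mul, mul_one]
  have h2 : (T.filter fun p : Nat.Primes => (p : ℕ) ∈ F).card ≤ F.card := by
    refine Finset.card_le_card_of_injOn (fun p : Nat.Primes => (p : ℕ)) ?_ ?_
    · intro p hp
      exact (Finset.mem_filter.1 hp).2
    · intro p _ q _ hpq
      exact Subtype.ext hpq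
  exact_mod_cast h2

/-- `log (1 / (s - 1))` is large for `s` close to `1⁺`. -/
theorem dsg_dn_exists_s0 (B : ℝ) : ∃ s₀ : ℝ, 1 < s₀ ∧ ∀ s : ℝ, 1 < s → s < s₀ →
    B ≤ Real.log (1 / (s - 1)) := by
  refine ⟨1 + Real.exp (-B), by linarith [Real.exp_pos (-B)], fun s hs hss => ?_⟩
  have h1 : s - 1 < Real.exp (-B) := by linarith
  have h2 : 0 < s - 1 := by linarith
  have h3 : Real.log (s - 1) < -B := by
    have := Real.log_lt_log h2 h1
    rwa [Real.log_exp] at this
  rw [one_div, Real.log_inv]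
  linarith

end PrimeSum

/-! ### the density argument -/

section Main

/-- **[G-DENS]**: from the Chebotarev density theorem to a large subset of the image with few
characteristic polynomials. -/
theorem dsg_dens (hC : dsg_Chebotarev) {k : Type} [Field k] (ρ : ds_G →* GL (Fin 2) k)
    (hfin : GaloisFactorsThroughFiniteLevel ρ) (Tk : Finset (k × k)) (X : Set ℕ)
    (hX : ds_UpperDensityLE X (1 / 240)) (F : Finset ℕ)
    (hcov : ∀ p, p.Prime → p ∉ F → p ∉ X → ∀ σ, ds_FrobAt σ p →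
      (((ρ σ : GL (Fin 2) k) : Matrix (Fin 2) (Fin 2) k).trace,
        ((ρ σ : GL (Fin 2) k) : Matrix (Fin 2) (Fin 2) k).det) ∈ Tk) :
    ∃ H : Finset (GL (Fin 2) k), (∀ h ∈ H, h ∈ ρ.range) ∧
      (∀ h ∈ H, ((h : Matrix (Fin 2) (Fin 2) k).trace, (h : Matrix (Fin 2) (Fin 2) k).det) ∈ Tk) ∧
      119 * Nat.card ρ.range ≤ 120 * H.card := by
  classical
  haveI hfinite : Finite ρ.range := dsg_dn_finite_range ρ hfin
  -- the finite quotient
  let φ : ds_G →* ρ.range := ρ.rangeRestrict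
  have hφfin : GaloisFactorsThroughFiniteLevel φ := by
    obtain ⟨L, hL, hker⟩ := hfin
    exact ⟨L, hL, fun σ hσ => Subtype.ext (hker σ hσ)⟩
  have hφsurj : Function.Surjective φ := ρ.rangeRestrict_surjective
  -- the conjugation-stable subset
  let C : Set ρ.range := {g | (((g : GL (Fin 2) k) : Matrix (Fin 2) (Fin 2) k).trace,
    ((g : GL (Fin 2) k) : Matrix (Fin 2) (Fin 2) k).det) ∈ Tk}
  have hCconj : ∀ g h : ρ.range, g ∈ C → h * g * h⁻¹ ∈ C := by
    intro g h hg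
    change ((((h * g * h⁻¹ : ρ.range) : GL (Fin 2) k) : Matrix (Fin 2) (Fin 2) k).trace,
      (((h * g * h⁻¹ : ρ.range) : GL (Fin 2) k) : Matrix (Fin 2) (Fin 2) k).det) ∈ Tk
    have h1 : (((h * g * h⁻¹ : ρ.range) : GL (Fin 2) k) : Matrix (Fin 2) (Fin 2) k)
        = ((h : GL (Fin 2) k) : Matrix (Fin 2) (Fin 2) k) *
          ((g : GL (Fin 2) k) : Matrix (Fin 2) (Fin 2) k) *
          (((h : GL (Fin 2) k)⁻¹ : GL (Fin 2) k) : Matrix (Fin 2) (Fin 2) k) := by
      simp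
    rw [h1, Matrix.trace_units_conj, Matrix.det_units_conj]
    exact hg
  obtain ⟨S₂, hS₂⟩ := hC ρ.range φ hφfin hφsurj C hCconj
  obtain ⟨S₁, hS₁⟩ := hC ρ.range φ hφfin hφsurj Set.univ (fun _ _ _ => Set.mem_univ _)
  -- notation
  set n : ℝ := (Nat.card ρ.range : ℝ) with hn
  have hn0 : 0 < n := by
    rw [hn]; exact_mod_cast Nat.card_pos
  set c : ℝ := (Nat.card C : ℝ) / n with hc
  have huniv : (Nat.card (Set.univ : Set ρ.range) : ℝ) / n = 1 := by
    rw [Nat.card_congr (Equiv.Set.univ _), ← hn, div_self hn0.ne']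
  -- the key inequality `c ≥ 1 - 1/240 - 4 δ`
  have hkey : ∀ δ : ℝ, 0 < δ → 1 - 1 / 240 - 4 * δ ≤ c := by
    intro δ hδ
    obtain ⟨s₁, hs₁, h₁⟩ := hS₁ δ hδ
    obtain ⟨s₂, hs₂, h₂⟩ := hS₂ δ hδ
    obtain ⟨s₃, hs₃, h₃⟩ := hX δ hδ
    obtain ⟨s₄, hs₄, h₄⟩ := dsg_dn_exists_s0 (max 1 (((F ∪ S₂).card : ℝ) / δ))
    -- choose `s`
    set s₀ : ℝ := min (min s₁ s₂) (min s₃ s₄) with hs₀
    have hs₀1 : 1 < s₀ := lt_min (lt_min hs₁ hs₂) (lt_min hs₃ hs₄)
    set s : ℝ := (1 + s₀) / 2 with hs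
    have hs1 : 1 < s := by rw [hs]; linarith
    have hss₀ : s < s₀ := by rw [hs]; linarith
    have hlt₁ : s < s₁ := hss₀.trans_le ((min_le_left _ _).trans (min_le_left _ _))
    have hlt₂ : s < s₂ := hss₀.trans_le ((min_le_left _ _).trans (min_le_right _ _))
    have hlt₃ : s < s₃ := hss₀.trans_le ((min_le_right _ _).trans (min_le_left _ _))
    have hlt₄ : s < s₄ := hss₀.trans_le ((min_le_right _ _).trans (min_le_right _ _))
    set Lg : ℝ := Real.log (1 / (s - 1)) with hLg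
    have hL1 : max 1 (((F ∪ S₂).card : ℝ) / δ) ≤ Lg := h₄ s hs1 hlt₄
    have hLpos : 0 < Lg := lt_of_lt_of_le one_pos ((le_max_left _ _).trans hL1)
    have hcard : ((F ∪ S₂).card : ℝ) ≤ δ * Lg := by
      have := (le_max_right _ _).trans hL1
      rwa [div_le_iff₀ hδ, mul_comm] at this
    have e₁ := h₁ s hs1 hlt₁
    have e₂ := h₂ s hs1 hlt₂
    have e₃ := h₃ s hs1 hlt₃
    rw [huniv, one_mul] at e₁
    -- the inclusion
    have hincl : ds_primeSum {p | p ∉ S₁ ∧ ∀ σ : ds_G, ds_FrobAt σ p → φ σ ∈ (Set.univ : Set ρ.range)}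
        (fun _ => 1) s ≤
        ds_primeSum {p | p ∉ S₂ ∧ ∀ σ : ds_G, ds_FrobAt σ p → φ σ ∈ C} (fun _ => 1) s
          + ds_primeSum X (fun _ => 1) s + ((F ∪ S₂).card : ℝ) := by
      refine (dsg_dn_primeSum_mono (Y := ({p | p ∉ S₂ ∧ ∀ σ : ds_G, ds_FrobAt σ p → φ σ ∈ C} ∪ X)
        ∪ (↑(F ∪ S₂) : Set ℕ)) ?_ hs1).trans ?_
      · intro p hp _
        by_cases hpX : p ∈ X
        · exact Or.inl (Or.inr hpX)
        by_cases hpF : p ∈ F ∪ S₂
        · exact Or.inr (by exact_mod_cast hpF)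
        rw [Finset.mem_union, not_or] at hpF
        exact Or.inl (Or.inl ⟨hpF.2, fun σ hσ => hcov p hp hpF.1 hpX σ hσ⟩)
      · refine (dsg_dn_primeSum_union_le _ _ hs1).trans ?_
        refine add_le_add (dsg_dn_primeSum_union_le _ _ hs1) (dsg_dn_primeSum_finset_le _ hs1)
    have a₁ := (abs_le.1 e₁).1
    have a₂ := (abs_le.1 e₂).2
    -- `(1 - δ) L ≤ (c + δ) L + (1/240 + δ) L + δ L`
    have hfinal : (1 - 1 / 240 - 4 * δ) * Lg ≤ c * Lg := by nlinarith
    exact le_of_mul_le_mul_right hfinal hLpos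
  have hc239 : 119 / 120 ≤ c := by
    have := hkey (1 / 1000) (by norm_num)
    linarith
  -- the finite set `H`
  have hfinC : (Subtype.val '' C : Set (GL (Fin 2) k)).Finite := Set.toFinite _
  refine ⟨hfinC.toFinset, ?_, ?_, ?_⟩
  · intro h hh
    rw [Set.Finite.mem_toFinset] at hh
    obtain ⟨g, -, rfl⟩ := hh
    exact g.2
  · intro h hh
    rw [Set.Finite.mem_toFinset] at hh
    obtain ⟨g, hg, rfl⟩ := hh
    exact hg
  · have hcardH : hfinC.toFinset.card = Nat.card C := by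
      rw [← Set.ncard_eq_toFinset_card _ hfinC,
        Set.ncard_image_of_injective _ Subtype.val_injective, Nat.card_coe_set_eq]
    rw [hcardH]
    have h1 : 119 / 120 * n ≤ (Nat.card C : ℝ) := by
      rw [hc, le_div_iff₀ hn0] at hc239
      exact hc239
    have h2 : (119 : ℝ) * (Nat.card ρ.range : ℝ) ≤ 120 * (Nat.card C : ℝ) := by
      rw [← hn]; linarith
    exact_mod_cast h2

end Main

end Fermat.Agent.DS
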