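/-
Project DS (S48, Deligne–Serre), cell DS-G, leaf [G-IRR]:
a two-dimensional complex representation of `Γℚ` of finite level whose Frobenius traces are the
`a_p` of a system satisfying the Rankin bound `∑_{p ∤ N} |a_p|² p^{-s} ≤ log (1/(s-1)) + C`
is irreducible.

If not, there is an invariant line, so on the finite image `G'` the trace is a sum of two
characters `χ₁ + χ₂` and the mean of `|χ₁ + χ₂|²` over `G'` is `2` or `4`; the Chebotarev density
theorem (seam `dsg_Chebotarev`) applied to the fibres of the trace gives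
`∑_{p ∤ N} |a_p|² p^{-s} ≥ (2 - δ) log (1/(s-1)) - const`, which contradicts the Rankin bound as
`s → 1⁺`.

Prefix `dsg_irr_`.
-/
import Mathlib
import Fermat.Agent.DS.Group.Density
import Fermat.Agent.S54.Frobenius

set_option autoImplicit false
set_option linter.unusedSectionVars false
set_option linter.style.haveILetI false

noncomputable section

open CongruenceSubgroup ModularFormClass
open scoped MatrixGroups

namespace Fermat.Agent.DS

/-! ### Finite image -/

/-- A homomorphism of finite level has finite image. -/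
theorem dsg_irr_finite_range {M : Type} [Group M] (ρ : ds_G →* M)
    (h : GaloisFactorsThroughFiniteLevel ρ) : Finite ρ.range := by
  classical
  obtain ⟨L, hL, hker⟩ := h
  haveI := hL
  let r : ds_G → (L →ₐ[ℚ] ds_Qb) := fun σ => (σ : ds_Qb →ₐ[ℚ] ds_Qb).comp L.val
  have hr : ∀ σ τ : ds_G, r σ = r τ → ρ σ = ρ τ := by
    intro σ τ hστ
    have h1 : ρ (τ⁻¹ * σ) = 1 := by
      apply hker
      intro x hx
      have h2 : σ x = τ x := by
        exact DFunLike.congr_fun hστ ⟨x, hx⟩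
      rw [AlgEquiv.mul_apply, h2]
      exact τ.symm_apply_apply x
    rw [map_mul, map_inv, inv_mul_eq_one] at h1
    exact h1.symm
  let g : (L →ₐ[ℚ] ds_Qb) → M := fun e => if h : ∃ σ, r σ = e then ρ h.choose else 1
  have hg : ∀ σ, ρ σ = g (r σ) := by
    intro σ
    have hex : ∃ τ, r τ = r σ := ⟨σ, rfl⟩
    simp only [g, dif_pos hex]
    exact hr _ _ hex.choose_spec.symm
  have hsub : (ρ.range : Set M) ⊆ Set.range g := by
    rintro _ ⟨σ, rfl⟩
    exact ⟨r σ, (hg σ).symm⟩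
  exact (Set.finite_range g).subset hsub

/-! ### Reducible two-dimensional representations have an invariant line -/

/-- A two-dimensional matrix representation without a common eigenvector is irreducible. -/
theorem dsg_irr_of_no_eigen {Γ : Type} [Group Γ] (ρ : Γ →* GL (Fin 2) ℂ)
    (h : ¬ ∃ v : Fin 2 → ℂ, v ≠ 0 ∧
      ∀ σ : Γ, ∃ c : ℂ, ((ρ σ : GL (Fin 2) ℂ) : Matrix (Fin 2) (Fin 2) ℂ).mulVec v = c • v) :
    (Deformation.matrixRepresentation ρ).IsIrreducible := by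
  haveI : Nontrivial (Subrepresentation (Deformation.matrixRepresentation ρ)) := by
    refine ⟨⊥, ⊤, fun hbt => ?_⟩
    have h1 := congrArg Subrepresentation.toSubmodule hbt
    exact bot_ne_top h1
  refine ⟨fun W => ?_⟩
  have hle : Module.finrank ℂ W.toSubmodule ≤ 2 := by
    have := Submodule.finrank_le W.toSubmodule
    simpa using this
  interval_cases hd : Module.finrank ℂ W.toSubmodule
  · left
    apply Subrepresentation.toSubmodule_injective
    exact Submodule.finrank_eq_zero.1 hd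
  · exfalso
    apply h
    obtain ⟨⟨v, hvW⟩, hv0, hv⟩ := finrank_eq_one_iff'.1 hd
    refine ⟨v, fun h0 => hv0 (Subtype.ext h0), fun σ => ?_⟩
    have hmem := W.apply_mem_toSubmodule σ hvW
    obtain ⟨c, hc⟩ := hv ⟨_, hmem⟩
    refine ⟨c, ?_⟩
    have := congrArg Subtype.val hc
    simp only [Submodule.coe_smul, Deformation.matrixRepresentation_apply,
      Matrix.mulVecLin_apply] at this
    exact this.symm
  · right
    apply Subrepresentation.toSubmodule_injective
    apply Submodule.eq_top_of_finrank_eq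
    rw [hd]
    simp

/-! ### The trace on a finite group with an invariant line -/

/-- An eigenvalue of a `2 × 2` matrix is a root of `X² - tr X + det`. -/
theorem dsg_irr_eigen_quadratic (M : Matrix (Fin 2) (Fin 2) ℂ) (v : Fin 2 → ℂ) (hv : v ≠ 0)
    (c : ℂ) (hc : M.mulVec v = c • v) : c ^ 2 - M.trace * c + M.det = 0 := by
  have h1 : (M - Matrix.scalar (Fin 2) c).mulVec v = 0 := by
    rw [Matrix.sub_mulVec, hc]
    ext i
    fin_cases i <;> simp [Matrix.scalar_apply]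
  have h2 : (M - Matrix.scalar (Fin 2) c).det = 0 := by
    exact Matrix.exists_mulVec_eq_zero_iff.1 ⟨v, hv, h1⟩
  rw [Matrix.det_fin_two] at h2
  rw [Matrix.trace_fin_two, Matrix.det_fin_two]
  simp only [Matrix.sub_apply, Matrix.scalar_apply, Matrix.diagonal_apply_eq,
    Matrix.diagonal_apply_ne, ne_eq, Fin.isValue, zero_ne_one, one_ne_zero, not_false_eq_true,
    sub_zero] at h2
  linear_combination h2

/-- **Character-sum bound**: on a finite group acting on `ℂ²` with an invariant line the mean of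
`|tr|²` is at least `2`. -/
theorem dsg_irr_sum_trace_sq {G' : Type} [Group G'] [Fintype G'] (j : G' →* GL (Fin 2) ℂ)
    (v : Fin 2 → ℂ) (hv : v ≠ 0)
    (h : ∀ g : G', ∃ c : ℂ, ((j g : GL (Fin 2) ℂ) : Matrix (Fin 2) (Fin 2) ℂ).mulVec v = c • v) :
    2 * (Fintype.card G' : ℝ) ≤
      ∑ g : G', ‖((j g : GL (Fin 2) ℂ) : Matrix (Fin 2) (Fin 2) ℂ).trace‖ ^ 2 := by
  classical
  choose c hc using h
  have hinj : Function.Injective (fun a : ℂ => a • v) := smul_left_injective ℂ hv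
  have hc1 : c 1 = 1 := by
    apply hinj
    have := hc 1
    simp only [map_one, Units.val_one, Matrix.one_mulVec] at this
    simp only [one_smul]
    exact this.symm
  have hcmul : ∀ g h : G', c (g * h) = c g * c h := by
    intro g h
    apply hinj
    have h1 := hc (g * h)
    simp only [map_mul, Units.val_mul] at h1
    rw [← Matrix.mulVec_mulVec, hc h, Matrix.mulVec_smul, hc g, smul_smul] at h1
    simp only
    rw [← h1, mul_comm]
  have hcpow : ∀ (g : G') (n : ℕ), c (g ^ n) = c g ^ n := by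
    intro g n
    induction n with
    | zero => simp [hc1]
    | succ n ih => rw [pow_succ, hcmul, ih, pow_succ]
  have hcard : 0 < Fintype.card G' := Fintype.card_pos
  have hcn : ∀ g : G', c g ^ Fintype.card G' = 1 := by
    intro g
    rw [← hcpow, pow_card_eq_one, hc1]
  have hcnorm : ∀ g : G', ‖c g‖ = 1 := fun g =>
    Complex.norm_eq_one_of_pow_eq_one (hcn g) hcard.ne'
  have hcne : ∀ g : G', c g ≠ 0 := by
    intro g h0
    have := hcnorm g
    rw [h0, norm_zero] at this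
    exact zero_ne_one this
  -- the determinant
  set d : G' → ℂ := fun g => ((j g : GL (Fin 2) ℂ) : Matrix (Fin 2) (Fin 2) ℂ).det with hd
  have hd1 : d 1 = 1 := by simp [hd]
  have hdmul : ∀ g h : G', d (g * h) = d g * d h := by
    intro g h
    simp [hd, Matrix.det_mul]
  have hdpow : ∀ (g : G') (n : ℕ), d (g ^ n) = d g ^ n := by
    intro g n
    induction n with
    | zero => simp [hd1]
    | succ n ih => rw [pow_succ, hdmul, ih, pow_succ]
  have hdn : ∀ g : G', d g ^ Fintype.card G' = 1 := by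
    intro g
    rw [← hdpow, pow_card_eq_one, hd1]
  have hdnorm : ∀ g : G', ‖d g‖ = 1 := fun g =>
    Complex.norm_eq_one_of_pow_eq_one (hdn g) hcard.ne'
  -- the ratio of the two characters
  set ψ : G' → ℂ := fun g => d g / (c g) ^ 2 with hψ
  have hψmul : ∀ g h : G', ψ (g * h) = ψ g * ψ h := by
    intro g h
    simp only [hψ, hcmul, hdmul]
    field_simp [hcne g, hcne h]
  have hψnorm : ∀ g : G', ‖ψ g‖ = 1 := by
    intro g
    simp only [hψ, norm_div, norm_pow, hcnorm, hdnorm]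
    norm_num
  have htr : ∀ g : G', ((j g : GL (Fin 2) ℂ) : Matrix (Fin 2) (Fin 2) ℂ).trace
      = c g * (1 + ψ g) := by
    intro g
    have hq : c g ^ 2 - ((j g : GL (Fin 2) ℂ) : Matrix (Fin 2) (Fin 2) ℂ).trace * c g + d g = 0 :=
      dsg_irr_eigen_quadratic _ v hv (c g) (hc g)
    have hcg := hcne g
    apply mul_right_cancel₀ hcg
    simp only [hψ]
    field_simp
    linear_combination (-1 : ℂ) * hq
  have hnorm : ∀ g : G', ‖((j g : GL (Fin 2) ℂ) : Matrix (Fin 2) (Fin 2) ℂ).trace‖ ^ 2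
      = 2 + 2 * (ψ g).re := by
    intro g
    rw [htr g, norm_mul, hcnorm g, one_mul]
    have h1 : ‖(1 : ℂ) + ψ g‖ ^ 2 = Complex.normSq (1 + ψ g) := (Complex.normSq_eq_norm_sq _).symm
    rw [h1, Complex.normSq_add, Complex.normSq_one, Complex.normSq_eq_norm_sq, hψnorm g]
    simp
    ring
  -- the character sum
  set S : ℂ := ∑ g : G', ψ g with hS
  have hinv : ∀ h : G', ψ h * S = S := by
    intro h
    rw [hS, Finset.mul_sum]
    rw [← Equiv.sum_comp (Equiv.mulLeft h) ψ]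
    refine Finset.sum_congr rfl fun g _ => ?_
    rw [Equiv.coe_mulLeft, hψmul]
  have hSre : 0 ≤ S.re := by
    by_cases hall : ∀ h : G', ψ h = 1
    · have : S = (Fintype.card G' : ℂ) := by
        rw [hS, Finset.sum_congr rfl (fun g _ => hall g)]
        simp
      rw [this]
      simp
    · push Not at hall
      obtain ⟨h, hh⟩ := hall
      have h1 : (ψ h - 1) * S = 0 := by rw [sub_mul, hinv h, one_mul, sub_self]
      rcases mul_eq_zero.1 h1 with h2 | h2
      · exact absurd (sub_eq_zero.1 h2) hh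
      · rw [h2]; simp
  calc 2 * (Fintype.card G' : ℝ) ≤ 2 * (Fintype.card G' : ℝ) + 2 * S.re := by linarith
    _ = ∑ g : G', (2 + 2 * (ψ g).re) := by
      rw [Finset.sum_add_distrib, ← Finset.mul_sum, hS, Complex.re_sum]
      simp [mul_comm]
    _ = _ := by
      refine Finset.sum_congr rfl fun g _ => ?_
      rw [hnorm g]

/-! ### Prime sums -/

theorem dsg_irr_rpow_le_one (p : Nat.Primes) {s : ℝ} (hs : 0 ≤ s) :
    (((p : ℕ) : ℝ)) ^ (-s) ≤ 1 := by
  apply Real.rpow_le_one_of_one_le_of_nonpos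
  · exact_mod_cast p.2.one_le
  · linarith

theorem dsg_irr_summable_ind (X : Set ℕ) {s : ℝ} (hs : 1 < s) :
    Summable (fun p : Nat.Primes =>
      X.indicator (fun n : ℕ => (1 : ℝ) * (n : ℝ) ^ (-s)) (p : ℕ)) := by
  have h0 : Summable (fun p : Nat.Primes => (((p : ℕ) : ℝ)) ^ (-s)) :=
    Nat.Primes.summable_rpow.2 (by linarith)
  refine Summable.of_nonneg_of_le (fun p => ?_) (fun p => ?_) h0
  · exact Set.indicator_nonneg (fun n _ => by positivity) _
  · by_cases hp : (p : ℕ) ∈ X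
    · rw [Set.indicator_of_mem hp, one_mul]
    · rw [Set.indicator_of_notMem hp]; positivity

theorem dsg_irr_tendsto_log :
    Filter.Tendsto (fun s : ℝ => Real.log (1 / (s - 1))) (nhdsWithin 1 (Set.Ioi 1))
      Filter.atTop := by
  have h1 : Filter.Tendsto (fun s : ℝ => s - 1) (nhdsWithin 1 (Set.Ioi 1))
      (nhdsWithin 0 (Set.Ioi 0)) := by
    refine tendsto_nhdsWithin_iff.2 ⟨?_, ?_⟩
    · have : Filter.Tendsto (fun s : ℝ => s - 1) (nhds 1) (nhds 0) := by
        simpa using (Filter.tendsto_id (α := ℝ) (x := nhds 1)).sub_const 1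
      exact this.mono_left nhdsWithin_le_nhds
    · filter_upwards [self_mem_nhdsWithin] with s hs
      exact sub_pos.2 (Set.mem_Ioi.1 hs)
  have h2 : Filter.Tendsto (fun x : ℝ => 1 / x) (nhdsWithin 0 (Set.Ioi 0)) Filter.atTop := by
    simpa [one_div] using tendsto_inv_nhdsGT_zero (𝕜 := ℝ)
  exact Real.tendsto_log_atTop.comp (h2.comp h1)

/-! ### The main theorem -/

/-- **[G-IRR], core form** (`tsum` form of the Rankin bound, trace clause only). -/
theorem dsg_irr_core (hC : dsg_Chebotarev) (N : ℕ) [NeZero N] (a : ℕ → ℂ)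
    (hA : ∃ C : ℝ, ∀ s : ℝ, 1 < s → s ≤ 2 →
      Summable (fun p : Nat.Primes => ({p : ℕ | ¬ p ∣ N}).indicator
        (fun n : ℕ => ‖a n‖ ^ 2 * (n : ℝ) ^ (-s)) (p : ℕ)) ∧
      ds_primeSum {p | ¬ p ∣ N} (fun p => ‖a p‖ ^ 2) s ≤ Real.log (1 / (s - 1)) + C)
    (ρ : ds_G →* GL (Fin 2) ℂ) (hfin : GaloisFactorsThroughFiniteLevel ρ)
    (hρ : ∀ p : ℕ, p.Prime → ¬ p ∣ N → ∀ σ : ds_G, ds_FrobAt σ p →
      ((ρ σ : GL (Fin 2) ℂ) : Matrix (Fin 2) (Fin 2) ℂ).trace = a p) :
    (Deformation.matrixRepresentation ρ).IsIrreducible := by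
  classical
  apply dsg_irr_of_no_eigen
  rintro ⟨v, hv, hev⟩
  obtain ⟨C, hC'⟩ := hA
  -- the finite image
  haveI : Finite ρ.range := dsg_irr_finite_range ρ hfin
  haveI : Fintype ρ.range := Fintype.ofFinite _
  set φ : ds_G →* ρ.range := ρ.rangeRestrict with hφ
  have hφsurj : Function.Surjective φ := ρ.rangeRestrict_surjective
  have hφfin : GaloisFactorsThroughFiniteLevel φ := by
    obtain ⟨L, hL, hker⟩ := hfin
    refine ⟨L, hL, fun σ hσ => ?_⟩
    apply Subtype.ext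
    exact hker σ hσ
  -- the trace on the image
  let tr : ρ.range → ℂ := fun g => ((g : GL (Fin 2) ℂ) : Matrix (Fin 2) (Fin 2) ℂ).trace
  have hsum : 2 * (Fintype.card ρ.range : ℝ) ≤ ∑ g : ρ.range, ‖tr g‖ ^ 2 := by
    refine dsg_irr_sum_trace_sq ρ.range.subtype v hv ?_
    rintro ⟨_, σ, rfl⟩
    exact hev σ
  -- the fibres of the trace
  let Cl : ℂ → Set ρ.range := fun t => {g | tr g = t}
  have hCl : ∀ t : ℂ, ∀ g h : ρ.range, g ∈ Cl t → h * g * h⁻¹ ∈ Cl t := by
    intro t g h hg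
    simp only [Cl, Set.mem_ofPred_eq, tr] at hg ⊢
    rw [← hg]
    simp only [Subgroup.coe_mul, Subgroup.coe_inv, Units.val_mul]
    rw [Matrix.trace_mul_comm, ← mul_assoc]
    simp
  have hCheb := fun t : ℂ => hC ρ.range φ hφfin hφsurj (Cl t) (hCl t)
  choose S hS using hCheb
  let X : ℂ → Set ℕ := fun t => {p | p ∉ S t ∧ ∀ σ : ds_G, ds_FrobAt σ p → φ σ ∈ Cl t}
  let Tr : Finset ℂ := Finset.univ.image tr
  set K : ℝ := ∑ t ∈ Tr, ‖t‖ ^ 2 with hK
  have hK0 : 0 ≤ K := Finset.sum_nonneg fun t _ => by positivity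
  -- the pointwise inequality
  have hpt : ∀ s : ℝ, 0 ≤ s → ∀ p : Nat.Primes,
      ∑ t ∈ Tr, ‖t‖ ^ 2 * (X t).indicator (fun n : ℕ => (1 : ℝ) * (n : ℝ) ^ (-s)) (p : ℕ) ≤
        ({p : ℕ | ¬ p ∣ N}).indicator (fun n : ℕ => ‖a n‖ ^ 2 * (n : ℝ) ^ (-s)) (p : ℕ)
          + (if (p : ℕ) ∣ N then K else 0) := by
    intro s hs p
    by_cases hpN : (p : ℕ) ∣ N
    · have hnot : (p : ℕ) ∉ {p : ℕ | ¬ p ∣ N} := fun h => h hpN
      rw [if_pos hpN, Set.indicator_of_notMem hnot, zero_add]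
      apply Finset.sum_le_sum
      intro t _
      apply mul_le_of_le_one_right (by positivity)
      by_cases hpX : (p : ℕ) ∈ X t
      · rw [Set.indicator_of_mem hpX, one_mul]
        exact dsg_irr_rpow_le_one p hs
      · rw [Set.indicator_of_notMem hpX]
        exact zero_le_one
    · have hmem : (p : ℕ) ∈ {p : ℕ | ¬ p ∣ N} := hpN
      rw [if_neg hpN, add_zero, Set.indicator_of_mem hmem]
      obtain ⟨A, σ₀, hA, hσ₀⟩ := Fermat.Agent.S54.exists_isFrobeniusAt p.2
      have hfrob : ds_FrobAt σ₀ p := ⟨A, hA, hσ₀⟩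
      have hap : tr (φ σ₀) = a p := hρ p p.2 hpN σ₀ hfrob
      calc ∑ t ∈ Tr, ‖t‖ ^ 2 * (X t).indicator (fun n : ℕ => (1 : ℝ) * (n : ℝ) ^ (-s)) (p : ℕ)
          ≤ ∑ t ∈ Tr, (if t = a p then ‖a p‖ ^ 2 * (((p : ℕ) : ℝ)) ^ (-s) else 0) := by
            apply Finset.sum_le_sum
            intro t _
            by_cases hpX : (p : ℕ) ∈ X t
            · have ht : t = a p := by
                rw [← hap]
                exact (hpX.2 σ₀ hfrob).symm
              rw [if_pos ht, Set.indicator_of_mem hpX, one_mul, ht]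
            · rw [Set.indicator_of_notMem hpX, mul_zero]
              split_ifs
              · positivity
              · exact le_refl _
        _ ≤ ‖a p‖ ^ 2 * (((p : ℕ) : ℝ)) ^ (-s) := by
            rw [Finset.sum_ite_eq' Tr (a p)]
            split_ifs
            · exact le_refl _
            · positivity
  -- the primes dividing `N`
  have hFfin : {p : Nat.Primes | (p : ℕ) ∣ N}.Finite := by
    have h1 : {p : Nat.Primes | (p : ℕ) ∣ N} ⊆
        (fun p : Nat.Primes => (p : ℕ)) ⁻¹' (↑(N.divisors) : Set ℕ) := by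
      intro p hp
      simp only [Set.mem_preimage, Finset.mem_coe, Nat.mem_divisors]
      exact ⟨hp, NeZero.ne N⟩
    exact (Set.Finite.preimage (Nat.Primes.coe_nat_injective.injOn)
      (Finset.finite_toSet _)).subset h1
  set F : Finset Nat.Primes := hFfin.toFinset with hF
  have hFmem : ∀ p : Nat.Primes, p ∈ F ↔ (p : ℕ) ∣ N := by
    intro p
    rw [hF, Set.Finite.mem_toFinset]
    rfl
  -- the key inequality between the prime sums
  have hkey : ∀ s : ℝ, 1 < s → s ≤ 2 →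
      ∑ t ∈ Tr, ‖t‖ ^ 2 * ds_primeSum (X t) (fun _ => 1) s ≤
        ds_primeSum {p | ¬ p ∣ N} (fun p => ‖a p‖ ^ 2) s + K * F.card := by
    intro s hs1 hs2
    obtain ⟨hsumm, _⟩ := hC' s hs1 hs2
    have hb : Summable (fun p : Nat.Primes => if (p : ℕ) ∣ N then K else 0) := by
      refine summable_of_ne_finset_zero (s := F) fun p hp => ?_
      rw [if_neg]
      exact fun h => hp ((hFmem p).2 h)
    have hbsum : ∑' p : Nat.Primes, (if (p : ℕ) ∣ N then K else 0) = K * F.card := by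
      rw [tsum_eq_sum (s := F) (fun p hp => by
        rw [if_neg]
        exact fun h => hp ((hFmem p).2 h))]
      rw [Finset.sum_congr rfl (fun p hp => if_pos ((hFmem p).1 hp))]
      simp [mul_comm]
    have hl : ∀ t ∈ Tr, Summable (fun p : Nat.Primes =>
        ‖t‖ ^ 2 * (X t).indicator (fun n : ℕ => (1 : ℝ) * (n : ℝ) ^ (-s)) (p : ℕ)) :=
      fun t _ => (dsg_irr_summable_ind (X t) hs1).mul_left _
    calc ∑ t ∈ Tr, ‖t‖ ^ 2 * ds_primeSum (X t) (fun _ => 1) s
        = ∑ t ∈ Tr, ∑' p : Nat.Primes,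
            ‖t‖ ^ 2 * (X t).indicator (fun n : ℕ => (1 : ℝ) * (n : ℝ) ^ (-s)) (p : ℕ) := by
          refine Finset.sum_congr rfl fun t _ => ?_
          rw [tsum_mul_left]
          rfl
      _ = ∑' p : Nat.Primes, ∑ t ∈ Tr,
            ‖t‖ ^ 2 * (X t).indicator (fun n : ℕ => (1 : ℝ) * (n : ℝ) ^ (-s)) (p : ℕ) :=
          (Summable.tsum_finsetSum hl).symm
      _ ≤ ∑' p : Nat.Primes,
            (({p : ℕ | ¬ p ∣ N}).indicator (fun n : ℕ => ‖a n‖ ^ 2 * (n : ℝ) ^ (-s)) (p : ℕ)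
              + (if (p : ℕ) ∣ N then K else 0)) :=
          Summable.tsum_le_tsum (hpt s (by linarith)) (summable_sum hl) (hsumm.add hb)
      _ = _ := by
          rw [Summable.tsum_add hsumm hb, hbsum]
          rfl
  -- Chebotarev, as eventual lower bounds
  have hev : ∀ δ : ℝ, 0 < δ → ∀ t : ℂ, ∀ᶠ s in nhdsWithin 1 (Set.Ioi (1 : ℝ)),
      ((Nat.card (Cl t) : ℝ) / (Nat.card ρ.range : ℝ) - δ) * Real.log (1 / (s - 1)) ≤
        ds_primeSum (X t) (fun _ => 1) s := by
    intro δ hδ t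
    obtain ⟨s₀, hs₀, h⟩ := hS t δ hδ
    have hmem : Set.Ioo 1 s₀ ∈ nhdsWithin 1 (Set.Ioi (1 : ℝ)) := Ioo_mem_nhdsGT hs₀
    filter_upwards [hmem] with s hs
    have h1 := h s hs.1 hs.2
    rw [abs_le] at h1
    have h2 := h1.1
    simp only [X]
    linarith
  -- the mean of `|tr|²`
  have hcardCl : ∀ t : ℂ, Nat.card (Cl t) =
      (Finset.univ.filter (fun g : ρ.range => tr g = t)).card := by
    intro t
    rw [Nat.card_eq_fintype_card]
    exact Fintype.card_subtype _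
  have hmean : 2 * (Nat.card ρ.range : ℝ) ≤ ∑ t ∈ Tr, ‖t‖ ^ 2 * (Nat.card (Cl t) : ℝ) := by
    rw [Nat.card_eq_fintype_card]
    refine hsum.trans (le_of_eq ?_)
    rw [← Finset.sum_fiberwise_of_maps_to (s := Finset.univ) (t := Tr) (g := tr)
      (fun g _ => Finset.mem_image_of_mem tr (Finset.mem_univ g))]
    refine Finset.sum_congr rfl fun t _ => ?_
    rw [hcardCl t, Finset.sum_congr rfl (fun g hg => by rw [(Finset.mem_filter.1 hg).2])]
    rw [Finset.sum_const, nsmul_eq_mul, mul_comm]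
  -- conclusion
  have hcardpos : (0 : ℝ) < Nat.card ρ.range := by exact_mod_cast Nat.card_pos
  set δ : ℝ := 1 / (2 * (K + 1)) with hδ
  have hδpos : 0 < δ := by positivity
  have hδK : δ * K ≤ 1 / 2 := by
    rw [hδ, div_mul_eq_mul_div, one_mul, div_le_div_iff₀ (by positivity) (by norm_num)]
    linarith
  have hall := (Filter.eventually_all_finset Tr).2 (fun t _ => hev δ hδpos t)
  have h12 : ∀ᶠ s in nhdsWithin 1 (Set.Ioi (1 : ℝ)), s ∈ Set.Ioo (1 : ℝ) 2 :=
    Ioo_mem_nhdsGT (by norm_num)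
  have hlarge := dsg_irr_tendsto_log.eventually_ge_atTop (2 * (C + K * F.card) + 1)
  obtain ⟨s, ⟨hs_all, hs12⟩, hsL⟩ := ((hall.and h12).and hlarge).exists
  set L : ℝ := Real.log (1 / (s - 1)) with hL
  have hL0 : 0 ≤ L := by
    apply Real.log_nonneg
    exact one_le_one_div (by linarith [hs12.1]) (by linarith [hs12.2])
  have hlow : ∑ t ∈ Tr, ‖t‖ ^ 2 * (((Nat.card (Cl t) : ℝ) / (Nat.card ρ.range : ℝ) - δ) * L) ≤
      ∑ t ∈ Tr, ‖t‖ ^ 2 * ds_primeSum (X t) (fun _ => 1) s :=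
    Finset.sum_le_sum fun t ht => mul_le_mul_of_nonneg_left (hs_all t ht) (by positivity)
  have heq : ∑ t ∈ Tr, ‖t‖ ^ 2 * (((Nat.card (Cl t) : ℝ) / (Nat.card ρ.range : ℝ) - δ) * L)
      = ((∑ t ∈ Tr, ‖t‖ ^ 2 * (Nat.card (Cl t) : ℝ)) / (Nat.card ρ.range : ℝ) - δ * K) * L := by
    rw [hK, Finset.sum_div, Finset.mul_sum, ← Finset.sum_sub_distrib, Finset.sum_mul]
    refine Finset.sum_congr rfl fun t _ => ?_
    ring
  have h2 : 2 ≤ (∑ t ∈ Tr, ‖t‖ ^ 2 * (Nat.card (Cl t) : ℝ)) / (Nat.card ρ.range : ℝ) := by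
    rw [le_div_iff₀ hcardpos]
    exact hmean
  have hup := hkey s hs12.1 hs12.2.le
  have hR := (hC' s hs12.1 hs12.2.le).2
  have h3 : (2 - δ * K) * L ≤ L + C + K * F.card := by
    calc (2 - δ * K) * L
        ≤ ((∑ t ∈ Tr, ‖t‖ ^ 2 * (Nat.card (Cl t) : ℝ)) / (Nat.card ρ.range : ℝ) - δ * K) * L := by
          apply mul_le_mul_of_nonneg_right _ hL0
          linarith
      _ ≤ ∑ t ∈ Tr, ‖t‖ ^ 2 * ds_primeSum (X t) (fun _ => 1) s := by
          rw [← heq]
          exact hlow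
      _ ≤ L + C + K * F.card := by linarith
  have h4 : 0 ≤ (1 / 2 - δ * K) * L := mul_nonneg (sub_nonneg.2 hδK) hL0
  have hsL' : 2 * (C + K * F.card) + 1 ≤ L := hsL
  nlinarith

/-- Bridge (copy of helper8's `dsa_primeSum_of_finset`): if every finite sum over primes in `X` of
the nonnegative terms `w p / p ^ s` is bounded by `B`, then the prime series is summable and
`ds_primeSum X w s ≤ B`. -/
theorem dsg_irr_primeSum_of_finset (X : Set ℕ) (w : ℕ → ℝ) (hw : ∀ n, 0 ≤ w n) (s B : ℝ)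
    (h : ∀ P : Finset ℕ, (∀ p ∈ P, p.Prime ∧ p ∈ X) → ∑ p ∈ P, w p / (p : ℝ) ^ s ≤ B) :
    Summable (fun p : Nat.Primes => X.indicator (fun n : ℕ => w n * (n : ℝ) ^ (-s)) (p : ℕ)) ∧
      ds_primeSum X w s ≤ B := by
  classical
  have hnn : ∀ p : Nat.Primes,
      0 ≤ X.indicator (fun n : ℕ => w n * (n : ℝ) ^ (-s)) (p : ℕ) := fun p =>
    Set.indicator_nonneg (fun n _ => mul_nonneg (hw n) (Real.rpow_nonneg (Nat.cast_nonneg n) _)) _
  have hpart : ∀ T : Finset Nat.Primes,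
      ∑ p ∈ T, X.indicator (fun n : ℕ => w n * (n : ℝ) ^ (-s)) (p : ℕ) ≤ B := by
    intro T
    have hP : ∀ p ∈ (T.filter fun p : Nat.Primes => (p : ℕ) ∈ X).image
        (fun p : Nat.Primes => (p : ℕ)), p.Prime ∧ p ∈ X := by
      intro p hp
      rw [Finset.mem_image] at hp
      obtain ⟨q, hq, rfl⟩ := hp
      exact ⟨q.2, (Finset.mem_filter.mp hq).2⟩
    have h1 := h _ hP
    have h2 : ∑ p ∈ T, X.indicator (fun n : ℕ => w n * (n : ℝ) ^ (-s)) (p : ℕ) =
        ∑ p ∈ (T.filter fun p : Nat.Primes => (p : ℕ) ∈ X).image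
          (fun p : Nat.Primes => (p : ℕ)), w p / (p : ℝ) ^ s := by
      rw [Finset.sum_image (f := fun p : ℕ => w p / (p : ℝ) ^ s)
        (g := fun p : Nat.Primes => (p : ℕ)) (fun a _ b _ hab => Subtype.ext hab),
        Finset.sum_filter]
      refine Finset.sum_congr rfl fun p _ => ?_
      by_cases hpX : (p : ℕ) ∈ X
      · rw [Set.indicator_of_mem hpX, if_pos hpX, Real.rpow_neg (Nat.cast_nonneg _),
          div_eq_mul_inv]
      · rw [Set.indicator_of_notMem hpX, if_neg hpX]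
    rw [h2]
    exact h1
  have hsum : Summable
      (fun p : Nat.Primes => X.indicator (fun n : ℕ => w n * (n : ℝ) ^ (-s)) (p : ℕ)) :=
    summable_of_sum_le hnn hpart
  exact ⟨hsum, hsum.tsum_le_of_sum_le hpart⟩

/-- **[G-IRR]** (shape of the DS-G architecture v3): a representation `ρ : Γℚ → GL₂(ℂ)` of finite
level with `tr ρ(Frob_p) = a p` for `p ∤ N`, where the `a p` satisfy the Rankin bound in
finite-subset form, is irreducible. -/
theorem dsg_irr (hC : dsg_Chebotarev) (N : ℕ) [NeZero N] (a : ℕ → ℂ)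
    (hA : ∃ C : ℝ, ∀ s : ℝ, 1 < s → s ≤ 2 → ∀ P : Finset ℕ, (∀ p ∈ P, p.Prime ∧ ¬ p ∣ N) →
      ∑ p ∈ P, ‖a p‖ ^ 2 / (p : ℝ) ^ s ≤ Real.log (1 / (s - 1)) + C)
    (ρ : ds_G →* GL (Fin 2) ℂ) (hfin : GaloisFactorsThroughFiniteLevel ρ)
    (hρ : ∀ p : ℕ, p.Prime → ¬ p ∣ N → ∀ σ : ds_G, ds_FrobAt σ p →
      ((ρ σ : GL (Fin 2) ℂ) : Matrix (Fin 2) (Fin 2) ℂ).trace = a p) :
    (Deformation.matrixRepresentation ρ).IsIrreducible := by
  obtain ⟨C, hC'⟩ := hA
  refine dsg_irr_core hC N a ⟨C, fun s hs hs2 => ?_⟩ ρ hfin hρ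
  exact dsg_irr_primeSum_of_finset {p | ¬ p ∣ N} (fun p => ‖a p‖ ^ 2)
    (fun n => by positivity) s _ (fun P hP => hC' s hs hs2 P hP)

/-- [G-IRR] with the `ds_UnramFrob` hypothesis and the `tsum` form of the Rankin bound. -/
theorem dsg_irr_abstract (hC : dsg_Chebotarev) (N : ℕ) [NeZero N] (a e : ℕ → ℂ)
    (hA : ∃ C : ℝ, ∀ s : ℝ, 1 < s → s ≤ 2 →
      Summable (fun p : Nat.Primes => ({p : ℕ | ¬ p ∣ N}).indicator
        (fun n : ℕ => ‖a n‖ ^ 2 * (n : ℝ) ^ (-s)) (p : ℕ)) ∧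
      ds_primeSum {p | ¬ p ∣ N} (fun p => ‖a p‖ ^ 2) s ≤ Real.log (1 / (s - 1)) + C)
    (ρ : ds_G →* GL (Fin 2) ℂ) (hfin : GaloisFactorsThroughFiniteLevel ρ)
    (hρ : ∀ p : ℕ, p.Prime → ¬ p ∣ N → ds_UnramFrob ρ p (a p) (e p)) :
    (Deformation.matrixRepresentation ρ).IsIrreducible := by
  refine dsg_irr_core hC N a hA ρ hfin ?_
  rintro p hp hpN σ ⟨A, hA', hσ⟩
  exact ((hρ p hp hpN A hA').2 σ hσ).1

/-- [G-IRR] for a weight-one form: `ds_UnramFrob` hypothesis as in `ds_Conclusion`, Rankin bound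
in finite-subset form (the conclusion of `dsa_main` / `ds_SeamAfin`). -/
theorem dsg_irr_form (hC : dsg_Chebotarev) {N : ℕ} [NeZero N] (ε : DirichletCharacter ℂ N)
    (f : CuspForm (Gamma1 N) 1)
    (hA : ∃ C : ℝ, ∀ s : ℝ, 1 < s → s ≤ 2 → ∀ P : Finset ℕ, (∀ p ∈ P, p.Prime ∧ ¬ p ∣ N) →
      ∑ p ∈ P, ‖qCoeff f p‖ ^ 2 / (p : ℝ) ^ s ≤ Real.log (1 / (s - 1)) + C)
    (ρ : ds_G →* GL (Fin 2) ℂ) (hfin : GaloisFactorsThroughFiniteLevel ρ)
    (hρ : ∀ p : ℕ, p.Prime → ¬ p ∣ N →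
      ds_UnramFrob ρ p (qCoeff f p) (ε (p : ZMod N))) :
    (Deformation.matrixRepresentation ρ).IsIrreducible := by
  refine dsg_irr hC N (fun n => qCoeff f n) hA ρ hfin ?_
  rintro p hp hpN σ ⟨A, hA', hσ⟩
  exact ((hρ p hp hpN A hA').2 σ hσ).1

end Fermat.Agent.DS
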