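/-
Project DS (S48, Deligne–Serre), cell DS-G, leaf [G-ISO]: two two-dimensional representations of
`Γℚ` of finite level whose Frobenius elements have the same traces and determinants at all primes
outside a finite set `S` have the same trace and determinant EVERYWHERE.

Let `L` be the normal closure of the compositum of the two levels.  By the weak Chebotarev theorem
`Fermat.Agent.WC.wc_main`, every `σ ∈ Γℚ` agrees on `L` with a power `φ ^ k` of a Frobenius element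
`φ` at a prime `ℓ ∉ S`; so `r σ = (r φ) ^ k`, `r' σ = (r' φ) ^ k`, and the trace of the `k`-th power
of a `2 × 2` matrix is the Lucas polynomial `dsg_luc (tr) (det) k` in its trace and determinant.

Prefix `dsg_iso`.
-/
import Mathlib
import Fermat.Agent.DS.Defs
import Fermat.Agent.DS.Group.Basic
import Fermat.Agent.WC.Final

set_option autoImplicit false

noncomputable section

open scoped MatrixGroups

namespace Fermat.Agent.DS

/-- If `ρ` has level `L₀ ≤ L` and `τ`, `σ` agree on `L`, then `ρ τ = ρ σ`. -/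
theorem dsg_iso_eq_of_agree {M : Type} [Group M] (ρ : ds_G →* M)
    (L₀ L : IntermediateField ℚ ds_Qb) (hle : L₀ ≤ L)
    (hker : ∀ σ : ds_G, (∀ x ∈ L₀, σ x = x) → ρ σ = 1)
    (τ σ : ds_G) (h : ∀ x ∈ L, τ x = σ x) : ρ τ = ρ σ := by
  have h1 : ρ (σ⁻¹ * τ) = 1 := by
    apply hker
    intro x hx
    rw [AlgEquiv.mul_apply, h x (hle hx)]
    exact σ.symm_apply_apply x
  rw [map_mul, map_inv, inv_mul_eq_one] at h1
  exact h1.symm

/-- **[G-ISO]**, general coefficient ring. -/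
theorem dsg_iso_gen {k : Type} [CommRing k] (r r' : ds_G →* GL (Fin 2) k)
    (hr : GaloisFactorsThroughFiniteLevel r) (hr' : GaloisFactorsThroughFiniteLevel r')
    (S : Finset ℕ) (a d : ℕ → k)
    (h : ∀ p : ℕ, p.Prime → p ∉ S → ∀ σ : ds_G, ds_FrobAt σ p →
      ((r σ : GL (Fin 2) k) : Matrix (Fin 2) (Fin 2) k).trace = a p ∧
      ((r σ : GL (Fin 2) k) : Matrix (Fin 2) (Fin 2) k).det = d p)
    (h' : ∀ p : ℕ, p.Prime → p ∉ S → ∀ σ : ds_G, ds_FrobAt σ p →
      ((r' σ : GL (Fin 2) k) : Matrix (Fin 2) (Fin 2) k).trace = a p ∧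
      ((r' σ : GL (Fin 2) k) : Matrix (Fin 2) (Fin 2) k).det = d p)
    (σ : ds_G) :
    ((r σ : GL (Fin 2) k) : Matrix (Fin 2) (Fin 2) k).trace =
        ((r' σ : GL (Fin 2) k) : Matrix (Fin 2) (Fin 2) k).trace ∧
      ((r σ : GL (Fin 2) k) : Matrix (Fin 2) (Fin 2) k).det =
        ((r' σ : GL (Fin 2) k) : Matrix (Fin 2) (Fin 2) k).det := by
  obtain ⟨L₁, hL₁, hk₁⟩ := hr
  obtain ⟨L₂, hL₂, hk₂⟩ := hr'
  have := hL₁
  have := hL₂
  have hnQ : Normal ℚ ds_Qb := by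
    have h1 : Algebra.IsAlgebraic ℚ ds_Qb := AlgebraicClosure.isAlgebraic ℚ
    have h2 : IsAlgClosure ℚ ds_Qb := ⟨inferInstance, inferInstance⟩
    exact IsAlgClosure.normal ℚ ds_Qb
  let K : IntermediateField ℚ ds_Qb := L₁ ⊔ L₂
  have hK : FiniteDimensional ℚ K := IntermediateField.finiteDimensional_sup L₁ L₂
  let L : IntermediateField ℚ ds_Qb := IntermediateField.normalClosure ℚ K ds_Qb
  have hLfin : FiniteDimensional ℚ L := normalClosure.is_finiteDimensional ℚ K ds_Qb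
  have hLnorm : Normal ℚ L := normalClosure.normal ℚ K ds_Qb
  have hKL : K ≤ L := IntermediateField.le_normalClosure K
  have h1L : L₁ ≤ L := le_trans le_sup_left hKL
  have h2L : L₂ ≤ L := le_trans le_sup_right hKL
  obtain ⟨ℓ, A, φ, n, hℓ, hℓS, hA, hφ, hagree⟩ := Fermat.Agent.WC.wc_main L S σ
  have hF : ds_FrobAt φ ℓ := ⟨A, hA, hφ⟩
  have e1 : r σ = r φ ^ n := by
    rw [← map_pow]
    exact (dsg_iso_eq_of_agree r L₁ L h1L hk₁ (φ ^ n) σ hagree).symm
  have e2 : r' σ = r' φ ^ n := by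
    rw [← map_pow]
    exact (dsg_iso_eq_of_agree r' L₂ L h2L hk₂ (φ ^ n) σ hagree).symm
  obtain ⟨t1, d1⟩ := h ℓ hℓ hℓS φ hF
  obtain ⟨t2, d2⟩ := h' ℓ hℓ hℓS φ hF
  rw [e1, e2]
  simp only [Units.val_pow_eq_pow_val]
  refine ⟨?_, ?_⟩
  · rw [dsg_luc_trace_pow, dsg_luc_trace_pow, t1, d1, t2, d2]
  · rw [Matrix.det_pow, Matrix.det_pow, d1, d2]

/-- **[G-ISO]**: two complex two-dimensional representations of `Γℚ` of finite level whose
Frobenius traces and determinants agree outside a finite set of primes have the same trace and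
determinant everywhere. -/
theorem dsg_iso (r r' : ds_G →* GL (Fin 2) ℂ)
    (hr : GaloisFactorsThroughFiniteLevel r) (hr' : GaloisFactorsThroughFiniteLevel r')
    (S : Finset ℕ) (a d : ℕ → ℂ)
    (h : ∀ p : ℕ, p.Prime → p ∉ S → ∀ σ : ds_G, ds_FrobAt σ p →
      ((r σ : GL (Fin 2) ℂ) : Matrix (Fin 2) (Fin 2) ℂ).trace = a p ∧
      ((r σ : GL (Fin 2) ℂ) : Matrix (Fin 2) (Fin 2) ℂ).det = d p)
    (h' : ∀ p : ℕ, p.Prime → p ∉ S → ∀ σ : ds_G, ds_FrobAt σ p →
      ((r' σ : GL (Fin 2) ℂ) : Matrix (Fin 2) (Fin 2) ℂ).trace = a p ∧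
      ((r' σ : GL (Fin 2) ℂ) : Matrix (Fin 2) (Fin 2) ℂ).det = d p)
    (σ : ds_G) :
    ((r σ : GL (Fin 2) ℂ) : Matrix (Fin 2) (Fin 2) ℂ).trace =
        ((r' σ : GL (Fin 2) ℂ) : Matrix (Fin 2) (Fin 2) ℂ).trace ∧
      ((r σ : GL (Fin 2) ℂ) : Matrix (Fin 2) (Fin 2) ℂ).det =
        ((r' σ : GL (Fin 2) ℂ) : Matrix (Fin 2) (Fin 2) ℂ).det :=
  dsg_iso_gen r r' hr hr' S a d h h' σ

end Fermat.Agent.DS
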