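/-
[G-RED] (DS-G leaf, helper9's architecture #1617 / v3 #1674): reduction modulo a large prime is
injective on a finite set of algebraic numbers.  Prefix `dsg_red_`.

* `dsg_red_single`, `dsg_red_finite`: the `φ`-form of #1674 (places are ring homomorphisms
  `φ : integralClosure ℤ ℂ →+* k`, `k` of characteristic `ℓ`), verbatim (`integralClosure ℤ ℂ` is
  the abbreviation `ds_Zb` of `DS/Seams.lean`, `AlgebraicClosure ℚ` is `ds_Qb` of `DS/Defs.lean`;
  this file deliberately imports neither, so that edits of the seams cannot break it);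
* `dsg_red_phi_single`, `dsg_red_phi_finite`, `dsg_red_phi_finite'`: the same over
  `integralClosure ℤ F` for any field `F`, any ring `k` of characteristic `ℓ` in any universe;
* `dsg_red_single_val`, `dsg_red_finite_val` (+ `_gen`): the valuation-subring form of #1617.
-/
import Mathlib
import Fermat.Prelude.Def_FLTPrelim_Ramification

set_option autoImplicit false

namespace Fermat.Agent.DS

section General

variable {K : Type*} [Field K]

/-- Elements integral over `ℤ` lie in every valuation subring. -/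
theorem dsg_red_mem_of_isIntegral (A : ValuationSubring K) {x : K} (hx : IsIntegral ℤ x) :
    x ∈ A := by
  have h1 : IsIntegral A x := hx.tower_top
  obtain ⟨y, hy⟩ := IsIntegrallyClosed.isIntegral_iff.mp h1
  rw [← hy]
  exact y.2

/-- A nonzero rational integer `D` with `|D| < ℓ` is a unit in every valuation ring over `ℓ`. -/
theorem dsg_red_int_not_mem_nonunits {ℓ : ℕ} (hℓ : ℓ.Prime) (A : ValuationSubring K)
    (hA : A.LiesOverPrime ℓ) {D : ℤ} (hD : D ≠ 0) (hDℓ : D.natAbs < ℓ) :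
    (D : K) ∉ A.nonunits := by
  intro hmem
  have hcop : IsCoprime D (ℓ : ℤ) := by
    rw [Int.isCoprime_iff_gcd_eq_one, Int.gcd_comm]
    have h1 : Nat.Coprime ℓ D.natAbs := by
      rw [Nat.Prime.coprime_iff_not_dvd hℓ]
      intro hdvd
      have := Nat.le_of_dvd (Int.natAbs_pos.mpr hD) hdvd
      omega
    simpa [Int.gcd] using h1
  obtain ⟨a, b, hab⟩ := hcop
  have hℓmem : ((ℓ : ℕ) : K) ∈ A.nonunits := hA
  rw [ValuationSubring.mem_nonunits_iff] at hmem hℓmem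
  have ha : A.valuation (a : K) ≤ 1 := (A.valuation_le_one_iff _).mpr (intCast_mem A a)
  have hb : A.valuation (b : K) ≤ 1 := (A.valuation_le_one_iff _).mpr (intCast_mem A b)
  have h1 : A.valuation ((a : K) * (D : K)) < 1 := by
    rw [map_mul]
    exact mul_lt_one_of_nonneg_of_lt_one_right ha zero_le hmem
  have h2 : A.valuation ((b : K) * ((ℓ : ℕ) : K)) < 1 := by
    rw [map_mul]
    exact mul_lt_one_of_nonneg_of_lt_one_right hb zero_le hℓmem
  have h3 := Valuation.map_add_lt _ h1 h2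
  have h4 : (a : K) * (D : K) + (b : K) * ((ℓ : ℕ) : K) = 1 := by
    have := congrArg (fun n : ℤ => (n : K)) hab
    simpa using this
  rw [h4, map_one] at h3
  exact lt_irrefl _ h3

/-- **One element**: a nonzero algebraic number is a unit at every valuation ring over a large
prime that contains it. -/
theorem dsg_red_single_val_gen (z : K) (hz : z ≠ 0) (halg : IsAlgebraic ℤ z) :
    ∃ B : ℕ, ∀ ℓ : ℕ, ℓ.Prime → B < ℓ → ∀ A : ValuationSubring K, A.LiesOverPrime ℓ →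
      z ∉ A.nonunits := by
  obtain ⟨D, hD, hint⟩ := halg.inv.exists_integral_multiple
  refine ⟨D.natAbs, fun ℓ hℓ hB A hA hzmem => ?_⟩
  apply dsg_red_int_not_mem_nonunits hℓ A hA hD hB
  have hw : D • z⁻¹ ∈ A := dsg_red_mem_of_isIntegral A hint
  have hDz : (D : K) = z * (D • z⁻¹) := by
    rw [zsmul_eq_mul]
    field_simp
  rw [ValuationSubring.mem_nonunits_iff] at hzmem ⊢
  rw [hDz, map_mul]
  exact mul_lt_one_of_nonneg_of_lt_one_left zero_le hzmem ((A.valuation_le_one_iff _).mpr hw)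

/-- **Finite sets**: reduction modulo a large prime is injective on a finite set of algebraic
numbers. -/
theorem dsg_red_finite_val_gen (S : Finset K) (halg : ∀ x ∈ S, IsAlgebraic ℤ x) :
    ∃ B : ℕ, ∀ ℓ : ℕ, ℓ.Prime → B < ℓ → ∀ A : ValuationSubring K, A.LiesOverPrime ℓ →
      ∀ x ∈ S, ∀ y ∈ S, x - y ∈ A.nonunits → x = y := by
  classical
  have hex : ∀ p : K × K, ∃ B : ℕ, p.1 ∈ S → p.2 ∈ S → p.1 ≠ p.2 →
      ∀ ℓ : ℕ, ℓ.Prime → B < ℓ → ∀ A : ValuationSubring K, A.LiesOverPrime ℓ →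
        p.1 - p.2 ∉ A.nonunits := by
    intro p
    by_cases h : p.1 ∈ S ∧ p.2 ∈ S ∧ p.1 ≠ p.2
    · obtain ⟨B, hB⟩ := dsg_red_single_val_gen (p.1 - p.2) (sub_ne_zero.mpr h.2.2)
        ((halg _ h.1).sub (halg _ h.2.1))
      exact ⟨B, fun _ _ _ => hB⟩
    · exact ⟨0, fun h1 h2 h3 => absurd ⟨h1, h2, h3⟩ h⟩
  choose Bf hBf using hex
  refine ⟨(S ×ˢ S).sup Bf, fun ℓ hℓ hB A hA x hx y hy hxy => ?_⟩
  by_contra hne
  have hle : Bf (x, y) ≤ (S ×ˢ S).sup Bf :=
    Finset.le_sup (f := Bf) (Finset.mk_mem_product hx hy)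
  exact hBf (x, y) hx hy hne ℓ hℓ (lt_of_le_of_lt hle hB) A hA hxy

end General

section Phi

/-! ### The `φ`-form (vocabulary of `DS/Seams.lean` v2): places are ring homomorphisms
`φ : integralClosure ℤ F →+* k` with `k` of characteristic `ℓ`. -/

variable {F : Type*} [Field F]

/-- A nonzero algebraic integer divides a nonzero rational integer in `ℤ̄`. -/
theorem dsg_red_exists_mul_eq_int (z : integralClosure ℤ F) (hz : z ≠ 0) :
    ∃ (w : integralClosure ℤ F) (D : ℤ), D ≠ 0 ∧ z * w = (D : integralClosure ℤ F) := by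
  have hz' : (z : F) ≠ 0 := fun h => hz (Subtype.ext h)
  have halg : IsAlgebraic ℤ (z : F) := z.2.isAlgebraic
  obtain ⟨D, hD, hint⟩ := halg.inv.exists_integral_multiple
  refine ⟨⟨D • (z : F)⁻¹, hint⟩, D, hD, Subtype.ext ?_⟩
  simp only [MulMemClass.coe_mul, zsmul_eq_mul]
  rw [show (((D : integralClosure ℤ F) : integralClosure ℤ F) : F) = (D : F) by simp]
  field_simp

/-- **One element, `φ`-form**: a nonzero algebraic integer has nonzero reduction at every place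
above a large prime. -/
theorem dsg_red_phi_single (z : integralClosure ℤ F) (hz : z ≠ 0) :
    ∃ B : ℕ, ∀ ℓ : ℕ, B < ℓ → ∀ (k : Type*) [Ring k] [CharP k ℓ]
      (φ : integralClosure ℤ F →+* k), φ z ≠ 0 := by
  obtain ⟨w, D, hD, hzw⟩ := dsg_red_exists_mul_eq_int z hz
  refine ⟨D.natAbs, fun ℓ hB k _ _ φ hφ => ?_⟩
  have h1 : φ (z * w) = 0 := by rw [map_mul, hφ, zero_mul]
  rw [hzw, map_intCast, CharP.intCast_eq_zero_iff k ℓ] at h1
  have h2 : ℓ ∣ D.natAbs := Int.natCast_dvd.mp h1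
  have h3 := Nat.le_of_dvd (Int.natAbs_pos.mpr hD) h2
  omega

/-- **Finite sets, `φ`-form**: reduction at a place above a large prime is injective on a finite
set of algebraic integers. -/
theorem dsg_red_phi_finite (S : Finset (integralClosure ℤ F)) :
    ∃ B : ℕ, ∀ ℓ : ℕ, B < ℓ → ∀ (k : Type*) [Ring k] [CharP k ℓ]
      (φ : integralClosure ℤ F →+* k), ∀ x ∈ S, ∀ y ∈ S, φ x = φ y → x = y := by
  classical
  have hex : ∀ p : integralClosure ℤ F × integralClosure ℤ F, ∃ B : ℕ, p.1 ≠ p.2 →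
      ∀ ℓ : ℕ, B < ℓ → ∀ (k : Type _) [Ring k] [CharP k ℓ]
        (φ : integralClosure ℤ F →+* k), φ (p.1 - p.2) ≠ 0 := by
    intro p
    by_cases h : p.1 ≠ p.2
    · obtain ⟨B, hB⟩ := dsg_red_phi_single (p.1 - p.2) (sub_ne_zero.mpr h)
      exact ⟨B, fun _ => hB⟩
    · exact ⟨0, fun h1 => absurd h1 h⟩
  choose Bf hBf using hex
  refine ⟨(S ×ˢ S).sup Bf, fun ℓ hB k _ _ φ x hx y hy hxy => ?_⟩
  by_contra hne
  have hle : Bf (x, y) ≤ (S ×ˢ S).sup Bf :=
    Finset.le_sup (f := Bf) (Finset.mk_mem_product hx hy)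
  exact hBf (x, y) hne ℓ (lt_of_le_of_lt hle hB) k φ (by rw [map_sub, hxy, sub_self])

/-- **Finite sets of integral elements of `F`, `φ`-form.** -/
theorem dsg_red_phi_finite' (S : Finset F) :
    ∃ B : ℕ, ∀ ℓ : ℕ, B < ℓ → ∀ (k : Type*) [Ring k] [CharP k ℓ]
      (φ : integralClosure ℤ F →+* k), ∀ x y : integralClosure ℤ F, (x : F) ∈ S → (y : F) ∈ S →
        φ x = φ y → x = y := by
  classical
  obtain ⟨B, hB⟩ := dsg_red_phi_finite (S.subtype (· ∈ integralClosure ℤ F))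
  refine ⟨B, fun ℓ hlt k _ _ φ x y hx hy hxy => hB ℓ hlt k φ x ?_ y ?_ hxy⟩
  · exact Finset.mem_subtype.mpr hx
  · exact Finset.mem_subtype.mpr hy

end Phi

/-- every element of `Q̄` is algebraic over `ℤ`. -/
theorem dsg_red_isAlgebraic (z : AlgebraicClosure ℚ) : IsAlgebraic ℤ z := by
  have h : IsAlgebraic ℚ z := (AlgebraicClosure.isAlgebraic ℚ).isAlgebraic z
  exact (IsFractionRing.isAlgebraic_iff ℤ ℚ (AlgebraicClosure ℚ)).mpr h

/-- **[G-RED], one element**, valuation-subring form (#1617 verbatim). -/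
theorem dsg_red_single_val (z : AlgebraicClosure ℚ) (hz : z ≠ 0) :
    ∃ B : ℕ, ∀ ℓ : ℕ, ℓ.Prime → B < ℓ → ∀ A : ValuationSubring (AlgebraicClosure ℚ),
      A.LiesOverPrime ℓ → z ∈ A → z ∉ A.nonunits := by
  obtain ⟨B, hB⟩ := dsg_red_single_val_gen z hz (dsg_red_isAlgebraic z)
  exact ⟨B, fun ℓ hℓ hlt A hA _ => hB ℓ hℓ hlt A hA⟩

/-- **[G-RED], finite sets**, valuation-subring form (#1617 verbatim). -/
theorem dsg_red_finite_val (S : Finset (AlgebraicClosure ℚ)) :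
    ∃ B : ℕ, ∀ ℓ : ℕ, ℓ.Prime → B < ℓ → ∀ A : ValuationSubring (AlgebraicClosure ℚ),
      A.LiesOverPrime ℓ → ∀ x ∈ S, ∀ y ∈ S, x ∈ A → y ∈ A → x - y ∈ A.nonunits → x = y := by
  obtain ⟨B, hB⟩ := dsg_red_finite_val_gen S (fun x _ => dsg_red_isAlgebraic x)
  exact ⟨B, fun ℓ hℓ hlt A hA x hx y hy _ _ hxy => hB ℓ hℓ hlt A hA x hx y hy hxy⟩

/-- **[G-RED], one element** (#1674 verbatim, `φ`-form). -/
theorem dsg_red_single (z : integralClosure ℤ ℂ) (hz : z ≠ 0) :
    ∃ B : ℕ, ∀ ℓ : ℕ, ℓ.Prime → B < ℓ → ∀ (k : Type) [Field k] [CharP k ℓ]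
      (φ : integralClosure ℤ ℂ →+* k), φ z ≠ 0 := by
  obtain ⟨B, hB⟩ := dsg_red_phi_single z hz
  exact ⟨B, fun ℓ _ hlt k _ _ φ => hB ℓ hlt k φ⟩

/-- **[G-RED], finite sets** (#1674 verbatim, `φ`-form). -/
theorem dsg_red_finite (S : Finset (integralClosure ℤ ℂ)) :
    ∃ B : ℕ, ∀ ℓ : ℕ, ℓ.Prime → B < ℓ → ∀ (k : Type) [Field k] [CharP k ℓ]
      (φ : integralClosure ℤ ℂ →+* k), ∀ x ∈ S, ∀ y ∈ S, φ x = φ y → x = y := by
  obtain ⟨B, hB⟩ := dsg_red_phi_finite S
  exact ⟨B, fun ℓ _ hlt k _ _ φ => hB ℓ hlt k φ⟩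

end Fermat.Agent.DS
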