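/-
Project DS (S48, Deligne–Serre), cell DS-G: THE FINAL GROUP-THEORETIC ASSEMBLY (prefix `dsg_mn_`,
final theorems `dsg_main_abstract`, `dsg_main`).

Inputs (the three seams of `DS/Group/Density.lean` + Rankin + integrality):
* `dsg_Chebotarev`  (C) Chebotarev's density theorem over `ℚ`;
* `dsg_FewTraces`   (A) the `a_p` take few values up to density `η`;
* `dsg_ModL`        (T) semisimple mod-`ℓ` representations for all large `ℓ` and all places `φ`;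
* the Rankin bound `∑_{p ∈ P} |a_p|² p^{-s} ≤ log (1/(s-1)) + C` and `a_p ∈ ℤ̄`.
Output: `ds_Conclusion N ε f` (the conclusion of S48).

Steps (Deligne–Serre §8):
1. `dsg_mn_bounded`  for `ℓ` large the image `G_ℓ` of `ρ_ℓ` has order prime to `ℓ` and bounded
                     independently of `ℓ` (`dsg_dens` + `dsg_bd_main`);
2. `dsg_mn_lifted`   lift `G_ℓ ⊆ GL₂(k)` to `GL₂(ℂ)` at the special place of `dsg_lift_phi`; all
                     elements have order dividing a fixed `n`;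
3. `dsg_mn_ru`       [G-RU] `V_n(a_p, ε(p)) = 2`: both roots of `X² - a_p X + ε(p)` are `n`-th roots
                     of unity (`dsg_red_single`);
4. `dsg_mn_exact`    [G-EXACT] for `ℓ` large the lift `r_ℓ` has `tr r_ℓ(Frob_p) = a_p`,
                     `det r_ℓ(Frob_p) = ε(p)` exactly, for all `p ∤ N ℓ` (`dsg_red_finite` on the finite
                     set of sums of two `n`-th roots of unity);
5. `dsg_main_abstract` two large primes `ℓ ≠ ℓ'`: `r_ℓ` and `r_ℓ'` have the same traces and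
                     determinants (`dsg_iso`), an element of finite order and trace `2` is `1`
                     (`dsg_ba_eq_one_of_trace`), so `r_ℓ` is unramified at `ℓ` with the right
                     Frobenius there; irreducibility by `dsg_irr`.
-/
import Mathlib
import Fermat.Agent.DS.Group.Density
import Fermat.Agent.DS.Group.Bound
import Fermat.Agent.S54.Frobenius
import Fermat.Agent.DS.Group.Basic
import Fermat.Agent.DS.Group.LiftPhi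
import Fermat.Agent.DS.Group.Iso
import Fermat.Agent.DS.Group.Irr
import Fermat.Agent.DS.Group.Red
import Fermat.Agent.DS.Group.Dens

set_option autoImplicit false
set_option linter.style.haveILetI false
set_option linter.unusedSectionVars false

open CongruenceSubgroup ModularFormClass Matrix
open scoped MatrixGroups ModularForm

noncomputable section

namespace Fermat.Agent.DS


/-- Step 2: the mod-`ℓ` representations have bounded image of order prime to `ℓ`. -/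
theorem dsg_mn_bounded (hC : dsg_Chebotarev) (N : ℕ) [NeZero N] (a e : ℕ → ℂ)
    (E : Finset ℂ) (hE : ∀ p : ℕ, p.Prime → ¬ p ∣ N → e p ∈ E)
    (he : ∀ p : ℕ, p.Prime → ¬ p ∣ N → IsIntegral ℤ (e p))
    (hFT : dsg_FewTraces N a) (hT : dsg_ModL N a e) :
    ∃ ℓ₁ A₀ : ℕ, ∀ (ℓ : ℕ) [Fact ℓ.Prime], ℓ₁ ≤ ℓ →
      ∀ (k : Type) [Field k] [IsAlgClosed k] [CharP k ℓ] (φ : ds_Zb →+* k),
        ∃ ρ : ds_G →* GL (Fin 2) k, GaloisFactorsThroughFiniteLevel ρ ∧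
          ¬ ℓ ∣ Nat.card ρ.range ∧ Nat.card ρ.range ≤ A₀ ∧
          ∀ p : ℕ, p.Prime → ¬ p ∣ N * ℓ → ∀ x y : ds_Zb, (x : ℂ) = a p → (y : ℂ) = e p →
            ds_UnramFrob ρ p (φ x) (φ y) := by
  classical
  obtain ⟨T, hTd⟩ := hFT (1 / 240) (by norm_num)
  obtain ⟨ℓ₀, hℓ₀⟩ := hT
  set E' : Finset ds_Zb := E.subtype (fun x => x ∈ integralClosure ℤ ℂ) with hE'
  have hE'card : E'.card ≤ E.card := by
    rw [hE', Finset.card_subtype]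
    exact Finset.card_filter_le _ _
  set M : ℕ := T.card * E.card with hM
  refine ⟨max ℓ₀ (2 * (M + 1) + 1), 122 * M, ?_⟩
  intro ℓ _ hℓ k _ _ _ φ
  have hℓ0 : ℓ₀ ≤ ℓ := le_trans (le_max_left _ _) hℓ
  have hℓM : 2 * (M + 1) < ℓ := lt_of_lt_of_le (Nat.lt_succ_self _) (le_trans (le_max_right _ _) hℓ)
  obtain ⟨ρ, hfin, hss, hun⟩ := hℓ₀ ℓ hℓ0 k φ
  haveI : Finite ρ.range := dsg_ba_finite_range ρ hfin
  set Tk : Finset (k × k) := (T ×ˢ E').image (fun xy => (φ xy.1, φ xy.2)) with hTk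
  have hTkcard : Tk.card ≤ M := by
    calc Tk.card ≤ (T ×ˢ E').card := Finset.card_image_le
      _ = T.card * E'.card := Finset.card_product _ _
      _ ≤ T.card * E.card := Nat.mul_le_mul_left _ hE'card
  have hNℓ : N * ℓ ≠ 0 := Nat.mul_ne_zero (NeZero.ne N) (Fact.out : ℓ.Prime).ne_zero
  obtain ⟨H, hHG, hHT, hHcard⟩ := dsg_dens hC ρ hfin Tk _ hTd (N * ℓ).primeFactors (by
    intro p hp hpF hpX σ hσ
    have hpNℓ : ¬ p ∣ N * ℓ := by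
      intro hdvd
      exact hpF (Nat.mem_primeFactors.mpr ⟨hp, hdvd, hNℓ⟩)
    have hpN : ¬ p ∣ N := fun h => hpNℓ (Dvd.dvd.mul_right h ℓ)
    have hex : ∃ x ∈ T, (x : ℂ) = a p := by
      by_contra hcon
      push Not at hcon
      exact hpX ⟨hp, hpN, hcon⟩
    obtain ⟨x, hxT, hxa⟩ := hex
    have hey : e p ∈ integralClosure ℤ ℂ := he p hp hpN
    obtain ⟨A, hA, hAσ⟩ := hσ
    obtain ⟨_, hfr⟩ := hun p hp hpNℓ x ⟨e p, hey⟩ hxa rfl A hA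
    obtain ⟨h1, h2⟩ := hfr σ hAσ
    rw [h1, h2, hTk, Finset.mem_image]
    refine ⟨(x, ⟨e p, hey⟩), ?_, rfl⟩
    rw [Finset.mem_product]
    refine ⟨hxT, ?_⟩
    rw [hE', Finset.mem_subtype]
    exact hE p hp hpN)
  have hss' : ∀ L : Submodule k (Fin 2 → k),
      (∀ g ∈ ρ.range, ∀ v ∈ L, (g : Matrix (Fin 2) (Fin 2) k) *ᵥ v ∈ L) →
      ∃ L' : Submodule k (Fin 2 → k),
        (∀ g ∈ ρ.range, ∀ v ∈ L', (g : Matrix (Fin 2) (Fin 2) k) *ᵥ v ∈ L') ∧ IsCompl L L' := by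
    intro L hL
    obtain ⟨L', hL', hc⟩ := hss L (fun σ v hv => hL _ ⟨σ, rfl⟩ v hv)
    refine ⟨L', ?_, hc⟩
    rintro g ⟨σ, rfl⟩ v hv
    exact hL' σ v hv
  obtain ⟨h1, h2⟩ := dsg_bd_main (ℓ := ℓ) ρ.range hss' H hHG hHcard Tk hHT M hTkcard hℓM
  exact ⟨ρ, hfin, h1, h2, hun⟩

/-- Step 3: lifting to characteristic zero. -/
theorem dsg_mn_lifted (hC : dsg_Chebotarev) (N : ℕ) [NeZero N] (a e : ℕ → ℂ)
    (E : Finset ℂ) (hE : ∀ p : ℕ, p.Prime → ¬ p ∣ N → e p ∈ E)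
    (he : ∀ p : ℕ, p.Prime → ¬ p ∣ N → IsIntegral ℤ (e p))
    (hFT : dsg_FewTraces N a) (hT : dsg_ModL N a e) (n₀ : ℕ) (hn₀ : 0 < n₀) :
    ∃ ℓ₁ n : ℕ, 0 < n ∧ n₀ ∣ n ∧ ∀ (ℓ : ℕ) [Fact ℓ.Prime], ℓ₁ ≤ ℓ →
      ∃ (k : Type) (_ : Field k) (_ : CharP k ℓ) (φ : ds_Zb →+* k) (ρ : ds_G →* GL (Fin 2) k)
        (r : ds_G →* GL (Fin 2) ℂ), GaloisFactorsThroughFiniteLevel r ∧
          (∀ σ, ρ σ = 1 → r σ = 1) ∧ (∀ σ, ρ σ ^ n = 1) ∧ (∀ σ, r σ ^ n = 1) ∧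
          (∀ σ, ∃ t d : ds_Zb, (t : ℂ) = ((r σ : GL (Fin 2) ℂ) : Matrix (Fin 2) (Fin 2) ℂ).trace ∧
            (d : ℂ) = ((r σ : GL (Fin 2) ℂ) : Matrix (Fin 2) (Fin 2) ℂ).det ∧
            φ t = ((ρ σ : GL (Fin 2) k) : Matrix (Fin 2) (Fin 2) k).trace ∧
            φ d = ((ρ σ : GL (Fin 2) k) : Matrix (Fin 2) (Fin 2) k).det) ∧
          ∀ p : ℕ, p.Prime → ¬ p ∣ N * ℓ → ∀ x y : ds_Zb, (x : ℂ) = a p → (y : ℂ) = e p →
            ds_UnramFrob ρ p (φ x) (φ y) := by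
  classical
  obtain ⟨ℓ₁, A₀, hb⟩ := dsg_mn_bounded hC N a e E hE he hFT hT
  refine ⟨ℓ₁, A₀.factorial * n₀, Nat.mul_pos (Nat.factorial_pos _) hn₀, Dvd.intro_left _ rfl, ?_⟩
  intro ℓ _ hℓ
  obtain ⟨k, _, _, _, φ, hlift⟩ := dsg_lift_phi ℓ
  obtain ⟨ρ, hfin, hnd, hcard, hun⟩ := hb ℓ hℓ k φ
  haveI : Finite ρ.range := dsg_ba_finite_range ρ hfin
  obtain ⟨r₀, hker, htd⟩ := hlift ρ.range hnd ρ.range.subtype
  have hpow : ∀ g : ρ.range, g ^ (A₀.factorial * n₀) = 1 := by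
    intro g
    have h1 : g ^ Nat.card ρ.range = 1 := pow_card_eq_one'
    have h2 : Nat.card ρ.range ∣ A₀.factorial := Nat.dvd_factorial Nat.card_pos hcard
    obtain ⟨c, hc⟩ := h2
    rw [hc, mul_assoc, pow_mul, h1, one_pow]
  refine ⟨k, inferInstance, inferInstance, φ, ρ, r₀.comp ρ.rangeRestrict, ?_, ?_, ?_, ?_, ?_, hun⟩
  · obtain ⟨L, hL, hk⟩ := hfin
    refine ⟨L, hL, fun σ hσ => ?_⟩
    have h1 : ρ.rangeRestrict σ = 1 := Subtype.ext (hk σ hσ)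
    rw [MonoidHom.comp_apply, h1, map_one]
  · intro σ hσ
    have h1 : ρ.rangeRestrict σ = 1 := Subtype.ext hσ
    rw [MonoidHom.comp_apply, h1, map_one]
  · intro σ
    have h1 := congrArg (Subtype.val : ρ.range → GL (Fin 2) k) (hpow (ρ.rangeRestrict σ))
    simpa using h1
  · intro σ
    rw [MonoidHom.comp_apply, ← map_pow, hpow, map_one]
  · intro σ
    obtain ⟨t, d, h1, h2, h3, h4⟩ := htd (ρ.rangeRestrict σ)
    exact ⟨t, d, h1, h2, h3, h4⟩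

/-- the inclusion `ℤ̄ → ℂ` as a ring homomorphism. -/
def dsg_mn_incl : ds_Zb →+* ℂ := (integralClosure ℤ ℂ).val.toRingHom

theorem dsg_mn_incl_apply (x : ds_Zb) : dsg_mn_incl x = (x : ℂ) := rfl

/-- a prime `ℓ` beyond any bound, with `p ∤ N ℓ`. -/
theorem dsg_mn_exists_prime (N p m : ℕ) (hp : p.Prime) (hpN : ¬ p ∣ N) :
    ∃ ℓ : ℕ, ℓ.Prime ∧ m ≤ ℓ ∧ ¬ p ∣ N * ℓ := by
  obtain ⟨ℓ, hℓ, hℓp⟩ := Nat.exists_infinite_primes (max m (p + 1))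
  refine ⟨ℓ, hℓp, le_trans (le_max_left _ _) hℓ, ?_⟩
  intro hdvd
  rcases (Nat.Prime.dvd_mul hp).mp hdvd with h | h
  · exact hpN h
  · have h1 := (Nat.prime_dvd_prime_iff_eq hp hℓp).mp h
    have h2 : p + 1 ≤ ℓ := le_trans (le_max_right _ _) hℓ
    omega

/-- Step 4, [G-RU]: `V_n(a_p, e_p) = 2`. -/
theorem dsg_mn_ru (N : ℕ) [NeZero N] (a e : ℕ → ℂ)
    (ha : ∀ p : ℕ, p.Prime → ¬ p ∣ N → IsIntegral ℤ (a p))
    (he : ∀ p : ℕ, p.Prime → ¬ p ∣ N → IsIntegral ℤ (e p)) (ℓ₁ n : ℕ)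
    (hL : ∀ (ℓ : ℕ) [Fact ℓ.Prime], ℓ₁ ≤ ℓ →
      ∃ (k : Type) (_ : Field k) (_ : CharP k ℓ) (φ : ds_Zb →+* k) (ρ : ds_G →* GL (Fin 2) k),
        (∀ σ, ρ σ ^ n = 1) ∧
          ∀ p : ℕ, p.Prime → ¬ p ∣ N * ℓ → ∀ x y : ds_Zb, (x : ℂ) = a p → (y : ℂ) = e p →
            ds_UnramFrob ρ p (φ x) (φ y))
    (p : ℕ) (hp : p.Prime) (hpN : ¬ p ∣ N) : dsg_luc (a p) (e p) n = 2 := by
  by_contra hne
  set x : ds_Zb := ⟨a p, ha p hp hpN⟩ with hx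
  set y : ds_Zb := ⟨e p, he p hp hpN⟩ with hy
  set z : ds_Zb := dsg_luc x y n - 2 with hz
  have hzc : (z : ℂ) = dsg_luc (a p) (e p) n - 2 := by
    have h1 := dsg_luc_map dsg_mn_incl x y n
    have h2 : dsg_mn_incl (2 : ds_Zb) = 2 := map_ofNat _ 2
    rw [← dsg_mn_incl_apply, hz, map_sub, h1, h2]
    rfl
  have hz0 : z ≠ 0 := by
    intro h0
    apply hne
    have : (z : ℂ) = 0 := by rw [h0]; rfl
    rw [hzc] at this
    exact sub_eq_zero.mp this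
  obtain ⟨B, hB⟩ := dsg_red_single z hz0
  obtain ⟨ℓ, hℓ, hℓm, hpNℓ⟩ := dsg_mn_exists_prime N p (max ℓ₁ (B + 1)) hp hpN
  haveI : Fact ℓ.Prime := ⟨hℓ⟩
  obtain ⟨k, _, _, φ, ρ, hρn, hun⟩ := hL ℓ (le_trans (le_max_left _ _) hℓm)
  obtain ⟨A, σ, hA, hσ⟩ := Fermat.Agent.S54.exists_isFrobeniusAt hp
  obtain ⟨h1, h2⟩ := (hun p hp hpNℓ x y rfl rfl A hA).2 σ hσ
  have h3 := dsg_luc_trace_pow ((ρ σ : GL (Fin 2) k) : Matrix (Fin 2) (Fin 2) k) n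
  rw [h1, h2, ← dsg_luc_map] at h3
  have h4 : ((ρ σ : GL (Fin 2) k) : Matrix (Fin 2) (Fin 2) k) ^ n = 1 := by
    have := congrArg (fun g : GL (Fin 2) k => (g : Matrix (Fin 2) (Fin 2) k)) (hρn σ)
    simpa using this
  rw [h4, Matrix.trace_one, Fintype.card_fin] at h3
  have h5 : φ z = 0 := by
    rw [hz, map_sub, ← h3, map_ofNat]
    simp
  exact hB ℓ hℓ (lt_of_lt_of_le (Nat.lt_succ_self B) (le_trans (le_max_right _ _) hℓm)) k φ h5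

/-! ### Step 5, [G-EXACT] -/

open scoped Classical in
/-- the finite set of sums of at most two `n`-th roots of unity in `ℤ̄`. -/
def dsg_mn_S (n : ℕ) : Finset ds_Zb :=
  ((Polynomial.nthRootsFinset n (1 : ds_Zb)) ×ˢ (Polynomial.nthRootsFinset n (1 : ds_Zb))).image
      (fun xy => xy.1 + xy.2) ∪ Polynomial.nthRootsFinset n (1 : ds_Zb)

theorem dsg_mn_root_mem {n : ℕ} (hn : 0 < n) (c : ds_Zb) (h : (c : ℂ) ^ n = 1) :
    c ∈ Polynomial.nthRootsFinset n (1 : ds_Zb) := by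
  rw [Polynomial.mem_nthRootsFinset hn]
  apply Subtype.ext
  rw [SubmonoidClass.coe_pow]
  exact h

theorem dsg_mn_root_mem_S {n : ℕ} (hn : 0 < n) (c : ds_Zb) (h : (c : ℂ) ^ n = 1) :
    c ∈ dsg_mn_S n := by
  classical
  rw [dsg_mn_S]
  exact Finset.mem_union_right _ (dsg_mn_root_mem hn c h)

theorem dsg_mn_isIntegral_of_pow {n : ℕ} (hn : 0 < n) (u : ℂ) (hu : u ^ n = 1) :
    IsIntegral ℤ u := by
  apply IsIntegral.of_pow hn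
  rw [hu]
  exact isIntegral_one

theorem dsg_mn_sum_mem_S {n : ℕ} (hn : 0 < n) (c : ds_Zb) (u v : ℂ) (hu : u ^ n = 1)
    (hv : v ^ n = 1) (h : (c : ℂ) = u + v) : c ∈ dsg_mn_S n := by
  classical
  rw [dsg_mn_S]
  apply Finset.mem_union_left
  rw [Finset.mem_image]
  refine ⟨(⟨u, dsg_mn_isIntegral_of_pow hn u hu⟩, ⟨v, dsg_mn_isIntegral_of_pow hn v hv⟩), ?_, ?_⟩
  · rw [Finset.mem_product]
    exact ⟨dsg_mn_root_mem hn _ hu, dsg_mn_root_mem hn _ hv⟩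
  · apply Subtype.ext
    rw [h]
    rfl

/-- trace and determinant of a matrix of finite order. -/
theorem dsg_mn_finite_order (m : Matrix (Fin 2) (Fin 2) ℂ) (n : ℕ) (hm : m ^ n = 1) :
    ∃ u v : ℂ, u ^ n = 1 ∧ v ^ n = 1 ∧ m.trace = u + v ∧ m.det = u * v := by
  apply dsg_luc_roots
  · rw [← dsg_luc_trace_pow, hm, Matrix.trace_one, Fintype.card_fin]
    norm_num
  · rw [← Matrix.det_pow, hm, Matrix.det_one]

theorem dsg_mn_exact (N : ℕ) [NeZero N] (a e : ℕ → ℂ)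
    (ha : ∀ p : ℕ, p.Prime → ¬ p ∣ N → IsIntegral ℤ (a p))
    (he : ∀ p : ℕ, p.Prime → ¬ p ∣ N → IsIntegral ℤ (e p)) (ℓ₁ n : ℕ) (hn : 0 < n)
    (hen : ∀ p : ℕ, p.Prime → ¬ p ∣ N → e p ^ n = 1)
    (hL : ∀ (ℓ : ℕ) [Fact ℓ.Prime], ℓ₁ ≤ ℓ →
      ∃ (k : Type) (_ : Field k) (_ : CharP k ℓ) (φ : ds_Zb →+* k) (ρ : ds_G →* GL (Fin 2) k)
        (r : ds_G →* GL (Fin 2) ℂ), GaloisFactorsThroughFiniteLevel r ∧
          (∀ σ, ρ σ = 1 → r σ = 1) ∧ (∀ σ, ρ σ ^ n = 1) ∧ (∀ σ, r σ ^ n = 1) ∧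
          (∀ σ, ∃ t d : ds_Zb, (t : ℂ) = ((r σ : GL (Fin 2) ℂ) : Matrix (Fin 2) (Fin 2) ℂ).trace ∧
            (d : ℂ) = ((r σ : GL (Fin 2) ℂ) : Matrix (Fin 2) (Fin 2) ℂ).det ∧
            φ t = ((ρ σ : GL (Fin 2) k) : Matrix (Fin 2) (Fin 2) k).trace ∧
            φ d = ((ρ σ : GL (Fin 2) k) : Matrix (Fin 2) (Fin 2) k).det) ∧
          ∀ p : ℕ, p.Prime → ¬ p ∣ N * ℓ → ∀ x y : ds_Zb, (x : ℂ) = a p → (y : ℂ) = e p →
            ds_UnramFrob ρ p (φ x) (φ y)) :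
    ∃ ℓ₂ : ℕ, ∀ (ℓ : ℕ) [Fact ℓ.Prime], ℓ₂ ≤ ℓ →
      ∃ r : ds_G →* GL (Fin 2) ℂ, GaloisFactorsThroughFiniteLevel r ∧ (∀ σ, r σ ^ n = 1) ∧
        ∀ p : ℕ, p.Prime → ¬ p ∣ N * ℓ → ds_UnramFrob r p (a p) (e p) := by
  -- [G-RU]
  have hru : ∀ p : ℕ, p.Prime → ¬ p ∣ N → dsg_luc (a p) (e p) n = 2 := by
    refine dsg_mn_ru N a e ha he ℓ₁ n ?_
    intro ℓ _ hℓ
    obtain ⟨k, i1, i2, φ, ρ, r, -, -, h3, -, -, h6⟩ := hL ℓ hℓ
    exact ⟨k, i1, i2, φ, ρ, h3, h6⟩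
  obtain ⟨B, hB⟩ := dsg_red_finite (dsg_mn_S n)
  refine ⟨max ℓ₁ (B + 1), ?_⟩
  intro ℓ _ hℓ
  have hℓ1 : ℓ₁ ≤ ℓ := le_trans (le_max_left _ _) hℓ
  have hℓB : B < ℓ := lt_of_lt_of_le (Nat.lt_succ_self B) (le_trans (le_max_right _ _) hℓ)
  obtain ⟨k, _, _, φ, ρ, r, hfin, hker, -, hrn, htd, hun⟩ := hL ℓ hℓ1
  refine ⟨r, hfin, hrn, ?_⟩
  intro p hp hpNℓ A hA
  have hpN : ¬ p ∣ N := fun h => hpNℓ (Dvd.dvd.mul_right h ℓ)
  set x : ds_Zb := ⟨a p, ha p hp hpN⟩ with hx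
  set y : ds_Zb := ⟨e p, he p hp hpN⟩ with hy
  obtain ⟨hin, hfr⟩ := hun p hp hpNℓ x y rfl rfl A hA
  refine ⟨fun σ hσ => hker σ (hin σ hσ), ?_⟩
  intro σ hσ
  obtain ⟨h1, h2⟩ := hfr σ hσ
  obtain ⟨t, d, ht, hd, hφt, hφd⟩ := htd σ
  have hmn : ((r σ : GL (Fin 2) ℂ) : Matrix (Fin 2) (Fin 2) ℂ) ^ n = 1 := by
    have := congrArg (fun g : GL (Fin 2) ℂ => (g : Matrix (Fin 2) (Fin 2) ℂ)) (hrn σ)
    simpa using this
  obtain ⟨u, v, hu, hv, htr, hdet⟩ := dsg_mn_finite_order _ n hmn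
  -- the trace
  have htS : t ∈ dsg_mn_S n := dsg_mn_sum_mem_S hn t u v hu hv (by rw [ht, htr])
  have hxS : x ∈ dsg_mn_S n := by
    obtain ⟨u', v', hu', hv', h3, -⟩ := dsg_luc_roots (a p) (e p) n (hru p hp hpN) (hen p hp hpN)
    exact dsg_mn_sum_mem_S hn x u' v' hu' hv' h3
  have htx : t = x := hB ℓ (Fact.out) hℓB k φ t htS x hxS (by rw [hφt, h1])
  -- the determinant
  have hdS : d ∈ dsg_mn_S n := by
    apply dsg_mn_root_mem_S hn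
    rw [hd, hdet, mul_pow, hu, hv, one_mul]
  have hyS : y ∈ dsg_mn_S n := dsg_mn_root_mem_S hn y (hen p hp hpN)
  have hdy : d = y := hB ℓ (Fact.out) hℓB k φ d hdS y hyS (by rw [hφd, h2])
  constructor
  · rw [← ht, htx]
  · rw [← hd, hdy]

/-! ### Steps 6, 7: two primes; the final theorem -/

/-- **DS-G, abstract form.** -/
theorem dsg_main_abstract (hC : dsg_Chebotarev) (N : ℕ) [NeZero N] (a e : ℕ → ℂ)
    (ha : ∀ p : ℕ, p.Prime → ¬ p ∣ N → IsIntegral ℤ (a p))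
    (E : Finset ℂ) (hE : ∀ p : ℕ, p.Prime → ¬ p ∣ N → e p ∈ E)
    (n₀ : ℕ) (hn₀ : 0 < n₀) (he₀ : ∀ p : ℕ, p.Prime → ¬ p ∣ N → e p ^ n₀ = 1)
    (hA : ∃ C : ℝ, ∀ s : ℝ, 1 < s → s ≤ 2 → ∀ P : Finset ℕ, (∀ p ∈ P, p.Prime ∧ ¬ p ∣ N) →
      ∑ p ∈ P, ‖a p‖ ^ 2 / (p : ℝ) ^ s ≤ Real.log (1 / (s - 1)) + C)
    (hFT : dsg_FewTraces N a) (hT : dsg_ModL N a e) :
    ∃ ρ : ds_G →* GL (Fin 2) ℂ, GaloisFactorsThroughFiniteLevel ρ ∧
      (Deformation.matrixRepresentation ρ).IsIrreducible ∧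
      ∀ p : ℕ, p.Prime → ¬ p ∣ N → ds_UnramFrob ρ p (a p) (e p) := by
  have he : ∀ p : ℕ, p.Prime → ¬ p ∣ N → IsIntegral ℤ (e p) := fun p hp hpN =>
    dsg_mn_isIntegral_of_pow hn₀ (e p) (he₀ p hp hpN)
  obtain ⟨ℓ₁, n, hn, hdvd, hL⟩ := dsg_mn_lifted hC N a e E hE he hFT hT n₀ hn₀
  have hen : ∀ p : ℕ, p.Prime → ¬ p ∣ N → e p ^ n = 1 := by
    intro p hp hpN
    obtain ⟨c, rfl⟩ := hdvd
    rw [pow_mul, he₀ p hp hpN, one_pow]
  obtain ⟨ℓ₂, hX⟩ := dsg_mn_exact N a e ha he ℓ₁ n hn hen hL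
  -- two large primes
  obtain ⟨ℓ, hℓm, hℓ⟩ := Nat.exists_infinite_primes (max ℓ₂ (N + 1))
  obtain ⟨ℓ', hℓ'm, hℓ'⟩ := Nat.exists_infinite_primes (ℓ + 1)
  have hℓ2 : ℓ₂ ≤ ℓ := le_trans (le_max_left _ _) hℓm
  have hℓN : N < ℓ := lt_of_lt_of_le (Nat.lt_succ_self N) (le_trans (le_max_right _ _) hℓm)
  have hℓ'2 : ℓ₂ ≤ ℓ' := by omega
  have hNpos : 0 < N := NeZero.pos N
  have hℓndvd : ¬ ℓ ∣ N := fun h => absurd (Nat.le_of_dvd hNpos h) (by omega)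
  have hℓne : ℓ ≠ ℓ' := by omega
  haveI : Fact ℓ.Prime := ⟨hℓ⟩
  haveI : Fact ℓ'.Prime := ⟨hℓ'⟩
  obtain ⟨r, hfin, hrn, hun⟩ := hX ℓ hℓ2
  obtain ⟨r', hfin', hrn', hun'⟩ := hX ℓ' hℓ'2
  -- traces and determinants agree
  have hNℓℓ' : N * ℓ * ℓ' ≠ 0 :=
    Nat.mul_ne_zero (Nat.mul_ne_zero hNpos.ne' hℓ.ne_zero) hℓ'.ne_zero
  have hiso := dsg_iso r r' hfin hfin' (N * ℓ * ℓ').primeFactors a e
    (by
      intro p hp hpS σ hσ
      have hpn : ¬ p ∣ N * ℓ * ℓ' := fun h => hpS (Nat.mem_primeFactors.mpr ⟨hp, h, hNℓℓ'⟩)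
      have hpNℓ : ¬ p ∣ N * ℓ := fun h => hpn (Dvd.dvd.mul_right h ℓ')
      obtain ⟨A, hA, hAσ⟩ := hσ
      exact (hun p hp hpNℓ A hA).2 σ hAσ)
    (by
      intro p hp hpS σ hσ
      have hpn : ¬ p ∣ N * ℓ * ℓ' := fun h => hpS (Nat.mem_primeFactors.mpr ⟨hp, h, hNℓℓ'⟩)
      have hpNℓ' : ¬ p ∣ N * ℓ' := by
        intro h
        apply hpn
        have : N * ℓ * ℓ' = (N * ℓ') * ℓ := by ring
        rw [this]
        exact Dvd.dvd.mul_right h ℓ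
      obtain ⟨A, hA, hAσ⟩ := hσ
      exact (hun' p hp hpNℓ' A hA).2 σ hAσ)
  -- `r` is unramified outside `N`
  have hunr : ∀ p : ℕ, p.Prime → ¬ p ∣ N → ds_UnramFrob r p (a p) (e p) := by
    intro p hp hpN
    by_cases hpNℓ : p ∣ N * ℓ
    · have hpℓ : p = ℓ := by
        rcases (Nat.Prime.dvd_mul hp).mp hpNℓ with h | h
        · exact absurd h hpN
        · exact (Nat.prime_dvd_prime_iff_eq hp hℓ).mp h
      have hpNℓ' : ¬ p ∣ N * ℓ' := by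
        intro h
        rcases (Nat.Prime.dvd_mul hp).mp h with h | h
        · exact hpN h
        · have := (Nat.prime_dvd_prime_iff_eq hp hℓ').mp h
          omega
      intro A hA
      obtain ⟨hin, hfr⟩ := hun' p hp hpNℓ' A hA
      constructor
      · intro σ hσ
        apply dsg_ba_eq_one_of_trace (r σ) n hn (hrn σ)
        rw [(hiso σ).1, hin σ hσ]
        simp
      · intro σ hσ
        obtain ⟨h1, h2⟩ := hfr σ hσ
        exact ⟨by rw [(hiso σ).1, h1], by rw [(hiso σ).2, h2]⟩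
    · exact hun p hp hpNℓ
  refine ⟨r, hfin, ?_, hunr⟩
  refine dsg_irr hC N a hA r hfin ?_
  intro p hp hpN σ hσ
  obtain ⟨A, hA, hAσ⟩ := hσ
  exact ((hunr p hp hpN A hA).2 σ hAσ).1

/-- **DS-G**: the final group-theoretic assembly of S48. -/
theorem dsg_main (hC : dsg_Chebotarev) (N : ℕ) [NeZero N] (ε : DirichletCharacter ℂ N)
    (f : CuspForm (Gamma1 N) 1)
    (hint : ∀ p : ℕ, p.Prime → ¬ p ∣ N → IsIntegral ℤ (qCoeff f p))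
    (hA : ∃ C : ℝ, ∀ s : ℝ, 1 < s → s ≤ 2 → ∀ P : Finset ℕ, (∀ p ∈ P, p.Prime ∧ ¬ p ∣ N) →
      ∑ p ∈ P, ‖qCoeff f p‖ ^ 2 / (p : ℝ) ^ s ≤ Real.log (1 / (s - 1)) + C)
    (hFT : dsg_FewTraces N (fun p => qCoeff f p))
    (hT : dsg_ModL N (fun p => qCoeff f p) (fun p => ε (p : ZMod N))) :
    ds_Conclusion N ε f := by
  classical
  refine dsg_main_abstract hC N (fun p => qCoeff f p) (fun p => ε (p : ZMod N)) hint
    (Finset.univ.image (fun u : ZMod N => ε u)) ?_ N.totient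
    (Nat.totient_pos.mpr (NeZero.pos N)) ?_ hA hFT hT
  · intro p _ _
    exact Finset.mem_image_of_mem _ (Finset.mem_univ _)
  · intro p hp hpN
    have hu : IsUnit (p : ZMod N) := (ZMod.isUnit_prime_iff_not_dvd hp).mpr hpN
    obtain ⟨u, hu'⟩ := hu
    have h1 : u ^ N.totient = 1 := ZMod.pow_totient u
    show ε (p : ZMod N) ^ N.totient = 1
    rw [← hu', ← map_pow, ← Units.val_pow_eq_pow_val, h1, Units.val_one, map_one]

end Fermat.Agent.DS
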