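/-
Project DS (S48), cell DS-G, bridge [B1→B2]: `ds_SeamB` (family 1: `K ⊆ Q̄`, `ds_iota`, `tsum` Rankin
bounds) together with the integrality of the `a_p` gives `ds_SeamBint` (family 2: `K ⊆ ℂ`,
finite-subset Rankin bounds), the shape consumed by `dsg_fewTraces_of_seamB`.

`K' := ds_iota(K) ⊆ ℂ`, `α' p := ds_iota (α p)`; an embedding `τ : K' → ℂ` is transported to `K`
and extended to `Q̄ → ℂ` (`IsAlgClosed.lift`); a finite partial sum of a nonnegative summable family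
is at most its `tsum`.  Requested by helper9 (finding #1710).  Owner: helper19.  Prefix `dsg_ft_`.
-/
import Mathlib
import Fermat.Agent.DS.Group.FewTraces

set_option autoImplicit false
set_option linter.style.haveILetI false

noncomputable section

open CongruenceSubgroup ModularFormClass NumberField Filter Topology
open scoped MatrixGroups ModularForm

namespace Fermat.Agent.DS

/-- A finite partial sum of a nonnegative summable prime series is at most `ds_primeSum`. -/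
theorem dsg_ft_sum_le_primeSum (X : Set ℕ) (w : ℕ → ℝ) (hw : ∀ n, 0 ≤ w n) (s : ℝ)
    (hsum : Summable (fun p : Nat.Primes =>
      X.indicator (fun n : ℕ => w n * (n : ℝ) ^ (-s)) (p : ℕ)))
    (P : Finset ℕ) (hP : ∀ p ∈ P, p.Prime ∧ p ∈ X) :
    ∑ p ∈ P, w p / (p : ℝ) ^ s ≤ ds_primeSum X w s := by
  classical
  have hnn : ∀ p : Nat.Primes, 0 ≤ X.indicator (fun n : ℕ => w n * (n : ℝ) ^ (-s)) (p : ℕ) :=
    fun p => Set.indicator_nonneg (fun n _ => mul_nonneg (hw n)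
      (Real.rpow_nonneg (Nat.cast_nonneg n) _)) _
  have h1 : ∑ p ∈ P, w p / (p : ℝ) ^ s =
      ∑ q ∈ (P.subtype Nat.Prime : Finset Nat.Primes),
        X.indicator (fun n : ℕ => w n * (n : ℝ) ^ (-s)) (q : ℕ) := by
    rw [← Finset.sum_subtype_of_mem (fun p : ℕ => w p / (p : ℝ) ^ s) (fun p hp => (hP p hp).1)]
    refine Finset.sum_congr rfl fun q hq => ?_
    have hqX : (q : ℕ) ∈ X := (hP q (Finset.mem_subtype.mp hq)).2
    rw [Set.indicator_of_mem hqX, Real.rpow_neg (Nat.cast_nonneg _), div_eq_mul_inv]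
  rw [h1]
  exact Summable.sum_le_tsum (ι := Nat.Primes) _ (fun q _ => hnn q) hsum

/-- **[B1→B2]** the bridge from the family-1 seam `ds_SeamB` (plus integrality of the `a_p`) to the
family-2 seam `ds_SeamBint`. -/
theorem dsg_ft_seamBint_of_seamB (hB : ds_SeamB)
    (hint : ∀ (N : ℕ) [NeZero N] (ε : DirichletCharacter ℂ N) (f : CuspForm (Gamma1 N) 1),
      ds_W1 N ε f → ∀ p : ℕ, p.Prime → ¬ p ∣ N → IsIntegral ℤ (qCoeff f p)) : ds_SeamBint := by
  classical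
  intro N _ ε f hf
  refine ⟨hint N ε f hf, ?_⟩
  obtain ⟨K, D, α, e, hK, -, hα, hτ⟩ := hB N ε f hf
  haveI := hK
  -- the image of `K` in `ℂ`
  let eK : K ≃ₐ[ℚ] K.map ds_iota := IntermediateField.equivMap K ds_iota
  have hmem : ∀ p : ℕ, p.Prime ∧ ¬ p ∣ N → α p ∈ K := fun p hp => (hα p hp.1 hp.2).1
  let α' : ℕ → K.map ds_iota := fun p =>
    if hp : p.Prime ∧ ¬ p ∣ N then eK ⟨α p, hmem p hp⟩ else 0
  have hα' : ∀ p : ℕ, ∀ hp : p.Prime ∧ ¬ p ∣ N, α' p = eK ⟨α p, hmem p hp⟩ := fun p hp =>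
    dif_pos hp
  refine ⟨K.map ds_iota, α', eK.toLinearEquiv.finiteDimensional, fun p hp hpN => ?_, fun τ => ?_⟩
  · rw [hα' p ⟨hp, hpN⟩]
    exact (hα p hp hpN).2.2.1
  · -- transport `τ` to `K` and extend it to `Q̄`
    let τ0 : K →+* ℂ := τ.comp (eK : K →+* K.map ds_iota)
    letI : Algebra K ℂ := τ0.toAlgebra
    haveI : Algebra.IsAlgebraic ℚ ds_Qb := AlgebraicClosure.isAlgebraic ℚ
    haveI : Algebra.IsAlgebraic K ds_Qb := Algebra.IsAlgebraic.tower_top (K := ℚ) K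
    let τt : ds_Qb →ₐ[K] ℂ := IsAlgClosed.lift
    have hτt : ∀ p : ℕ, p.Prime ∧ ¬ p ∣ N → τt (α p) = τ (α' p) := by
      intro p hp
      rw [hα' p hp]
      exact τt.commutes ⟨α p, hmem p hp⟩
    obtain ⟨C, hC⟩ := hτ τt.toRingHom
    refine ⟨N, C, Nat.pos_of_ne_zero (NeZero.ne N), fun s hs1 hs2 P hP => ?_⟩
    obtain ⟨hsum, hle⟩ := hC s hs1 hs2
    refine le_trans ?_ hle
    have h2 : ∑ p ∈ P, ‖τ (α' p)‖ ^ 2 / (p : ℝ) ^ s =
        ∑ p ∈ P, (fun n : ℕ => ‖τt.toRingHom (α n)‖ ^ 2) p / (p : ℝ) ^ s := by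
      refine Finset.sum_congr rfl fun p hp => ?_
      rw [← hτt p (hP p hp)]
      rfl
    rw [h2]
    exact dsg_ft_sum_le_primeSum {p | ¬ p ∣ N} (fun n : ℕ => ‖τt.toRingHom (α n)‖ ^ 2)
      (fun n => sq_nonneg _) s hsum P (fun p hp => ⟨(hP p hp).1, (hP p hp).2⟩)

/-- **[B1→A]** `ds_SeamB` + integrality ⟹ few traces. -/
theorem dsg_ft_fewTraces_of_seamB1 (hB : ds_SeamB)
    (hint : ∀ (N : ℕ) [NeZero N] (ε : DirichletCharacter ℂ N) (f : CuspForm (Gamma1 N) 1),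
      ds_W1 N ε f → ∀ p : ℕ, p.Prime → ¬ p ∣ N → IsIntegral ℤ (qCoeff f p))
    (N : ℕ) [NeZero N] (ε : DirichletCharacter ℂ N) (f : CuspForm (Gamma1 N) 1)
    (hf : ds_W1 N ε f) : dsg_FewTraces N (fun p => qCoeff f p) :=
  dsg_fewTraces_of_seamB (dsg_ft_seamBint_of_seamB hB hint) N ε f hf

end Fermat.Agent.DS
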