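import Mathlib
import Fermat.Agent.DS.Seams

/-!
# DS-G, [G-RED] in the `φ`-vocabulary (prefix `dsg_rp_`)

`ds_Zb = integralClosure ℤ ℂ`.  A nonzero algebraic integer `z` is a unit at almost all places:
there is a bound `B` such that `φ z ≠ 0` for every ring homomorphism `φ : ds_Zb →+* k` into a field
of characteristic `ℓ > B` (`dsg_rp_single`; `B = |m|` where `m z⁻¹` is an algebraic integer, `m ∈ ℤ ∖ {0}`).  Consequently a finite set of algebraic integers is mapped
injectively by every such `φ` for `ℓ` large (`dsg_rp_finite`).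
-/

set_option autoImplicit false

namespace Fermat.Agent.DS

open Polynomial

/-- A nonzero algebraic integer has nonzero reduction at all places of large residue
characteristic. -/
theorem dsg_rp_single (z : ds_Zb) (hz : z ≠ 0) :
    ∃ B : ℕ, ∀ ℓ : ℕ, ℓ.Prime → B < ℓ → ∀ (k : Type) [Field k] [CharP k ℓ] (φ : ds_Zb →+* k),
      φ z ≠ 0 := by
  -- `z⁻¹` is algebraic over `ℤ`, so `m z⁻¹` is integral for some nonzero integer `m`
  have hzc : (z : ℂ) ≠ 0 := fun h => hz (Subtype.ext h)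
  have hzint : IsIntegral ℤ (z : ℂ) := z.2
  have halg : IsAlgebraic ℤ ((z : ℂ)⁻¹) := (hzint.isAlgebraic).inv
  obtain ⟨m, hm0, hm⟩ := halg.exists_integral_multiple
  set w : ds_Zb := ⟨m • (z : ℂ)⁻¹, hm⟩ with hw
  have hwz : w * z = (m : ds_Zb) := by
    apply Subtype.ext
    show (m • (z : ℂ)⁻¹) * (z : ℂ) = ((m : ds_Zb) : ℂ)
    rw [zsmul_eq_mul, mul_assoc, inv_mul_cancel₀ hzc, mul_one]
    simp
  refine ⟨m.natAbs, ?_⟩
  intro ℓ hℓ hB k _ _ φ hφ
  have h3 := congrArg φ hwz
  rw [map_mul, hφ, mul_zero, map_intCast] at h3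
  have h4 : (ℓ : ℤ) ∣ m := (CharP.intCast_eq_zero_iff k ℓ _).mp h3.symm
  have h5 : ℓ ∣ m.natAbs := Int.natCast_dvd.mp h4
  have h6 : ℓ ≤ m.natAbs := Nat.le_of_dvd (Int.natAbs_pos.mpr hm0) h5
  omega

/-- A finite set of algebraic integers is mapped injectively by every place of large residue
characteristic. -/
theorem dsg_rp_finite (S : Finset ds_Zb) :
    ∃ B : ℕ, ∀ ℓ : ℕ, ℓ.Prime → B < ℓ → ∀ (k : Type) [Field k] [CharP k ℓ] (φ : ds_Zb →+* k),
      ∀ x ∈ S, ∀ y ∈ S, φ x = φ y → x = y := by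
  classical
  set D : Finset ds_Zb := (S ×ˢ S).image (fun xy => xy.1 - xy.2) with hD
  set b : ds_Zb → ℕ := fun d =>
    if h : d ≠ 0 then Classical.choose (dsg_rp_single d h) else 0 with hb
  refine ⟨D.sup b, ?_⟩
  intro ℓ hℓ hB k _ _ φ x hx y hy hxy
  by_contra hne
  have hd0 : x - y ≠ 0 := sub_ne_zero.mpr hne
  have hdD : x - y ∈ D := by
    rw [hD, Finset.mem_image]
    exact ⟨(x, y), Finset.mem_product.mpr ⟨hx, hy⟩, rfl⟩
  have hle : b (x - y) ≤ D.sup b := Finset.le_sup hdD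
  have hspec := Classical.choose_spec (dsg_rp_single (x - y) hd0)
  have hbval : b (x - y) = Classical.choose (dsg_rp_single (x - y) hd0) := by
    simp only [hb, dif_pos hd0]
  have h1 := hspec ℓ hℓ (by rw [← hbval]; omega) k φ
  apply h1
  rw [map_sub, hxy, sub_self]

end Fermat.Agent.DS
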