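import Mathlib
import Fermat.Agent.DS.Defs

/-!
# DS-G: semisimplicity of a two-dimensional family of matrices is preserved by extension of an
algebraically closed base field (prefix `dsg_ss_`)

`F₀` algebraically closed, `θ : F₀ →+* F` a field extension, `𝓜` a set of `2 × 2` matrices over
`F₀`.  If every `𝓜`-stable subspace of `F₀²` has an `𝓜`-stable complement, the same holds for
`θ(𝓜)` and `F²` (`dsg_ss_map`).  Proof: if all matrices are scalar there is nothing to prove;
otherwise an invariant line of `F²` is an eigenline of a non-scalar `θ(m₀)`, the eigenvalue lies in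
`θ(F₀)` and the eigenline is spanned by `θ(u)`, `u ∈ F₀²`; so the line descends to `F₀`.

Corollary `dsg_ss_map_rep` : `ds_Semisimple ρ₀ → ds_Semisimple (GL₂(θ) ∘ ρ₀)`.
-/

set_option autoImplicit false
set_option linter.unusedSectionVars false

namespace Fermat.Agent.DS

open Matrix

section Plane

variable {F : Type*} [Field F]

/-- two vectors of the plane with non-zero determinant span complementary lines. -/
theorem dsg_ss_isCompl_of_det (x y : Fin 2 → F) (h : x 0 * y 1 - x 1 * y 0 ≠ 0) :
    IsCompl (Submodule.span F {x}) (Submodule.span F {y}) := by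
  constructor
  · rw [Submodule.disjoint_def]
    intro z hzx hzy
    obtain ⟨a, rfl⟩ := Submodule.mem_span_singleton.mp hzx
    obtain ⟨b, hb⟩ := Submodule.mem_span_singleton.mp hzy
    have h0 : b * y 0 = a * x 0 := by simpa using congrFun hb 0
    have h1 : b * y 1 = a * x 1 := by simpa using congrFun hb 1
    have ha : a * (x 0 * y 1 - x 1 * y 0) = 0 := by linear_combination y 0 * h1 - y 1 * h0
    rcases mul_eq_zero.mp ha with ha | ha
    · rw [ha, zero_smul]
    · exact absurd ha h
  · rw [codisjoint_iff, eq_top_iff]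
    intro z _
    rw [Submodule.mem_sup]
    refine ⟨((z 0 * y 1 - z 1 * y 0) / (x 0 * y 1 - x 1 * y 0)) • x,
      Submodule.smul_mem _ _ (Submodule.mem_span_singleton_self x),
      ((x 0 * z 1 - x 1 * z 0) / (x 0 * y 1 - x 1 * y 0)) • y,
      Submodule.smul_mem _ _ (Submodule.mem_span_singleton_self y), ?_⟩
    ext i
    fin_cases i
    · show (z 0 * y 1 - z 1 * y 0) / (x 0 * y 1 - x 1 * y 0) * x 0 +
        (x 0 * z 1 - x 1 * z 0) / (x 0 * y 1 - x 1 * y 0) * y 0 = z 0
      rw [div_mul_eq_mul_div, div_mul_eq_mul_div, ← add_div, div_eq_iff h]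
      ring
    · show (z 0 * y 1 - z 1 * y 0) / (x 0 * y 1 - x 1 * y 0) * x 1 +
        (x 0 * z 1 - x 1 * z 0) / (x 0 * y 1 - x 1 * y 0) * y 1 = z 1
      rw [div_mul_eq_mul_div, div_mul_eq_mul_div, ← add_div, div_eq_iff h]
      ring

/-- two vectors of the plane with zero determinant, the first one non-zero: the second is a
multiple of the first. -/
theorem dsg_ss_exists_smul_of_det (x y : Fin 2 → F) (hx : x ≠ 0)
    (h : x 0 * y 1 - x 1 * y 0 = 0) : ∃ c : F, c • x = y := by
  by_cases h0 : x 0 = 0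
  · have h1 : x 1 ≠ 0 := by
      intro h1
      apply hx
      ext i
      fin_cases i
      · exact h0
      · exact h1
    refine ⟨y 1 / x 1, ?_⟩
    ext i
    fin_cases i
    · simp only [Fin.zero_eta, Pi.smul_apply, smul_eq_mul, h0, mul_zero]
      rw [h0, zero_mul, zero_sub, neg_eq_zero, mul_eq_zero] at h
      exact (h.resolve_left h1).symm
    · simp only [Fin.mk_one, Pi.smul_apply, smul_eq_mul]
      rw [div_mul_cancel₀ _ h1]
  · refine ⟨y 0 / x 0, ?_⟩
    ext i
    fin_cases i
    · simp only [Fin.zero_eta, Pi.smul_apply, smul_eq_mul]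
      rw [div_mul_cancel₀ _ h0]
    · simp only [Fin.mk_one, Pi.smul_apply, smul_eq_mul]
      field_simp
      linear_combination -h

end Plane

section Descend

variable {F₀ F : Type*} [Field F₀] [Field F]

theorem dsg_ss_map_mulVec (θ : F₀ →+* F) (m : Matrix (Fin 2) (Fin 2) F₀) (u : Fin 2 → F₀) :
    (m.map θ) *ᵥ (fun i => θ (u i)) = fun i => θ ((m *ᵥ u) i) := by
  ext i
  exact (RingHom.map_mulVec θ m u i).symm

theorem dsg_ss_map_vec_ne_zero (θ : F₀ →+* F) (u : Fin 2 → F₀) (hu : u ≠ 0) :
    (fun i => θ (u i)) ≠ 0 := by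
  intro h
  apply hu
  ext i
  have := congrFun h i
  simpa using this

/-- a singular non-zero `2 × 2` matrix kills a non-zero vector (explicitly). -/
theorem dsg_ss_exists_eigen (m : Matrix (Fin 2) (Fin 2) F₀) (c : F₀)
    (hm : ∀ c : F₀, m ≠ c • 1)
    (hc : c * c - (m 0 0 + m 1 1) * c + (m 0 0 * m 1 1 - m 0 1 * m 1 0) = 0) :
    ∃ u : Fin 2 → F₀, u ≠ 0 ∧ m *ᵥ u = c • u := by
  by_cases hrow : m 0 0 - c = 0 ∧ m 0 1 = 0
  · obtain ⟨h00, h01⟩ := hrow
    have hrow1 : ¬ (m 1 0 = 0 ∧ m 1 1 - c = 0) := by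
      rintro ⟨h10, h11⟩
      apply hm c
      ext i j
      fin_cases i <;> fin_cases j
      · simpa using sub_eq_zero.mp h00
      · simpa using h01
      · simpa using h10
      · simpa using sub_eq_zero.mp h11
    refine ⟨![-(m 1 1 - c), m 1 0], ?_, ?_⟩
    · intro h
      apply hrow1
      have e0 := congrFun h 0
      have e1 := congrFun h 1
      simp at e0 e1
      exact ⟨e1, by linear_combination -e0⟩
    · ext i
      fin_cases i
      · simp [Matrix.mulVec, dotProduct, Fin.sum_univ_two]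
        rw [h01]
        linear_combination -(m 1 1 - c) * h00
      · simp [Matrix.mulVec, dotProduct, Fin.sum_univ_two]
        ring
  · refine ⟨![-(m 0 1), m 0 0 - c], ?_, ?_⟩
    · intro h
      apply hrow
      have e0 := congrFun h 0
      have e1 := congrFun h 1
      simp at e0 e1
      exact ⟨e1, e0⟩
    · ext i
      fin_cases i
      · simp [Matrix.mulVec, dotProduct, Fin.sum_univ_two]
        ring
      · simp [Matrix.mulVec, dotProduct, Fin.sum_univ_two]
        linear_combination hc

/-- an eigenvector over `F` of a non-scalar matrix defined over the algebraically closed field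
`F₀` is proportional to a vector defined over `F₀`. -/
theorem dsg_ss_eigen_descend [IsAlgClosed F₀] (θ : F₀ →+* F) (m : Matrix (Fin 2) (Fin 2) F₀)
    (hm : ∀ c : F₀, m ≠ c • 1) (v : Fin 2 → F) (hv : v ≠ 0) (lam : F)
    (hlam : (m.map θ) *ᵥ v = lam • v) :
    ∃ (u : Fin 2 → F₀) (x : F), u ≠ 0 ∧ x • (fun i => θ (u i)) = v := by
  have e0 : θ (m 0 0) * v 0 + θ (m 0 1) * v 1 = lam * v 0 := by
    have := congrFun hlam 0
    simpa [Matrix.mulVec, dotProduct, Fin.sum_univ_two] using this
  have e1 : θ (m 1 0) * v 0 + θ (m 1 1) * v 1 = lam * v 1 := by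
    have := congrFun hlam 1
    simpa [Matrix.mulVec, dotProduct, Fin.sum_univ_two] using this
  -- `lam` is a root of the characteristic polynomial
  have hchar : lam * lam - θ (m 0 0 + m 1 1) * lam + θ (m 0 0 * m 1 1 - m 0 1 * m 1 0) = 0 := by
    simp only [map_add, map_sub, map_mul]
    by_cases hv0 : v 0 = 0
    · have hv1 : v 1 ≠ 0 := by
        intro hv1
        apply hv
        ext i
        fin_cases i
        · exact hv0
        · exact hv1
      apply mul_right_cancel₀ hv1
      rw [zero_mul]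
      linear_combination (θ (m 0 0) - lam) * e1 - θ (m 1 0) * e0
    · apply mul_right_cancel₀ hv0
      rw [zero_mul]
      linear_combination (θ (m 1 1) - lam) * e0 - θ (m 0 1) * e1
  -- the roots lie in `F₀`
  set t : F₀ := m 0 0 + m 1 1 with ht
  set d : F₀ := m 0 0 * m 1 1 - m 0 1 * m 1 0 with hd
  obtain ⟨a, ha⟩ := IsAlgClosed.exists_root
    (Polynomial.X ^ 2 - Polynomial.C t * Polynomial.X + Polynomial.C d : Polynomial F₀) (by
      have : (Polynomial.X ^ 2 - Polynomial.C t * Polynomial.X +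
          Polynomial.C d : Polynomial F₀).degree = 2 := by
        compute_degree!
      rw [this]; norm_num)
  have ha' : a * a - t * a + d = 0 := by
    have := ha
    simp only [Polynomial.IsRoot.def, Polynomial.eval_add, Polynomial.eval_sub,
      Polynomial.eval_pow, Polynomial.eval_X, Polynomial.eval_mul, Polynomial.eval_C] at this
    linear_combination this
  have hb' : (t - a) * (t - a) - t * (t - a) + d = 0 := by linear_combination ha'
  have hfac : (lam - θ a) * (lam - θ (t - a)) = 0 := by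
    have h1 : θ d = θ a * θ (t - a) := by
      rw [← map_mul]
      congr 1
      linear_combination ha'
    have h2 : θ t = θ a + θ (t - a) := by
      rw [← map_add]
      congr 1
      ring
    rw [h1, h2] at hchar
    linear_combination hchar
  obtain ⟨c, hc, hlamc⟩ : ∃ c : F₀, c * c - t * c + d = 0 ∧ lam = θ c := by
    rcases mul_eq_zero.mp hfac with h | h
    · exact ⟨a, ha', sub_eq_zero.mp h⟩
    · exact ⟨t - a, hb', sub_eq_zero.mp h⟩
  obtain ⟨u, hu0, hu⟩ := dsg_ss_exists_eigen m c hm hc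
  refine ⟨u, ?_⟩
  have f0 : m 0 0 * u 0 + m 0 1 * u 1 = c * u 0 := by
    have := congrFun hu 0
    simpa [Matrix.mulVec, dotProduct, Fin.sum_univ_two] using this
  have f1 : m 1 0 * u 0 + m 1 1 * u 1 = c * u 1 := by
    have := congrFun hu 1
    simpa [Matrix.mulVec, dotProduct, Fin.sum_univ_two] using this
  have g0 : θ (m 0 0) * θ (u 0) + θ (m 0 1) * θ (u 1) = lam * θ (u 0) := by
    rw [hlamc, ← map_mul, ← map_mul, ← map_add, ← map_mul, f0]
  have g1 : θ (m 1 0) * θ (u 0) + θ (m 1 1) * θ (u 1) = lam * θ (u 1) := by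
    rw [hlamc, ← map_mul, ← map_mul, ← map_add, ← map_mul, f1]
  -- the determinant of `(θ u, v)` vanishes
  have hD : θ (u 0) * v 1 - θ (u 1) * v 0 = 0 := by
    by_contra hD
    apply hm c
    have k00 : θ (m 0 0) - lam = 0 := by
      apply mul_right_cancel₀ hD
      rw [zero_mul]
      linear_combination v 1 * g0 - θ (u 1) * e0
    have k01 : θ (m 0 1) = 0 := by
      apply mul_right_cancel₀ hD
      rw [zero_mul]
      linear_combination θ (u 0) * e0 - v 0 * g0
    have k10 : θ (m 1 0) = 0 := by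
      apply mul_right_cancel₀ hD
      rw [zero_mul]
      linear_combination v 1 * g1 - θ (u 1) * e1
    have k11 : θ (m 1 1) - lam = 0 := by
      apply mul_right_cancel₀ hD
      rw [zero_mul]
      linear_combination θ (u 0) * e1 - v 0 * g1
    have hinj := θ.injective
    ext i j
    fin_cases i <;> fin_cases j
    · have : θ (m 0 0) = θ c := by rw [← hlamc]; exact sub_eq_zero.mp k00
      simpa using hinj this
    · have : θ (m 0 1) = θ 0 := by rw [map_zero]; exact k01
      simpa using hinj this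
    · have : θ (m 1 0) = θ 0 := by rw [map_zero]; exact k10
      simpa using hinj this
    · have : θ (m 1 1) = θ c := by rw [← hlamc]; exact sub_eq_zero.mp k11
      simpa using hinj this
  obtain ⟨x, hx⟩ := dsg_ss_exists_smul_of_det (fun i => θ (u i)) v
    (dsg_ss_map_vec_ne_zero θ u hu0) hD
  exact ⟨x, hu0, hx⟩

end Descend

section Main

variable {F₀ F : Type*} [Field F₀] [IsAlgClosed F₀] [Field F]

/-- **Semisimplicity is preserved by extension of an algebraically closed base field** (plane). -/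
theorem dsg_ss_map (θ : F₀ →+* F) (𝓜 : Set (Matrix (Fin 2) (Fin 2) F₀))
    (hss : ∀ L₀ : Submodule F₀ (Fin 2 → F₀), (∀ m ∈ 𝓜, ∀ v ∈ L₀, m *ᵥ v ∈ L₀) →
      ∃ L₀' : Submodule F₀ (Fin 2 → F₀), (∀ m ∈ 𝓜, ∀ v ∈ L₀', m *ᵥ v ∈ L₀') ∧ IsCompl L₀ L₀')
    (L : Submodule F (Fin 2 → F)) (hL : ∀ m ∈ 𝓜, ∀ v ∈ L, (m.map θ) *ᵥ v ∈ L) :
    ∃ L' : Submodule F (Fin 2 → F), (∀ m ∈ 𝓜, ∀ v ∈ L', (m.map θ) *ᵥ v ∈ L') ∧
      IsCompl L L' := by
  classical
  by_cases hsc : ∀ m ∈ 𝓜, ∃ c : F₀, m = c • 1
  · obtain ⟨L', hL'⟩ := Submodule.exists_isCompl L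
    refine ⟨L', ?_, hL'⟩
    intro m hm v hv
    obtain ⟨c, rfl⟩ := hsc m hm
    have h1 : ((c • (1 : Matrix (Fin 2) (Fin 2) F₀)).map θ) *ᵥ v = θ c • v := by
      ext i
      fin_cases i <;>
        simp [Matrix.mulVec, dotProduct, Fin.sum_univ_two, Matrix.one_apply]
    rw [h1]
    exact Submodule.smul_mem _ _ hv
  · push Not at hsc
    obtain ⟨m₀, hm₀, hns⟩ := hsc
    have hdim : Module.finrank F L ≤ 2 := by
      have := Submodule.finrank_le L
      simpa using this
    rcases Nat.lt_or_ge (Module.finrank F L) 1 with h0 | h1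
    · have hbot : L = ⊥ := Submodule.finrank_eq_zero.mp (by omega)
      subst hbot
      exact ⟨⊤, fun _ _ _ _ => Submodule.mem_top, isCompl_bot_top⟩
    rcases Nat.lt_or_ge (Module.finrank F L) 2 with h2 | h2
    · have h1' : Module.finrank F L = 1 := by omega
      obtain ⟨w, hw0, hw⟩ := finrank_eq_one_iff'.mp h1'
      set v : Fin 2 → F := (w : Fin 2 → F) with hv
      have hvL : v ∈ L := w.2
      have hv0 : v ≠ 0 := fun h => hw0 (Subtype.ext h)
      have hLv : ∀ y ∈ L, ∃ c : F, c • v = y := by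
        intro y hy
        obtain ⟨c, hc⟩ := hw ⟨y, hy⟩
        exact ⟨c, by simpa using congrArg Subtype.val hc⟩
      obtain ⟨lam, hlam⟩ := hLv _ (hL m₀ hm₀ v hvL)
      obtain ⟨u, x, hu0, hx⟩ := dsg_ss_eigen_descend θ m₀ hns v hv0 lam hlam.symm
      have hx0 : x ≠ 0 := by
        rintro rfl
        rw [zero_smul] at hx
        exact hv0 hx.symm
      set θu : Fin 2 → F := fun i => θ (u i) with hθu
      have hθuL : θu ∈ L := by
        have h3 : θu = x⁻¹ • v := by rw [← hx, smul_smul, inv_mul_cancel₀ hx0, one_smul]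
        rw [h3]
        exact Submodule.smul_mem _ _ hvL
      -- the line `F₀ u` is stable
      have hL₀ : ∀ m ∈ 𝓜, ∀ y ∈ Submodule.span F₀ {u}, m *ᵥ y ∈ Submodule.span F₀ {u} := by
        intro m hm y hy
        obtain ⟨b, rfl⟩ := Submodule.mem_span_singleton.mp hy
        rw [Matrix.mulVec_smul]
        apply Submodule.smul_mem
        obtain ⟨c, hc⟩ := hLv _ (hL m hm θu hθuL)
        rw [hθu, dsg_ss_map_mulVec] at hc
        have hc' : ∀ i, c * x * θ (u i) = θ ((m *ᵥ u) i) := by
          intro i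
          have h4 := congrFun hc i
          rw [← hx] at h4
          simpa [mul_assoc] using h4
        obtain ⟨i₀, hi₀⟩ : ∃ i, u i ≠ 0 := by
          by_contra h
          push Not at h
          exact hu0 (funext h)
        have h5 : θ (u i₀) ≠ 0 := (map_ne_zero θ).mpr hi₀
        have hcx : c * x = θ ((m *ᵥ u) i₀ / u i₀) := by
          rw [map_div₀, eq_div_iff h5]
          exact hc' i₀
        rw [Submodule.mem_span_singleton]
        refine ⟨(m *ᵥ u) i₀ / u i₀, ?_⟩
        ext i
        apply θ.injective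
        rw [Pi.smul_apply, smul_eq_mul, map_mul, ← hcx]
        exact hc' i
      obtain ⟨L₀', hL₀', hcompl⟩ := hss _ hL₀
      have hfinL₀ : Module.finrank F₀ (Submodule.span F₀ {u}) = 1 := finrank_span_singleton hu0
      have hfinL₀' : Module.finrank F₀ L₀' = 1 := by
        have h6 := Submodule.finrank_add_eq_of_isCompl hcompl
        rw [hfinL₀, Module.finrank_fintype_fun_eq_card, Fintype.card_fin] at h6
        omega
      obtain ⟨w', hw'0, hw'⟩ := finrank_eq_one_iff'.mp hfinL₀'
      set u' : Fin 2 → F₀ := (w' : Fin 2 → F₀) with hu'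
      have hu'0 : u' ≠ 0 := fun h => hw'0 (Subtype.ext h)
      have hu'L : u' ∈ L₀' := w'.2
      have hdet : u 0 * u' 1 - u 1 * u' 0 ≠ 0 := by
        intro h
        obtain ⟨c, hc⟩ := dsg_ss_exists_smul_of_det u u' hu0 h
        have h7 : u' ∈ Submodule.span F₀ {u} := by
          rw [← hc]
          exact Submodule.smul_mem _ _ (Submodule.mem_span_singleton_self u)
        have h8 : u' ∈ Submodule.span F₀ {u} ⊓ L₀' := ⟨h7, hu'L⟩
        rw [hcompl.inf_eq_bot] at h8
        exact hu'0 ((Submodule.mem_bot _).mp h8)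
      set θu' : Fin 2 → F := fun i => θ (u' i) with hθu'
      have hdetθ : θu 0 * θu' 1 - θu 1 * θu' 0 ≠ 0 := by
        show θ (u 0) * θ (u' 1) - θ (u 1) * θ (u' 0) ≠ 0
        rw [← map_mul, ← map_mul, ← map_sub]
        exact (map_ne_zero θ).mpr hdet
      have hLspan : L = Submodule.span F {θu} := by
        apply le_antisymm
        · intro y hy
          obtain ⟨c, rfl⟩ := hLv y hy
          rw [← hx, smul_smul]
          exact Submodule.mem_span_singleton.mpr ⟨_, rfl⟩
        · rw [Submodule.span_singleton_le_iff_mem]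
          exact hθuL
      refine ⟨Submodule.span F {θu'}, ?_, ?_⟩
      · intro m hm y hy
        obtain ⟨b, rfl⟩ := Submodule.mem_span_singleton.mp hy
        rw [Matrix.mulVec_smul]
        apply Submodule.smul_mem
        obtain ⟨c, hc⟩ := hw' ⟨m *ᵥ u', hL₀' m hm u' hu'L⟩
        have hc' : c • u' = m *ᵥ u' := by simpa using congrArg Subtype.val hc
        rw [hθu', dsg_ss_map_mulVec, ← hc', Submodule.mem_span_singleton]
        refine ⟨θ c, ?_⟩
        ext i
        simp
      · rw [hLspan]
        exact dsg_ss_isCompl_of_det θu θu' hdetθ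
    · have htop : L = ⊤ := by
        apply Submodule.eq_top_of_finrank_eq
        rw [Module.finrank_fintype_fun_eq_card, Fintype.card_fin]
        omega
      subst htop
      refine ⟨⊥, ?_, isCompl_top_bot⟩
      intro m _ v hv
      rw [Submodule.mem_bot] at hv
      rw [hv, Matrix.mulVec_zero]
      exact Submodule.zero_mem _

end Main

/-- `ds_Semisimple` is preserved by extension of an algebraically closed coefficient field. -/
theorem dsg_ss_map_rep {k₀ k : Type} [Field k₀] [IsAlgClosed k₀] [Field k] (θ : k₀ →+* k)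
    (ρ₀ : ds_G →* GL (Fin 2) k₀) (h : ds_Semisimple ρ₀) :
    ds_Semisimple ((Matrix.GeneralLinearGroup.map θ).comp ρ₀) := by
  have hcoe : ∀ σ : ds_G, ((((Matrix.GeneralLinearGroup.map θ).comp ρ₀) σ : GL (Fin 2) k) :
      Matrix (Fin 2) (Fin 2) k) = ((ρ₀ σ : GL (Fin 2) k₀) : Matrix (Fin 2) (Fin 2) k₀).map θ := by
    intro σ
    ext i j
    rfl
  intro L hL
  obtain ⟨L', hL', hc⟩ := dsg_ss_map θ
    (Set.range fun σ : ds_G => ((ρ₀ σ : GL (Fin 2) k₀) : Matrix (Fin 2) (Fin 2) k₀))
    (by
      intro L₀ hL₀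
      obtain ⟨L₀', h1, h2⟩ := h L₀ (fun σ v hv => hL₀ _ ⟨σ, rfl⟩ v hv)
      refine ⟨L₀', ?_, h2⟩
      rintro _ ⟨σ, rfl⟩ v hv
      exact h1 σ v hv)
    L
    (by
      rintro _ ⟨σ, rfl⟩ v hv
      have := hL σ v hv
      rwa [hcoe] at this)
  refine ⟨L', ?_, hc⟩
  intro σ v hv
  rw [hcoe]
  exact hL' _ ⟨σ, rfl⟩ v hv

end Fermat.Agent.DS
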